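/-
Library EtaFN (architect helper210): eta quotients as elements of the function field `FN N` of
`X₀(N)` over `ℚ̄`.  Basic definitions.
-/
import Fermat.Agent.S24.B.Main
import Fermat.Agent.S28.Analytic.EtaQuotN

set_option autoImplicit false

namespace Fermat.Agent.Lib.EtaFN

open UpperHalfPlane ModularCurve Fermat.Agent.S24 Fermat.Agent.S24.B
open scoped MatrixGroups Manifold

/-- `f` is holomorphic on `ℍ` and every translate `f ∘ γ`, `γ ∈ SL(2,ℤ)`, has an expansion in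
`t = exp (2 π i τ / N)` with coefficients in `ℚ̄`. -/
structure IsNice (N : ℕ) (f : ℍ → ℂ) : Prop where
  mdiff : MDiff f
  texp : ∀ γ : SL(2, ℤ), ∃ s : LaurentSeries Kbar, HasTExp N (fun τ => f (γ • τ)) s

/-- A holomorphic modular function for `Γ₀(N)`, meromorphic at the cusps, with expansions over
`ℚ̄` at all cusps. -/
structure IsModFun (N : ℕ) (f : ℍ → ℂ) : Prop extends IsNice N f where
  inv : ∀ γ ∈ CongruenceSubgroup.Gamma0 N, ∀ τ : ℍ, f (γ • τ) = f τ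

/-- All the expansions of `f` have coefficients which are algebraic integers. -/
def IsIntAtCusps (N : ℕ) (f : ℍ → ℂ) : Prop :=
  ∀ γ : SL(2, ℤ), ∃ s : LaurentSeries Kbar, HasTExp N (fun τ => f (γ • τ)) s ∧
    ∀ n : ℤ, IsIntegral ℤ (s.coeff n)

section Eta

variable {ι : Type*} (s : Finset ι)

/-- `η ((a τ + b) / d)`. -/
noncomputable def etaAff (a d : ℕ) (b : ℤ) (τ : ℍ) : ℂ :=
  ModularForm.eta (((a : ℂ) * τ + b) / d)

/-- `∏ η ((a_i τ + b_i) / d_i) ^ r_i`. -/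
noncomputable def etaAffProd (a d : ι → ℕ) (b : ι → ℤ) (r : ι → ℤ) (τ : ℍ) : ℂ :=
  ∏ i ∈ s, etaAff (a i) (d i) (b i) τ ^ r i

/-- The eta quotient `∏ η (D_i τ) ^ r_i`. -/
noncomputable def etaQuot (D : ι → ℕ) (r : ι → ℤ) (τ : ℍ) : ℂ :=
  ∏ i ∈ s, ModularForm.eta ((D i : ℂ) * τ) ^ r i

end Eta

/-- A series of the shape `c t^m (1 + a₁ t + a₂ t² + ⋯)` with the `a_i` algebraic integers. -/
def IsUnitShape (S : LaurentSeries Kbar) (c : Kbar) (m : ℤ) : Prop :=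
  ∃ U : PowerSeries Kbar, PowerSeries.constantCoeff U = 1 ∧
    (∀ n, IsIntegral ℤ (PowerSeries.coeff n U)) ∧
    S = HahnSeries.C c * HahnSeries.single m 1 * HahnSeries.ofPowerSeries ℤ Kbar U

/-- The Euler product `∏ (1 - q^n)` as a Laurent series over `ℚ̄`. -/
noncomputable def eulerSer : LaurentSeries Kbar :=
  HahnSeries.ofPowerSeries ℤ Kbar (etaProd.map (Int.castRingHom Kbar))

/-- The Euler product `∏ (1 - q^(D n))` (junk value `1` for `D = 0`). -/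
noncomputable def eulerSerD (D : ℕ) : LaurentSeries Kbar :=
  if h : D = 0 then 1 else haveI : NeZero D := ⟨h⟩; qExpand Kbar D eulerSer

theorem eulerSerD_eq (D : ℕ) [NeZero D] : eulerSerD D = qExpand Kbar D eulerSer := by
  rw [eulerSerD, dif_neg (NeZero.ne D)]

/-- The formal `q`-expansion of the eta quotient `∏ η (D_i τ) ^ r_i`, up to the power of `q`. -/
noncomputable def etaSer {ι : Type*} (s : Finset ι) (D : ι → ℕ) (r : ι → ℤ) : LaurentSeries Kbar :=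
  ∏ i ∈ s, eulerSerD (D i) ^ r i

/-- The matrix `[1, 0; k, 1]`. -/
def lowerTri (k : ℤ) : SL(2, ℤ) := ⟨!![1, 0; k, 1], by simp [Matrix.det_fin_two]⟩

/-- The odd quadratic character modulo `4` (on odd integers). -/
noncomputable def chi4 (d : ℤ) : ℂ := if d % 4 = 1 then 1 else -1

/-- The odd quadratic character modulo `3` (on integers prime to `3`). -/
noncomputable def chi3 (d : ℤ) : ℂ := if d % 3 = 1 then 1 else -1

/-- `G4 = η(2τ)^10 / (η(τ) η(4τ))^4 = θ(τ)^2`, of weight one on `Γ₀(4)`. -/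
def D4 : Fin 3 → ℕ := ![1, 2, 4]
/-- exponents of `G4`. -/
def r4 : Fin 3 → ℤ := ![-4, 10, -4]
/-- `G9 = η(τ)^3 / η(3τ)`, of weight one on `Γ₀(9)`. -/
def D9 : Fin 2 → ℕ := ![1, 3]
/-- exponents of `G9`. -/
def r9 : Fin 2 → ℤ := ![3, -1]
/-- `t4 = η(τ)^8 / η(4τ)^8`, a Hauptmodul of `Γ₀(4)`. -/
def Dt4 : Fin 2 → ℕ := ![1, 4]
/-- exponents of `t4`. -/
def rt4 : Fin 2 → ℤ := ![8, -8]
/-- `t9 = η(τ)^3 / η(9τ)^3`, a Hauptmodul of `Γ₀(9)`. -/
def Dt9 : Fin 2 → ℕ := ![1, 9]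
/-- exponents of `t9`. -/
def rt9 : Fin 2 → ℤ := ![3, -3]

section Ratio

variable {ι : Type*}

/-- levels of the eta quotient `G(E τ) / G(E' τ)`, `G = ∏ η (D₀ i τ) ^ r₀ i`. -/
def ratioD (D₀ : ι → ℕ) (E E' : ℕ) : ι ⊕ ι → ℕ :=
  Sum.elim (fun i => E * D₀ i) (fun i => E' * D₀ i)

/-- exponents of the eta quotient `G(E τ) / G(E' τ)`. -/
def ratioR (r₀ : ι → ℤ) : ι ⊕ ι → ℤ := Sum.elim r₀ (fun i => - r₀ i)

end Ratio

end Fermat.Agent.Lib.EtaFN
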