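/-
Library EtaFN, node C5 : calculus of `IsUnitShape`.  Owner: helper240.
-/
import Fermat.Agent.Lib.EtaFN.Defs

set_option autoImplicit false

noncomputable section

namespace Fermat.Agent.Lib.EtaFN

open ModularCurve Fermat.Agent.S24 Fermat.Agent.S24.B

namespace Shape

/-- Power series with constant coefficient `1` and integral coefficients. -/
def IsGood (U : PowerSeries Kbar) : Prop :=
  PowerSeries.constantCoeff U = 1 ∧ ∀ n, IsIntegral ℤ (PowerSeries.coeff n U)

/-- The ring of algebraic integers. -/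
abbrev OO : Subalgebra ℤ Kbar := integralClosure ℤ Kbar

theorem isGood_iff (U : PowerSeries Kbar) :
    IsGood U ↔ ∃ V : PowerSeries OO, PowerSeries.constantCoeff V = 1 ∧
      PowerSeries.map (algebraMap OO Kbar) V = U := by
  constructor
  · rintro ⟨h1, h2⟩
    refine ⟨PowerSeries.mk fun n => ⟨PowerSeries.coeff n U, h2 n⟩, ?_, ?_⟩
    · rw [← PowerSeries.coeff_zero_eq_constantCoeff_apply, PowerSeries.coeff_mk]
      apply Subtype.ext
      change PowerSeries.coeff 0 U = 1
      rw [PowerSeries.coeff_zero_eq_constantCoeff_apply, h1]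
    · ext n
      rw [PowerSeries.coeff_map, PowerSeries.coeff_mk]
      rfl
  · rintro ⟨V, h1, rfl⟩
    refine ⟨?_, fun n => ?_⟩
    · rw [← PowerSeries.coeff_zero_eq_constantCoeff_apply, PowerSeries.coeff_map,
        PowerSeries.coeff_zero_eq_constantCoeff_apply, h1, map_one]
    · rw [PowerSeries.coeff_map]
      exact (PowerSeries.coeff n V).2

theorem IsGood.one : IsGood 1 := by
  refine ⟨map_one _, fun n => ?_⟩
  rw [PowerSeries.coeff_one]
  split_ifs
  · exact isIntegral_one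
  · exact isIntegral_zero

theorem IsGood.mul {U U' : PowerSeries Kbar} (h : IsGood U) (h' : IsGood U') : IsGood (U * U') := by
  rw [isGood_iff] at h h' ⊢
  obtain ⟨V, h1, rfl⟩ := h
  obtain ⟨V', h1', rfl⟩ := h'
  exact ⟨V * V', by rw [map_mul, h1, h1', one_mul], map_mul _ _ _⟩

theorem IsGood.exists_inv {U : PowerSeries Kbar} (h : IsGood U) :
    ∃ U' : PowerSeries Kbar, IsGood U' ∧ U * U' = 1 := by
  rw [isGood_iff] at h
  obtain ⟨V, h1, rfl⟩ := h
  have h2 : V * V.invOfUnit 1 = 1 := PowerSeries.mul_invOfUnit V 1 (by rw [h1]; rfl)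
  refine ⟨PowerSeries.map (algebraMap OO Kbar) (V.invOfUnit 1), ?_, ?_⟩
  · rw [isGood_iff]
    refine ⟨_, ?_, rfl⟩
    have h3 := congrArg (PowerSeries.constantCoeff (R := OO)) h2
    rwa [map_mul, h1, one_mul, map_one] at h3
  · rw [← map_mul, h2, map_one]

/-- coefficients of `ofPowerSeries` -/
theorem coeff_ofPS_nat (U : PowerSeries Kbar) (n : ℕ) :
    (HahnSeries.ofPowerSeries ℤ Kbar U).coeff (n : ℤ) = PowerSeries.coeff n U :=
  (PowerSeries.coeff_coe U n).trans (by simp)

theorem coeff_ofPS_neg (U : PowerSeries Kbar) {n : ℤ} (hn : n < 0) :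
    (HahnSeries.ofPowerSeries ℤ Kbar U).coeff n = 0 :=
  (PowerSeries.coeff_coe U n).trans (by rw [if_pos hn])

/-- coefficients of a series in shape form -/
theorem coeff_shape (c : Kbar) (m : ℤ) (T : LaurentSeries Kbar) (n : ℤ) :
    (HahnSeries.C c * HahnSeries.single m 1 * T).coeff n = c * T.coeff (n - m) := by
  rw [mul_assoc, HahnSeries.C_mul_eq_smul, HahnSeries.coeff_smul, smul_eq_mul]
  congr 1
  have : n = (n - m) + m := by ring
  conv_lhs => rw [this]
  rw [HahnSeries.coeff_single_mul_add, one_mul]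

/-- The substitution `X ↦ X ^ e`. -/
def dil (e : ℕ) (W : PowerSeries Kbar) : PowerSeries Kbar :=
  PowerSeries.mk fun n => if e ∣ n then PowerSeries.coeff (n / e) W else 0

theorem qExpand_ofPS (e : ℕ) [NeZero e] (W : PowerSeries Kbar) :
    qExpand Kbar e (HahnSeries.ofPowerSeries ℤ Kbar W) =
      HahnSeries.ofPowerSeries ℤ Kbar (dil e W) := by
  have he : 0 < e := Nat.pos_of_ne_zero (NeZero.ne e)
  have he' : (0 : ℤ) < (e : ℤ) := by exact_mod_cast he
  ext k
  by_cases hk : (e : ℤ) ∣ k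
  · obtain ⟨j, rfl⟩ := hk
    rw [qExpand_coeff_mul]
    by_cases hj : 0 ≤ j
    · obtain ⟨i, rfl⟩ := Int.eq_ofNat_of_zero_le hj
      have : (e : ℤ) * (i : ℤ) = ((e * i : ℕ) : ℤ) := by push_cast; ring
      rw [this, coeff_ofPS_nat, coeff_ofPS_nat, dil, PowerSeries.coeff_mk,
        if_pos (Dvd.intro _ rfl), Nat.mul_div_cancel_left _ he]
    · have hj' : j < 0 := by omega
      rw [coeff_ofPS_neg _ hj', coeff_ofPS_neg _ (mul_neg_of_pos_of_neg he' hj')]
  · rw [qExpand_coeff_of_not_dvd e _ hk]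
    by_cases hk0 : 0 ≤ k
    · obtain ⟨i, rfl⟩ := Int.eq_ofNat_of_zero_le hk0
      rw [coeff_ofPS_nat, dil, PowerSeries.coeff_mk, if_neg]
      intro h
      exact hk (by exact_mod_cast h)
    · rw [coeff_ofPS_neg _ (by omega)]

theorem IsGood.dil {W : PowerSeries Kbar} (h : IsGood W) (e : ℕ) : IsGood (dil e W) := by
  refine ⟨?_, fun n => ?_⟩
  · rw [← PowerSeries.coeff_zero_eq_constantCoeff_apply, Shape.dil, PowerSeries.coeff_mk,
      if_pos (dvd_zero e), Nat.zero_div, PowerSeries.coeff_zero_eq_constantCoeff_apply, h.1]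
  · rw [Shape.dil, PowerSeries.coeff_mk]
    split_ifs
    · exact h.2 _
    · exact isIntegral_zero

theorem IsGood.rescale {W : PowerSeries Kbar} (h : IsGood W) {ξ : Kbar} (hξ : IsIntegral ℤ ξ) :
    IsGood (PowerSeries.rescale ξ W) := by
  refine ⟨?_, fun n => ?_⟩
  · rw [← PowerSeries.coeff_zero_eq_constantCoeff_apply, PowerSeries.coeff_rescale, pow_zero,
      one_mul, PowerSeries.coeff_zero_eq_constantCoeff_apply, h.1]
  · rw [PowerSeries.coeff_rescale]
    exact (hξ.pow n).mul (h.2 n)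

theorem single_eq (c : Kbar) (m : ℤ) :
    (HahnSeries.single m c : LaurentSeries Kbar) = HahnSeries.C c * HahnSeries.single m 1 := by
  rw [HahnSeries.C_apply, HahnSeries.single_mul_single, zero_add, mul_one]

end Shape

open Shape

theorem isUnitShape_iff {S : LaurentSeries Kbar} {c : Kbar} {m : ℤ} :
    IsUnitShape S c m ↔ ∃ U : PowerSeries Kbar, IsGood U ∧
      S = HahnSeries.C c * HahnSeries.single m 1 * HahnSeries.ofPowerSeries ℤ Kbar U :=
  ⟨fun ⟨U, h1, h2, h3⟩ => ⟨U, ⟨h1, h2⟩, h3⟩, fun ⟨U, h1, h3⟩ => ⟨U, h1.1, h1.2, h3⟩⟩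

/-- C5 `Shape.lean`. -/
theorem IsUnitShape.mul {S S' : LaurentSeries Kbar} {c c' : Kbar} {m m' : ℤ}
    (h : IsUnitShape S c m) (h' : IsUnitShape S' c' m') :
    IsUnitShape (S * S') (c * c') (m + m') := by
  rw [isUnitShape_iff] at h h' ⊢
  obtain ⟨U, hU, rfl⟩ := h
  obtain ⟨U', hU', rfl⟩ := h'
  refine ⟨U * U', hU.mul hU', ?_⟩
  have h1 : (HahnSeries.single (m + m') 1 : LaurentSeries Kbar) =
      HahnSeries.single m 1 * HahnSeries.single m' 1 := by
    rw [HahnSeries.single_mul_single, one_mul]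
  rw [map_mul, map_mul, h1]
  ring

/-- C5 `Shape.lean`. -/
theorem IsUnitShape.inv {S : LaurentSeries Kbar} {c : Kbar} {m : ℤ} (h : IsUnitShape S c m) :
    IsUnitShape S⁻¹ c⁻¹ (-m) := by
  rw [isUnitShape_iff] at h ⊢
  obtain ⟨U, hU, rfl⟩ := h
  obtain ⟨U', hU', hUU'⟩ := hU.exists_inv
  refine ⟨U', hU', ?_⟩
  by_cases hc : c = 0
  · subst hc
    simp
  · symm
    apply eq_inv_of_mul_eq_one_left
    have h1 : (HahnSeries.single (-m) 1 : LaurentSeries Kbar) * HahnSeries.single m 1 = 1 := by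
      rw [HahnSeries.single_mul_single, one_mul, neg_add_cancel]; rfl
    have h2 : (HahnSeries.C c⁻¹ : LaurentSeries Kbar) * HahnSeries.C c = 1 := by
      rw [← map_mul, inv_mul_cancel₀ hc, map_one]
    have h3 : HahnSeries.ofPowerSeries ℤ Kbar U' * HahnSeries.ofPowerSeries ℤ Kbar U = 1 := by
      rw [← map_mul, mul_comm, hUU', map_one]
    calc HahnSeries.C c⁻¹ * HahnSeries.single (-m) 1 * HahnSeries.ofPowerSeries ℤ Kbar U' *
          (HahnSeries.C c * HahnSeries.single m 1 * HahnSeries.ofPowerSeries ℤ Kbar U)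
        = (HahnSeries.C c⁻¹ * HahnSeries.C c) *
          (HahnSeries.single (-m) 1 * HahnSeries.single m 1) *
          (HahnSeries.ofPowerSeries ℤ Kbar U' * HahnSeries.ofPowerSeries ℤ Kbar U) := by ring
      _ = 1 := by rw [h1, h2, h3, one_mul, one_mul]

/-- C5 `Shape.lean`. -/
theorem IsUnitShape.single (c : Kbar) (m : ℤ) : IsUnitShape (HahnSeries.single m c) c m := by
  rw [isUnitShape_iff]
  exact ⟨1, IsGood.one, by rw [map_one (HahnSeries.ofPowerSeries ℤ Kbar), mul_one, single_eq]⟩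

theorem IsUnitShape.one : IsUnitShape 1 1 0 := IsUnitShape.single 1 0

/-- C5 `Shape.lean`. -/
theorem IsUnitShape.zpow {S : LaurentSeries Kbar} {c : Kbar} {m : ℤ} (h : IsUnitShape S c m)
    (r : ℤ) : IsUnitShape (S ^ r) (c ^ r) (r * m) := by
  have hnat : ∀ n : ℕ, IsUnitShape (S ^ n) (c ^ n) (n * m) := by
    intro n
    induction n with
    | zero => simpa using IsUnitShape.one
    | succ n ih =>
      have := ih.mul h
      rw [pow_succ, pow_succ]
      have e : ((n + 1 : ℕ) : ℤ) * m = n * m + m := by push_cast; ring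
      rw [e]
      exact this
  cases r with
  | ofNat n => simpa using hnat n
  | negSucc n =>
    have := (hnat (n + 1)).inv
    rw [zpow_negSucc, zpow_negSucc]
    have e : Int.negSucc n * m = -(((n + 1 : ℕ) : ℤ) * m) := by
      rw [Int.negSucc_eq]; push_cast; ring
    rw [e]
    exact this

/-- C5 `Shape.lean`. -/
theorem IsUnitShape.prod {ι : Type*} (s : Finset ι) {S : ι → LaurentSeries Kbar} {c : ι → Kbar}
    {m : ι → ℤ} (h : ∀ i ∈ s, IsUnitShape (S i) (c i) (m i)) :
    IsUnitShape (∏ i ∈ s, S i) (∏ i ∈ s, c i) (∑ i ∈ s, m i) := by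
  classical
  induction s using Finset.induction_on with
  | empty => simpa using IsUnitShape.one
  | insert a s ha ih =>
    rw [Finset.prod_insert ha, Finset.prod_insert ha, Finset.sum_insert ha]
    exact (h a (Finset.mem_insert_self a s)).mul
      (ih fun i hi => h i (Finset.mem_insert_of_mem hi))

/-- C5 `Shape.lean`. -/
theorem IsUnitShape.qExpand_twist {S : LaurentSeries Kbar} {c : Kbar} {m : ℤ}
    (h : IsUnitShape S c m) (e : ℕ) [NeZero e] (ξ : Kbarˣ) (hξ : IsIntegral ℤ (ξ : Kbar)) :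
    IsUnitShape (qExpand Kbar e (twist ξ S)) (c * ((ξ ^ m : Kbarˣ) : Kbar)) (e * m) := by
  rw [isUnitShape_iff] at h ⊢
  obtain ⟨U, hU, rfl⟩ := h
  refine ⟨dil e (PowerSeries.rescale (ξ : Kbar) U), (hU.rescale hξ).dil e, ?_⟩
  have h1 : twist ξ (HahnSeries.single m 1 : LaurentSeries Kbar) =
      HahnSeries.single m ((ξ ^ m : Kbarˣ) : Kbar) := by
    ext n
    rw [twist_coeff, HahnSeries.coeff_single, HahnSeries.coeff_single]
    split_ifs with hn
    · subst hn; rw [mul_one]
    · rw [mul_zero]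
  rw [map_mul, map_mul, map_mul, map_mul, twist_C, h1, twist_ofPowerSeries, qExpand_C,
    qExpand_single, qExpand_ofPS, single_eq, map_mul]
  ring

/-- C5 `Shape.lean`. -/
theorem IsUnitShape.unique {S : LaurentSeries Kbar} {c c' : Kbar} {m m' : ℤ} (hc : c ≠ 0)
    (h : IsUnitShape S c m) (h' : IsUnitShape S c' m') : c = c' ∧ m = m' := by
  rw [isUnitShape_iff] at h h'
  obtain ⟨U, hU, hS⟩ := h
  obtain ⟨U', hU', hS'⟩ := h'
  have lead : ∀ (V : PowerSeries Kbar), IsGood V →
      (HahnSeries.ofPowerSeries ℤ Kbar V).coeff 0 = 1 := fun V hV => by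
    have := coeff_ofPS_nat V 0
    rw [PowerSeries.coeff_zero_eq_constantCoeff_apply, hV.1] at this
    simpa using this
  have e1 : S.coeff m = c := by rw [hS, coeff_shape, sub_self, lead U hU, mul_one]
  have e2 : S.coeff m = c' * (HahnSeries.ofPowerSeries ℤ Kbar U').coeff (m - m') := by
    rw [hS', coeff_shape]
  have e3 : S.coeff m' = c' := by rw [hS', coeff_shape, sub_self, lead U' hU', mul_one]
  have e4 : S.coeff m' = c * (HahnSeries.ofPowerSeries ℤ Kbar U).coeff (m' - m) := by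
    rw [hS, coeff_shape]
  have hc' : c' ≠ 0 := by
    rintro rfl
    rw [e1, zero_mul] at e2
    exact hc e2
  have g1 : 0 ≤ m - m' := by
    by_contra hlt
    rw [coeff_ofPS_neg _ (by omega), mul_zero, e1] at e2
    exact hc e2
  have g2 : 0 ≤ m' - m := by
    by_contra hlt
    rw [coeff_ofPS_neg _ (by omega), mul_zero, e3] at e4
    exact hc' e4
  have hm : m = m' := by omega
  subst hm
  exact ⟨e1.symm.trans e3, rfl⟩

/-- C5 `Shape.lean`.  If `c` is integral, all the coefficients are integral. -/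
theorem IsUnitShape.isIntegral_coeff {S : LaurentSeries Kbar} {c : Kbar} {m : ℤ}
    (h : IsUnitShape S c m) (hc : IsIntegral ℤ c) (n : ℤ) : IsIntegral ℤ (S.coeff n) := by
  rw [isUnitShape_iff] at h
  obtain ⟨U, hU, rfl⟩ := h
  rw [coeff_shape]
  refine hc.mul ?_
  by_cases hk : 0 ≤ n - m
  · obtain ⟨i, hi⟩ := Int.eq_ofNat_of_zero_le hk
    rw [hi, coeff_ofPS_nat]
    exact hU.2 i
  · rw [coeff_ofPS_neg _ (by omega)]
    exact isIntegral_zero

/-- C5 `Shape.lean`. -/
theorem isUnitShape_eulerSer : IsUnitShape eulerSer 1 0 := by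
  rw [isUnitShape_iff]
  refine ⟨etaProd.map (Int.castRingHom Kbar), ⟨?_, fun n => ?_⟩, ?_⟩
  · rw [← PowerSeries.coeff_zero_eq_constantCoeff_apply, PowerSeries.coeff_map,
      PowerSeries.coeff_zero_eq_constantCoeff_apply, constantCoeff_etaProd, map_one]
  · rw [PowerSeries.coeff_map]
    exact isIntegral_algebraMap (R := ℤ) (A := Kbar) (x := PowerSeries.coeff n etaProd)
  · rw [eulerSer, map_one, one_mul]
    have : (HahnSeries.single (0 : ℤ) (1 : Kbar) : LaurentSeries Kbar) = 1 := rfl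
    rw [this, one_mul]

end Fermat.Agent.Lib.EtaFN
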