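/-
Library EtaFN (architect helper210), node F1 (helper190): the exact `q`-expansion at `∞` of an eta
quotient.
-/
import Fermat.Agent.Lib.EtaFN.Shape
import Fermat.Agent.Lib.JExpansion
import Fermat.Agent.Lib.EtaUnit.TExp.Misc

set_option autoImplicit false

noncomputable section

namespace Fermat.Agent.Lib.EtaFN

open UpperHalfPlane ModularCurve AlgebraicCurve Fermat.Agent.S24 Fermat.Agent.S24.B
open scoped MatrixGroups Manifold Real ModularForm

namespace QExp

local notation "𝕢" => Function.Periodic.qParam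

/-- `η(z) = q^(1/24) ∏ (1 - q^n)`. -/
theorem eta_eq' (z : ℂ) : ModularForm.eta z = 𝕢 24 z * JExpansion.eulerFun (𝕢 1 z) := rfl

/-- the expansion of the Euler product. -/
theorem hasTExp_eulerFun' :
    HasTExp 1 (fun τ : ℍ => JExpansion.eulerFun (𝕢 1 τ)) eulerSer := by
  intro τ
  have h := JExpansion.ev_eulerFun (JExpansion.norm_q_lt_one τ)
  unfold JExpansion.Ev at h
  have hinj : Function.Injective (fun n : ℕ => (n : ℤ)) := Nat.cast_injective
  rw [← hinj.hasSum_iff]
  · refine h.congr_fun fun n => ?_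
    simp only [Function.comp_apply]
    rw [eulerSer, HahnSeries.ofPowerSeries_apply_coeff, PowerSeries.coeff_map, PowerSeries.coeff_map,
      eq_intCast, eq_intCast, map_intCast, zpow_natCast, Nat.cast_one]
  · intro x hx
    have hlt : x < 0 := by
      by_contra hge
      rw [not_lt] at hge
      exact hx ⟨x.toNat, Int.toNat_of_nonneg hge⟩
    have : eulerSer.coeff x = 0 := by
      rw [eulerSer, HahnSeries.ofPowerSeries_apply, HahnSeries.embDomain_of_notMem_range]
      rintro ⟨n, hn⟩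
      have hn' : (n : ℤ) = x := hn
      omega
    rw [this, map_zero, zero_mul]

/-- the expansion of `∏ (1 - q^(D n))`. -/
theorem hasTExp_eulerFun_mul (D : ℕ) (hD : 0 < D) :
    HasTExp 1 (fun τ : ℍ => JExpansion.eulerFun (𝕢 1 ((D : ℂ) * τ))) (eulerSerD D) := by
  have : NeZero D := ⟨hD.ne'⟩
  have h := hasTExp_tri (N := 1) hasTExp_eulerFun' (D : ℤ) 0 1 (by exact_mod_cast hD) one_pos D
    (by simp) 1 (by simp)
  rw [twist_one, ← eulerSerD_eq] at h
  convert h using 3 with τ
  rw [coe_triMat_smul]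
  simp

theorem eulerFun_mul_ne_zero (D : ℕ) (hD : 0 < D) (τ : ℍ) :
    JExpansion.eulerFun (𝕢 1 ((D : ℂ) * τ)) ≠ 0 := by
  apply JExpansion.eulerFun_ne_zero
  apply Function.Periodic.norm_qParam_lt_one one_pos
  rw [Complex.mul_im]
  simp only [Complex.natCast_re, Complex.natCast_im, zero_mul, add_zero]
  exact mul_pos (by exact_mod_cast hD) τ.im_pos

end QExp

section Exp
variable {ι : Type*} {s : Finset ι} {D : ι → ℕ} {r : ι → ℤ}

local notation "𝕢" => Function.Periodic.qParam

/-- F1 `QExp.lean`.  The exact `q`-expansion at `∞`. -/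
theorem hasTExp_etaQuot (hD : ∀ i ∈ s, 0 < D i) (m : ℤ) (hm : 24 * m = ∑ i ∈ s, r i * D i) :
    HasTExp 1 (etaQuot s D r) (HahnSeries.single m 1 * etaSer s D r) := by
  have h1 : HasTExp 1 (fun τ : ℍ => ∏ i ∈ s, JExpansion.eulerFun (𝕢 1 ((D i : ℂ) * τ)) ^ r i)
      (etaSer s D r) :=
    HasTExp.prod s fun i hi =>
      (QExp.hasTExp_eulerFun_mul (D i) (hD i hi)).zpow (QExp.eulerFun_mul_ne_zero (D i) (hD i hi))
        (r i)
  have h2 := (HasTExp.single (N := 1) m 1).mul h1
  convert h2 using 1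
  funext τ
  rw [Pi.mul_apply, etaQuot, map_one, one_mul]
  simp only [QExp.eta_eq', mul_zpow, Finset.prod_mul_distrib]
  congr 1
  -- the powers of `q^(1/24)`
  have h3 : ∀ i, 𝕢 24 ((D i : ℂ) * τ) ^ r i =
      Complex.exp (2 * π * Complex.I * τ / 24 * ((r i * D i : ℤ) : ℂ)) := by
    intro i
    rw [Function.Periodic.qParam, ← Complex.exp_int_mul]
    congr 1
    push_cast
    ring
  simp only [h3]
  rw [← Complex.exp_sum, ← Finset.mul_sum, ← Int.cast_sum, ← hm, Function.Periodic.qParam,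
    ← Complex.exp_int_mul]
  congr 1
  push_cast
  ring

/-- F1 `QExp.lean`. -/
theorem isUnitShape_etaSer (hD : ∀ i ∈ s, 0 < D i) : IsUnitShape (etaSer s D r) 1 0 := by
  have h : ∀ i ∈ s, IsUnitShape (eulerSerD (D i) ^ r i) ((fun _ => (1 : Kbar)) i)
      ((fun _ => (0 : ℤ)) i) := by
    intro i hi
    have : NeZero (D i) := ⟨(hD i hi).ne'⟩
    have h1 := IsUnitShape.qExpand_twist isUnitShape_eulerSer (D i) 1
      (by simpa using isIntegral_one)
    rw [twist_one, ← eulerSerD_eq] at h1
    have h2 := IsUnitShape.zpow h1 (r i)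
    simpa using h2
  have h3 := IsUnitShape.prod s h
  simpa [etaSer] using h3

end Exp

end Fermat.Agent.Lib.EtaFN
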