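/-
Library EtaFN, node D3 (helper151): from the transformation under generators to the transformation
under the whole group, with a quadratic character.  Core statements, with the generation of
`Γ₀(4)`, `Γ₀(9)` (nodes D1, D2) as explicit hypotheses.
-/
import Fermat.Agent.Lib.EtaFN.Defs

set_option autoImplicit false

noncomputable section

namespace Fermat.Agent.Lib.EtaFN

open UpperHalfPlane
open CongruenceSubgroup ModularGroup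
open scoped MatrixGroups Manifold Real ModularForm

namespace CharCore

/-! ### The characters -/

theorem chi4_mul {d d' e : ℤ} (hd : d % 2 = 1) (hd' : d' % 2 = 1) (he : e % 4 = (d * d') % 4) :
    chi4 e = chi4 d * chi4 d' := by
  unfold chi4
  rw [he, Int.mul_emod]
  have h1 : d % 4 = 1 ∨ d % 4 = 3 := by omega
  have h2 : d' % 4 = 1 ∨ d' % 4 = 3 := by omega
  rcases h1 with h1 | h1 <;> rcases h2 with h2 | h2 <;> rw [h1, h2] <;> norm_num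

theorem chi3_mul {d d' e : ℤ} (hd : d % 3 ≠ 0) (hd' : d' % 3 ≠ 0) (he : e % 3 = (d * d') % 3) :
    chi3 e = chi3 d * chi3 d' := by
  unfold chi3
  rw [he, Int.mul_emod]
  have h1 : d % 3 = 1 ∨ d % 3 = 2 := by omega
  have h2 : d' % 3 = 1 ∨ d' % 3 = 2 := by omega
  rcases h1 with h1 | h1 <;> rcases h2 with h2 | h2 <;> rw [h1, h2] <;> norm_num

/-! ### Matrix entries -/

theorem dvd_of_mem_Gamma0 {N : ℕ} {γ : SL(2, ℤ)} (h : γ ∈ Gamma0 N) : (N : ℤ) ∣ γ 1 0 := by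
  rw [Gamma0_mem] at h
  exact (ZMod.intCast_zmod_eq_zero_iff_dvd _ _).mp h

theorem det_eq (γ : SL(2, ℤ)) : γ 0 0 * γ 1 1 - γ 0 1 * γ 1 0 = 1 := by
  have := γ.2
  rwa [Matrix.det_fin_two] at this

theorem mul_one_one (γ γ' : SL(2, ℤ)) :
    (γ * γ') 1 1 = γ 1 0 * γ' 0 1 + γ 1 1 * γ' 1 1 := by
  rw [Matrix.SpecialLinearGroup.coe_mul, Matrix.mul_apply, Fin.sum_univ_two]

/-! ### The subgroup attached to a multiplicative function -/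

/-- The elements of `Γ` on which `F` transforms by `ψ ^ k`. -/
def charSubgroup (Γ : Subgroup SL(2, ℤ)) (ψ : SL(2, ℤ) → ℂ) (h1 : ψ 1 = 1)
    (hmul : ∀ γ ∈ Γ, ∀ γ' ∈ Γ, ψ (γ * γ') = ψ γ * ψ γ') (F : ℍ → ℂ) (k : ℤ) :
    Subgroup SL(2, ℤ) where
  carrier := {γ | γ ∈ Γ ∧ F ∣[k] γ = (ψ γ ^ k) • F}
  one_mem' := ⟨Γ.one_mem, by rw [SlashAction.slash_one, h1, one_zpow, one_smul]⟩
  mul_mem' := by
    rintro a b ⟨ha, ha'⟩ ⟨hb, hb'⟩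
    refine ⟨Γ.mul_mem ha hb, ?_⟩
    rw [SlashAction.slash_mul, ha', ModularForm.SL_smul_slash, hb', smul_smul, hmul a ha b hb,
      mul_zpow]
  inv_mem' := by
    rintro a ⟨ha, ha'⟩
    refine ⟨Γ.inv_mem ha, ?_⟩
    have h2 : ψ a * ψ a⁻¹ = 1 := by rw [← hmul a ha _ (Γ.inv_mem ha), mul_inv_cancel, h1]
    have h3 : F = (ψ a ^ k) • (F ∣[k] a⁻¹) := by
      rw [← ModularForm.SL_smul_slash, ← ha', ← SlashAction.slash_mul, mul_inv_cancel,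
        SlashAction.slash_one]
    calc F ∣[k] a⁻¹ = ((ψ a⁻¹ ^ k) * (ψ a ^ k)) • (F ∣[k] a⁻¹) := by
          rw [← mul_zpow, mul_comm, h2, one_zpow, one_smul]
      _ = (ψ a⁻¹ ^ k) • F := by rw [mul_smul, ← h3]

theorem mem_charSubgroup {Γ : Subgroup SL(2, ℤ)} {ψ : SL(2, ℤ) → ℂ} {h1 : ψ 1 = 1}
    {hmul : ∀ γ ∈ Γ, ∀ γ' ∈ Γ, ψ (γ * γ') = ψ γ * ψ γ'} {F : ℍ → ℂ} {k : ℤ} {γ : SL(2, ℤ)} :
    γ ∈ charSubgroup Γ ψ h1 hmul F k ↔ γ ∈ Γ ∧ F ∣[k] γ = (ψ γ ^ k) • F := Iff.rfl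

/-! ### Level four -/

theorem odd_of_mem_Gamma0_four {γ : SL(2, ℤ)} (h : γ ∈ Gamma0 4) : γ 1 1 % 2 = 1 := by
  obtain ⟨c, hc⟩ := dvd_of_mem_Gamma0 h
  have hdet := det_eq γ
  rw [hc] at hdet
  by_contra hcon
  obtain ⟨e, he⟩ : (2 : ℤ) ∣ γ 1 1 := Int.dvd_of_emod_eq_zero (by omega)
  rw [he] at hdet
  push_cast at hdet
  have : (2 : ℤ) ∣ 1 := ⟨γ 0 0 * e - γ 0 1 * (2 * c), by linear_combination -hdet⟩
  omega

theorem chi4_mul_Gamma0 (γ : SL(2, ℤ)) (h : γ ∈ Gamma0 4) (γ' : SL(2, ℤ)) (h' : γ' ∈ Gamma0 4) :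
    chi4 ((γ * γ') 1 1) = chi4 (γ 1 1) * chi4 (γ' 1 1) := by
  refine chi4_mul (odd_of_mem_Gamma0_four h) (odd_of_mem_Gamma0_four h') ?_
  obtain ⟨c, hc⟩ := dvd_of_mem_Gamma0 h
  rw [mul_one_one, hc]
  push_cast
  rw [mul_assoc, Int.add_emod, Int.mul_emod_right, zero_add, Int.emod_emod_of_dvd _ (dvd_refl _)]

theorem chi4_one : chi4 ((1 : SL(2, ℤ)) 1 1) = 1 := by
  simp [chi4]

theorem slash_Gamma0_four_of
    (hgen : ∀ K : Subgroup SL(2, ℤ), (-1 : SL(2, ℤ)) ∈ K → T ∈ K → lowerTri 4 ∈ K → Gamma0 4 ≤ K)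
    {F : ℍ → ℂ} {k : ℤ} (hT : F ∣[k] T = F) (hL : F ∣[k] lowerTri 4 = F)
    (hneg : F ∣[k] (-1 : SL(2, ℤ)) = ((-1 : ℂ) ^ k) • F) (γ : SL(2, ℤ)) (hγ : γ ∈ Gamma0 4) :
    F ∣[k] γ = (chi4 (γ 1 1) ^ k) • F := by
  refine (mem_charSubgroup.mp (hgen (charSubgroup (Gamma0 4) (fun γ => chi4 (γ 1 1)) chi4_one
    chi4_mul_Gamma0 F k) ?_ ?_ ?_ hγ)).2
  · refine mem_charSubgroup.mpr ⟨by simp [Gamma0_mem], ?_⟩
    rw [hneg]
    congr 2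
  · refine mem_charSubgroup.mpr ⟨by simp [Gamma0_mem, T], ?_⟩
    rw [hT]
    simp [chi4, T]
  · refine mem_charSubgroup.mpr ⟨by simp [Gamma0_mem, lowerTri]; rfl, ?_⟩
    rw [hL]
    simp [chi4, lowerTri]

/-! ### Level nine -/

theorem not_dvd_of_mem_Gamma0_nine {γ : SL(2, ℤ)} (h : γ ∈ Gamma0 9) : γ 1 1 % 3 ≠ 0 := by
  obtain ⟨c, hc⟩ := dvd_of_mem_Gamma0 h
  have hdet := det_eq γ
  rw [hc] at hdet
  intro hcon
  obtain ⟨e, he⟩ : (3 : ℤ) ∣ γ 1 1 := Int.dvd_of_emod_eq_zero hcon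
  rw [he] at hdet
  push_cast at hdet
  have : (3 : ℤ) ∣ 1 := ⟨γ 0 0 * e - γ 0 1 * (3 * c), by linear_combination -hdet⟩
  omega

theorem chi3_mul_Gamma0 (γ : SL(2, ℤ)) (h : γ ∈ Gamma0 9) (γ' : SL(2, ℤ)) (h' : γ' ∈ Gamma0 9) :
    chi3 ((γ * γ') 1 1) = chi3 (γ 1 1) * chi3 (γ' 1 1) := by
  refine chi3_mul (not_dvd_of_mem_Gamma0_nine h) (not_dvd_of_mem_Gamma0_nine h') ?_
  obtain ⟨c, hc⟩ := dvd_of_mem_Gamma0 h
  rw [mul_one_one, hc]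
  push_cast
  have : (9 : ℤ) * c * γ' 0 1 = 3 * (3 * c * γ' 0 1) := by ring
  rw [this, Int.add_emod, Int.mul_emod_right, zero_add, Int.emod_emod_of_dvd _ (dvd_refl _)]

theorem chi3_one : chi3 ((1 : SL(2, ℤ)) 1 1) = 1 := by
  simp [chi3]

theorem P_one_zero : (lowerTri 3 * T * (lowerTri 3)⁻¹) 1 0 = -9 := by
  simp [lowerTri, T, Matrix.SpecialLinearGroup.coe_mul, Matrix.SpecialLinearGroup.coe_inv,
    Matrix.adjugate_fin_two, Matrix.mul_apply, Fin.sum_univ_two]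

theorem P_one_one : (lowerTri 3 * T * (lowerTri 3)⁻¹) 1 1 = 4 := by
  simp [lowerTri, T, Matrix.SpecialLinearGroup.coe_mul, Matrix.SpecialLinearGroup.coe_inv,
    Matrix.adjugate_fin_two, Matrix.mul_apply, Fin.sum_univ_two]

theorem P'_one_zero : ((lowerTri 3)⁻¹ * T * lowerTri 3) 1 0 = -9 := by
  simp [lowerTri, T, Matrix.SpecialLinearGroup.coe_mul, Matrix.SpecialLinearGroup.coe_inv,
    Matrix.adjugate_fin_two, Matrix.mul_apply, Fin.sum_univ_two]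

theorem P'_one_one : ((lowerTri 3)⁻¹ * T * lowerTri 3) 1 1 = -2 := by
  simp [lowerTri, T, Matrix.SpecialLinearGroup.coe_mul, Matrix.SpecialLinearGroup.coe_inv,
    Matrix.adjugate_fin_two, Matrix.mul_apply, Fin.sum_univ_two]

theorem slash_Gamma0_nine_of
    (hgen : ∀ K : Subgroup SL(2, ℤ), (-1 : SL(2, ℤ)) ∈ K → T ∈ K → lowerTri 9 ∈ K →
      lowerTri 3 * T * (lowerTri 3)⁻¹ ∈ K → (lowerTri 3)⁻¹ * T * lowerTri 3 ∈ K → Gamma0 9 ≤ K)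
    {F : ℍ → ℂ} {k : ℤ} (hT : F ∣[k] T = F) (hL : F ∣[k] lowerTri 9 = F)
    (hP : F ∣[k] (lowerTri 3 * T * (lowerTri 3)⁻¹) = F)
    (hP' : F ∣[k] ((lowerTri 3)⁻¹ * T * lowerTri 3) = F)
    (hneg : F ∣[k] (-1 : SL(2, ℤ)) = ((-1 : ℂ) ^ k) • F) (γ : SL(2, ℤ)) (hγ : γ ∈ Gamma0 9) :
    F ∣[k] γ = (chi3 (γ 1 1) ^ k) • F := by
  refine (mem_charSubgroup.mp (hgen (charSubgroup (Gamma0 9) (fun γ => chi3 (γ 1 1)) chi3_one
    chi3_mul_Gamma0 F k) ?_ ?_ ?_ ?_ ?_ hγ)).2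
  · refine mem_charSubgroup.mpr ⟨by simp [Gamma0_mem], ?_⟩
    rw [hneg]
    congr 2
  · refine mem_charSubgroup.mpr ⟨by simp [Gamma0_mem, T], ?_⟩
    rw [hT]
    simp [chi3, T]
  · refine mem_charSubgroup.mpr ⟨by simp [Gamma0_mem, lowerTri]; rfl, ?_⟩
    rw [hL]
    simp [chi3, lowerTri]
  · refine mem_charSubgroup.mpr ⟨by rw [Gamma0_mem, P_one_zero]; rfl, ?_⟩
    rw [hP]
    simp only [P_one_one]
    simp [chi3]
  · refine mem_charSubgroup.mpr ⟨by rw [Gamma0_mem, P'_one_zero]; rfl, ?_⟩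
    rw [hP']
    simp only [P'_one_one]
    simp [chi3]

end CharCore

end Fermat.Agent.Lib.EtaFN
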