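/-
Library EtaFN (architect helper210).  Node D1: generators of `Γ₀(4)`.
-/
import Fermat.Agent.Lib.EtaFN.Defs

set_option autoImplicit false

namespace Fermat.Agent.Lib.EtaFN

open scoped MatrixGroups
open CongruenceSubgroup ModularGroup

/-- D1 `Gamma04.lean`. -/
theorem lowerTri_eq (k : ℤ) : lowerTri k = S * T ^ (-k) * S⁻¹ := by
  apply Subtype.ext
  rw [Matrix.SpecialLinearGroup.coe_mul, Matrix.SpecialLinearGroup.coe_mul,
    Matrix.SpecialLinearGroup.coe_inv, coe_T_zpow, coe_S, Matrix.adjugate_fin_two]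
  ext i j
  fin_cases i <;> fin_cases j <;> simp [lowerTri, Matrix.mul_apply, Fin.sum_univ_two]

theorem lowerTri_mul_eq_zpow (m k : ℤ) : lowerTri (m * k) = lowerTri m ^ k := by
  rw [lowerTri_eq, lowerTri_eq, conj_zpow, ← zpow_mul, neg_mul]

theorem coe_lowerTri (k : ℤ) : (lowerTri k).1 = !![1, 0; k, 1] := rfl

/-- Balanced remainders. -/
theorem exists_balanced (x m : ℤ) (hm : m ≠ 0) : ∃ k : ℤ, 2 * |x + m * k| ≤ |m| := by
  have h1 : m * (x / m) + x % m = x := Int.mul_ediv_add_emod x m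
  have h2 : 0 ≤ x % m := Int.emod_nonneg x hm
  have h3 : x % m < |m| := Int.emod_lt_abs x hm
  set q := x / m
  set r := x % m
  by_cases h : 2 * r ≤ |m|
  · refine ⟨-q, ?_⟩
    have e : x + m * -q = r := by linarith
    rw [e, abs_of_nonneg h2]
    exact h
  · rcases lt_or_gt_of_ne hm with hneg | hpos
    · refine ⟨-q + 1, ?_⟩
      have e : x + m * (-q + 1) = r + m := by linarith
      rw [abs_of_neg hneg] at h h3 ⊢
      rw [e, abs_of_neg (by linarith)]
      linarith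
    · refine ⟨-q - 1, ?_⟩
      have e : x + m * (-q - 1) = r - m := by linarith
      rw [abs_of_pos hpos] at h h3 ⊢
      rw [e, abs_of_neg (by linarith)]
      linarith

theorem mul_T_zpow_one_zero (γ : SL(2, ℤ)) (k : ℤ) : (γ * T ^ k) 1 0 = γ 1 0 := by
  show (γ * T ^ k).1 1 0 = γ.1 1 0
  rw [Matrix.SpecialLinearGroup.coe_mul, coe_T_zpow]
  simp [Matrix.mul_apply, Fin.sum_univ_two]

theorem mul_T_zpow_one_one (γ : SL(2, ℤ)) (k : ℤ) : (γ * T ^ k) 1 1 = γ 1 1 + γ 1 0 * k := by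
  show (γ * T ^ k).1 1 1 = γ.1 1 1 + γ.1 1 0 * k
  rw [Matrix.SpecialLinearGroup.coe_mul, coe_T_zpow]
  simp [Matrix.mul_apply, Fin.sum_univ_two, add_comm]

theorem mul_lowerTri_one_zero (γ : SL(2, ℤ)) (k : ℤ) :
    (γ * lowerTri k) 1 0 = γ 1 0 + γ 1 1 * k := by
  show (γ * lowerTri k).1 1 0 = γ.1 1 0 + γ.1 1 1 * k
  rw [Matrix.SpecialLinearGroup.coe_mul, coe_lowerTri]
  simp [Matrix.mul_apply, Fin.sum_univ_two]

theorem mul_lowerTri_one_one (γ : SL(2, ℤ)) (k : ℤ) : (γ * lowerTri k) 1 1 = γ 1 1 := by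
  show (γ * lowerTri k).1 1 1 = γ.1 1 1
  rw [Matrix.SpecialLinearGroup.coe_mul, coe_lowerTri]
  simp [Matrix.mul_apply, Fin.sum_univ_two]

theorem det_eq_one' (γ : SL(2, ℤ)) : γ 0 0 * γ 1 1 - γ 0 1 * γ 1 0 = 1 := by
  have h := γ.2
  rw [Matrix.det_fin_two] at h
  exact h

/-- Upper triangular elements are `± T ^ b`. -/
theorem mem_of_one_zero_eq_zero (K : Subgroup SL(2, ℤ)) (hneg : (-1 : SL(2, ℤ)) ∈ K) (hT : T ∈ K)
    (γ : SL(2, ℤ)) (hc : γ 1 0 = 0) : γ ∈ K := by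
  have hdet := det_eq_one' γ
  rw [hc, mul_zero, sub_zero] at hdet
  rcases Int.mul_eq_one_iff_eq_one_or_neg_one.1 hdet with ⟨ha, hd⟩ | ⟨ha, hd⟩
  · have e : γ = T ^ (γ 0 1) := by
      apply Subtype.ext
      rw [coe_T_zpow]
      ext i j
      fin_cases i <;> fin_cases j
      · exact ha
      · rfl
      · exact hc
      · exact hd
    rw [e]
    exact K.zpow_mem hT _
  · have e : γ = -1 * T ^ (-(γ 0 1)) := by
      apply Subtype.ext
      rw [Matrix.SpecialLinearGroup.coe_mul, coe_T_zpow, Matrix.SpecialLinearGroup.coe_neg,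
        Matrix.SpecialLinearGroup.coe_one]
      ext i j
      fin_cases i <;> fin_cases j
      · simpa using ha
      · simp
      · simpa using hc
      · simpa using hd
    rw [e]
    exact K.mul_mem hneg (K.zpow_mem hT _)

theorem Gamma0_dvd {N : ℕ} {γ : SL(2, ℤ)} (hγ : γ ∈ Gamma0 N) : (N : ℤ) ∣ γ 1 0 := by
  rw [Gamma0_mem] at hγ
  exact (ZMod.intCast_zmod_eq_zero_iff_dvd _ _).1 hγ

theorem mem_Gamma0_of_dvd {N : ℕ} {γ : SL(2, ℤ)} (hγ : (N : ℤ) ∣ γ 1 0) : γ ∈ Gamma0 N := by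
  rw [Gamma0_mem]
  exact (ZMod.intCast_zmod_eq_zero_iff_dvd _ _).2 hγ

/-- D1 `Gamma04.lean`.  Descent on `c^2 + 4 d^2` (bottom row `(c, d)`, right multiplication). -/
theorem Gamma0_four_le (K : Subgroup SL(2, ℤ)) (hneg : (-1 : SL(2, ℤ)) ∈ K) (hT : T ∈ K)
    (hL : lowerTri 4 ∈ K) : Gamma0 4 ≤ K := by
  have main : ∀ n : ℕ, ∀ γ : SL(2, ℤ), γ ∈ Gamma0 4 → (γ 1 0).natAbs = n → γ ∈ K := by
    intro n
    induction n using Nat.strong_induction_on with
    | _ n ih =>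
      intro γ hγ hn
      by_cases hc : γ 1 0 = 0
      · exact mem_of_one_zero_eq_zero K hneg hT γ hc
      have h4 : (4 : ℤ) ∣ γ 1 0 := by exact_mod_cast Gamma0_dvd hγ
      have hdet := det_eq_one' γ
      obtain ⟨k, hk⟩ := exists_balanced (γ 1 1) (γ 1 0) hc
      set d' := γ 1 1 + γ 1 0 * k with hd'
      -- `d'` is odd
      have hodd : ¬ (2 : ℤ) ∣ d' := by
        intro h2
        obtain ⟨c₁, hc₁⟩ := h4
        obtain ⟨e, he⟩ := h2
        have h11 : γ 1 1 = 2 * e - γ 1 0 * k := by linarith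
        rw [h11, hc₁] at hdet
        have : (2 : ℤ) ∣ 1 := ⟨γ 0 0 * e - 2 * γ 0 0 * c₁ * k - 2 * γ 0 1 * c₁, by linarith⟩
        omega
      have hd0 : d' ≠ 0 := fun h => hodd (h ▸ dvd_zero _)
      have hk' : 2 * |d'| < |γ 1 0| := by
        refine lt_of_le_of_ne hk ?_
        intro heq
        apply hodd
        have h4' : (4 : ℤ) ∣ 2 * |d'| := heq ▸ (dvd_abs _ _).2 h4
        have : (2 : ℤ) ∣ |d'| := by omega
        exact (dvd_abs _ _).1 this
      obtain ⟨m, hm⟩ := exists_balanced (γ 1 0) (4 * d') (mul_ne_zero (by norm_num) hd0)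
      have hm' : |γ 1 0 + 4 * d' * m| < |γ 1 0| := by
        rw [abs_mul, abs_of_pos (by norm_num : (0 : ℤ) < 4)] at hm
        linarith
      set γ' := γ * T ^ k * lowerTri (4 * m) with hγ'
      have e10 : γ' 1 0 = γ 1 0 + 4 * d' * m := by
        rw [hγ', mul_lowerTri_one_zero, mul_T_zpow_one_zero, mul_T_zpow_one_one]
        ring
      have hmem : γ' ∈ K := by
        refine ih (γ' 1 0).natAbs ?_ γ' ?_ rfl
        · rw [← hn, e10]
          rw [Int.abs_eq_natAbs, Int.abs_eq_natAbs] at hm'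
          exact_mod_cast hm'
        · apply mem_Gamma0_of_dvd
          rw [e10]
          exact_mod_cast dvd_add h4 ⟨d' * m, by ring⟩
      have e : γ = γ' * (lowerTri (4 * m))⁻¹ * (T ^ k)⁻¹ := by
        rw [hγ']
        group
      rw [e]
      refine K.mul_mem (K.mul_mem hmem (K.inv_mem ?_)) (K.inv_mem (K.zpow_mem hT _))
      rw [lowerTri_mul_eq_zpow]
      exact K.zpow_mem hL _
  intro γ hγ
  exact main _ γ hγ rfl

end Fermat.Agent.Lib.EtaFN
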