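import Fermat.Agent.Lib.EtaFN.Defs

set_option autoImplicit false

namespace Fermat.Agent.Lib.EtaFN

open CongruenceSubgroup ModularGroup
open scoped MatrixGroups

namespace Gamma09

/-- the integer descent: one of the eight moves decreases `u ^ 2 + v ^ 2`. -/
theorem descent (u v : ℤ) (hu : u ≠ 0) (hv : v ≠ 0) (h1 : u ≠ v) (h2 : u ≠ -v) :
    u ^ 2 + (v + 3 * u) ^ 2 < u ^ 2 + v ^ 2 ∨ u ^ 2 + (v - 3 * u) ^ 2 < u ^ 2 + v ^ 2 ∨
    (u + 3 * v) ^ 2 + v ^ 2 < u ^ 2 + v ^ 2 ∨ (u - 3 * v) ^ 2 + v ^ 2 < u ^ 2 + v ^ 2 ∨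
    (u - 3 * (u + v)) ^ 2 + (v + 3 * (u + v)) ^ 2 < u ^ 2 + v ^ 2 ∨
    (u + 3 * (u + v)) ^ 2 + (v - 3 * (u + v)) ^ 2 < u ^ 2 + v ^ 2 ∨
    (u + 3 * (u - v)) ^ 2 + (v + 3 * (u - v)) ^ 2 < u ^ 2 + v ^ 2 ∨
    (u - 3 * (u - v)) ^ 2 + (v - 3 * (u - v)) ^ 2 < u ^ 2 + v ^ 2 := by
  have key : ∀ X Y : ℤ, 0 < X → 0 < Y → 0 < X * Y := fun X Y => mul_pos
  rcases lt_or_gt_of_ne hu with hu | hu <;> rcases lt_or_gt_of_ne hv with hv | hv
  · -- u < 0, v < 0
    by_cases c1 : 2 * v < 3 * u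
    · right; left
      nlinarith [key (-u) (3 * u - 2 * v) (by linarith) (by linarith)]
    by_cases c2 : 2 * u < 3 * v
    · right; right; right; left
      nlinarith [key (-v) (3 * v - 2 * u) (by linarith) (by linarith)]
    rcases lt_or_gt_of_ne h1 with h | h
    · right; right; right; right; right; right; right
      nlinarith [key (v - u) (u - 2 * v) (by linarith) (by linarith)]
    · right; right; right; right; right; right; left
      nlinarith [key (u - v) (v - 2 * u) (by linarith) (by linarith)]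
  · -- u < 0, v > 0
    by_cases c1 : -(3 * u) < 2 * v
    · left
      nlinarith [key (-u) (3 * u + 2 * v) (by linarith) (by linarith)]
    by_cases c2 : 3 * v < -(2 * u)
    · right; right; left
      nlinarith [key v (-(3 * v + 2 * u)) (by linarith) (by linarith)]
    rcases lt_or_gt_of_ne h2 with h | h
    · right; right; right; right; left
      nlinarith [key (-(u + v)) (u + 2 * v) (by linarith) (by linarith)]
    · right; right; right; right; right; left
      nlinarith [key (u + v) (-(2 * u + v)) (by linarith) (by linarith)]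
  · -- u > 0, v < 0
    by_cases c1 : 3 * u < -(2 * v)
    · left
      nlinarith [key u (-(3 * u + 2 * v)) (by linarith) (by linarith)]
    by_cases c2 : -(3 * v) < 2 * u
    · right; right; left
      nlinarith [key (-v) (3 * v + 2 * u) (by linarith) (by linarith)]
    rcases lt_or_gt_of_ne h2 with h | h
    · right; right; right; right; right; left
      nlinarith [key (-(u + v)) (2 * u + v) (by linarith) (by linarith)]
    · right; right; right; right; left
      nlinarith [key (u + v) (-(u + 2 * v)) (by linarith) (by linarith)]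
  · -- u > 0, v > 0
    by_cases c1 : 3 * u < 2 * v
    · right; left
      nlinarith [key u (2 * v - 3 * u) (by linarith) (by linarith)]
    by_cases c2 : 3 * v < 2 * u
    · right; right; right; left
      nlinarith [key v (2 * u - 3 * v) (by linarith) (by linarith)]
    rcases lt_or_gt_of_ne h1 with h | h
    · right; right; right; right; right; right; left
      nlinarith [key (v - u) (2 * u - v) (by linarith) (by linarith)]
    · right; right; right; right; right; right; right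
      nlinarith [key (u - v) (2 * v - u) (by linarith) (by linarith)]

/-- explicit element of `SL(2, ℤ)`. -/
def mk (p q r s : ℤ) (h : p * s - q * r = 1) : SL(2, ℤ) :=
  ⟨!![p, q; r, s], by rw [Matrix.det_fin_two_of]; exact h⟩

theorem coe_mk (p q r s : ℤ) (h : p * s - q * r = 1) :
    ((mk p q r s h : SL(2, ℤ)) : Matrix (Fin 2) (Fin 2) ℤ) = !![p, q; r, s] := rfl

theorem mul_mk_one_zero (γ : SL(2, ℤ)) (p q r s : ℤ) (h : p * s - q * r = 1) :
    (γ * mk p q r s h) 1 0 = γ 1 0 * p + γ 1 1 * r := by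
  rw [Matrix.SpecialLinearGroup.coe_mul, coe_mk, Matrix.mul_apply, Fin.sum_univ_two]
  simp

theorem mul_mk_one_one (γ : SL(2, ℤ)) (p q r s : ℤ) (h : p * s - q * r = 1) :
    (γ * mk p q r s h) 1 1 = γ 1 0 * q + γ 1 1 * s := by
  rw [Matrix.SpecialLinearGroup.coe_mul, coe_mk, Matrix.mul_apply, Fin.sum_univ_two]
  simp

theorem mk_mul_mk (p q r s p' q' r' s' : ℤ) (h : p * s - q * r = 1) (h' : p' * s' - q' * r' = 1)
    (h'' : (p * p' + q * r') * (r * q' + s * s') - (p * q' + q * s') * (r * p' + s * r') = 1) :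
    mk p q r s h * mk p' q' r' s' h' =
      mk (p * p' + q * r') (p * q' + q * s') (r * p' + s * r') (r * q' + s * s') h'' := by
  apply Subtype.ext
  rw [Matrix.SpecialLinearGroup.coe_mul, coe_mk, coe_mk, coe_mk, Matrix.mul_fin_two]

theorem mk_congr {p q r s p' q' r' s' : ℤ} (h : p * s - q * r = 1) (h' : p' * s' - q' * r' = 1)
    (e1 : p = p') (e2 : q = q') (e3 : r = r') (e4 : s = s') : mk p q r s h = mk p' q' r' s' h' := by
  subst e1 e2 e3 e4
  rfl

theorem mk_one : mk 1 0 0 1 (by norm_num) = 1 := by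
  apply Subtype.ext
  rw [coe_mk, Matrix.SpecialLinearGroup.coe_one, Matrix.one_fin_two]

theorem mk_inv (p q r s : ℤ) (h : p * s - q * r = 1) :
    (mk p q r s h)⁻¹ = mk s (-q) (-r) p (by linarith) := by
  rw [inv_eq_iff_mul_eq_one, mk_mul_mk _ _ _ _ _ _ _ _ _ _ (by nlinarith), ← mk_one]
  apply mk_congr <;> linarith

theorem T_eq : T = mk 1 1 0 1 (by norm_num) := rfl

theorem lowerTri_eq_mk (k : ℤ) : lowerTri k = mk 1 0 k 1 (by norm_num) := rfl

theorem eq_mk (γ : SL(2, ℤ)) (h : γ 0 0 * γ 1 1 - γ 0 1 * γ 1 0 = 1) :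
    γ = mk (γ 0 0) (γ 0 1) (γ 1 0) (γ 1 1) h := by
  apply Subtype.ext
  rw [coe_mk]
  exact Matrix.eta_fin_two _

theorem det_eq (γ : SL(2, ℤ)) : γ 0 0 * γ 1 1 - γ 0 1 * γ 1 0 = 1 := by
  have := γ.det_coe
  rwa [Matrix.det_fin_two] at this

theorem T_zpow_eq (b : ℤ) : T ^ b = mk 1 b 0 1 (by norm_num) :=
  Subtype.ext (ModularGroup.coe_T_zpow b)

theorem neg_one_eq : (-1 : SL(2, ℤ)) = mk (-1) 0 0 (-1) (by norm_num) := by
  apply Subtype.ext
  rw [coe_mk, Matrix.SpecialLinearGroup.coe_neg, Matrix.SpecialLinearGroup.coe_one,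
    Matrix.one_fin_two]
  simp

theorem mem_Gamma0_iff (γ : SL(2, ℤ)) : γ ∈ Gamma0 9 ↔ (9 : ℤ) ∣ γ 1 0 := by
  rw [Gamma0_mem]
  exact ZMod.intCast_zmod_eq_zero_iff_dvd _ 9

/-- upper triangular matrices. -/
theorem mem_of_zero (K : Subgroup SL(2, ℤ)) (hneg : (-1 : SL(2, ℤ)) ∈ K) (hT : T ∈ K)
    (γ : SL(2, ℤ)) (h0 : γ 1 0 = 0) : γ ∈ K := by
  have hdet := det_eq γ
  rw [h0, mul_zero, sub_zero] at hdet
  rw [eq_mk γ (det_eq γ)]
  rcases Int.eq_one_or_neg_one_of_mul_eq_one' hdet with ⟨ha, hd⟩ | ⟨ha, hd⟩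
  · have : mk (γ 0 0) (γ 0 1) (γ 1 0) (γ 1 1) (det_eq γ) = T ^ (γ 0 1) := by
      rw [T_zpow_eq]
      exact mk_congr _ _ ha rfl h0 hd
    rw [this]
    exact K.zpow_mem hT _
  · have : mk (γ 0 0) (γ 0 1) (γ 1 0) (γ 1 1) (det_eq γ) = -1 * T ^ (-(γ 0 1)) := by
      rw [T_zpow_eq, neg_one_eq, mk_mul_mk _ _ _ _ _ _ _ _ _ _ (by norm_num)]
      apply mk_congr
      · rw [ha]; norm_num
      · norm_num
      · rw [h0]; norm_num
      · rw [hd]; norm_num
    rw [this]
    exact K.mul_mem hneg (K.zpow_mem hT _)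

theorem main (K : Subgroup SL(2, ℤ)) (hneg : (-1 : SL(2, ℤ)) ∈ K) (hT : T ∈ K)
    (hL : lowerTri 9 ∈ K) (hP : lowerTri 3 * T * (lowerTri 3)⁻¹ ∈ K)
    (hP' : (lowerTri 3)⁻¹ * T * lowerTri 3 ∈ K) :
    ∀ n : ℕ, ∀ γ : SL(2, ℤ), (9 : ℤ) ∣ γ 1 0 → ((γ 1 0) ^ 2 + 9 * (γ 1 1) ^ 2).toNat = n →
      γ ∈ K := by
  -- the eight moves
  have m1 : mk 1 1 0 1 (by norm_num) ∈ K := hT
  have m2 : mk 1 (-1) 0 1 (by norm_num) ∈ K := by
    have := K.inv_mem m1
    rw [mk_inv] at this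
    rwa [mk_congr (p' := 1) (q' := -1) (r' := 0) (s' := 1) _ (by norm_num) rfl rfl (by norm_num)
      rfl] at this
  have m3 : mk 1 0 9 1 (by norm_num) ∈ K := hL
  have m4 : mk 1 0 (-9) 1 (by norm_num) ∈ K := by
    have := K.inv_mem m3
    rw [mk_inv] at this
    rwa [mk_congr (p' := 1) (q' := 0) (r' := -9) (s' := 1) _ (by norm_num) rfl (by norm_num) rfl
      rfl] at this
  have m5 : mk (-2) 1 (-9) 4 (by norm_num) ∈ K := by
    rw [lowerTri_eq_mk, T_eq, mk_inv, mk_mul_mk _ _ _ _ _ _ _ _ _ _ (by norm_num),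
      mk_mul_mk _ _ _ _ _ _ _ _ _ _ (by norm_num)] at hP
    rwa [mk_congr (p' := -2) (q' := 1) (r' := -9) (s' := 4) _ (by norm_num) (by norm_num)
      (by norm_num) (by norm_num) (by norm_num)] at hP
  have m6 : mk 4 (-1) 9 (-2) (by norm_num) ∈ K := by
    have := K.inv_mem m5
    rw [mk_inv] at this
    rwa [mk_congr (p' := 4) (q' := -1) (r' := 9) (s' := -2) _ (by norm_num) rfl rfl (by norm_num)
      rfl] at this
  have m7 : mk 4 1 (-9) (-2) (by norm_num) ∈ K := by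
    rw [lowerTri_eq_mk, T_eq, mk_inv, mk_mul_mk _ _ _ _ _ _ _ _ _ _ (by norm_num),
      mk_mul_mk _ _ _ _ _ _ _ _ _ _ (by norm_num)] at hP'
    rwa [mk_congr (p' := 4) (q' := 1) (r' := -9) (s' := -2) _ (by norm_num) (by norm_num)
      (by norm_num) (by norm_num) (by norm_num)] at hP'
  have m8 : mk (-2) (-1) 9 4 (by norm_num) ∈ K := by
    have := K.inv_mem m7
    rw [mk_inv] at this
    rwa [mk_congr (p' := -2) (q' := -1) (r' := 9) (s' := 4) _ (by norm_num) rfl rfl (by norm_num)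
      rfl] at this
  intro n
  induction n using Nat.strong_induction_on with
  | _ n ih =>
    intro γ hγ hn
    by_cases h0 : γ 1 0 = 0
    · exact mem_of_zero K hneg hT γ h0
    -- one step
    have step : ∀ (p q r s : ℤ) (h : p * s - q * r = 1), mk p q r s h ∈ K → (9 : ℤ) ∣ r →
        (γ 1 0 * p + γ 1 1 * r) ^ 2 + 9 * (γ 1 0 * q + γ 1 1 * s) ^ 2 <
          (γ 1 0) ^ 2 + 9 * (γ 1 1) ^ 2 → γ ∈ K := by
      intro p q r s h hM hr hlt
      have h1 : γ * mk p q r s h ∈ K := by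
        refine ih _ ?_ (γ * mk p q r s h) ?_ rfl
        · rw [mul_mk_one_zero, mul_mk_one_one, ← hn]
          exact (Int.toNat_lt_toNat (lt_of_le_of_lt (by positivity) hlt)).2 hlt
        · rw [mul_mk_one_zero]
          exact dvd_add (hγ.mul_right _) (hr.mul_left _)
      exact (Subgroup.mul_mem_cancel_right K hM).1 h1
    obtain ⟨w, hw⟩ := hγ
    have hdet := det_eq γ
    set d := γ 1 1 with hd
    have hw0 : w ≠ 0 := by
      rintro rfl
      exact h0 (by rw [hw]; norm_num)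
    have h3 : ∀ t : ℤ, d ≠ 3 * t := by
      intro t ht
      rw [hw, ht] at hdet
      have : 3 * (γ 0 0 * t - γ 0 1 * (3 * w)) = 1 := by linarith
      omega
    have hdesc := descent (3 * w) d (by omega) (fun h => h3 0 (by omega))
      (fun h => h3 w h.symm) (fun h => h3 (-w) (by omega))
    rw [hw] at step
    rcases hdesc with h | h | h | h | h | h | h | h
    · exact step 1 1 0 1 _ m1 (by norm_num) (by nlinarith)
    · exact step 1 (-1) 0 1 _ m2 (by norm_num) (by nlinarith)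
    · exact step 1 0 9 1 _ m3 (by norm_num) (by nlinarith)
    · exact step 1 0 (-9) 1 _ m4 (by norm_num) (by nlinarith)
    · exact step (-2) 1 (-9) 4 _ m5 (by norm_num) (by nlinarith)
    · exact step 4 (-1) 9 (-2) _ m6 (by norm_num) (by nlinarith)
    · exact step 4 1 (-9) (-2) _ m7 (by norm_num) (by nlinarith)
    · exact step (-2) (-1) 9 4 _ m8 (by norm_num) (by nlinarith)

end Gamma09

/-- D2 `Gamma09.lean`.  Descent on `c^2 + 9 d^2`. -/
theorem Gamma0_nine_le (K : Subgroup SL(2, ℤ)) (hneg : (-1 : SL(2, ℤ)) ∈ K) (hT : T ∈ K)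
    (hL : lowerTri 9 ∈ K) (hP : lowerTri 3 * T * (lowerTri 3)⁻¹ ∈ K)
    (hP' : (lowerTri 3)⁻¹ * T * lowerTri 3 ∈ K) : Gamma0 9 ≤ K := fun γ hγ =>
  Gamma09.main K hneg hT hL hP hP' _ γ ((Gamma09.mem_Gamma0_iff γ).1 hγ) rfl

end Fermat.Agent.Lib.EtaFN
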