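/-
Library EtaFN, node D3 (helper151): `slash_Gamma0_four`, `slash_Gamma0_nine`.
All the content is in `CharCore.lean`; this file only plugs in the generation of `Γ₀(4)`, `Γ₀(9)`
(nodes D1, D2).
-/
import Fermat.Agent.Lib.EtaFN.CharCore
import Fermat.Agent.Lib.EtaFN.Gamma04
import Fermat.Agent.Lib.EtaFN.Gamma09

set_option autoImplicit false

noncomputable section

namespace Fermat.Agent.Lib.EtaFN

open UpperHalfPlane
open CongruenceSubgroup ModularGroup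
open scoped MatrixGroups Manifold Real ModularForm

/-- D3 `Char.lean`. -/
theorem slash_Gamma0_four {F : ℍ → ℂ} {k : ℤ} (hT : F ∣[k] T = F) (hL : F ∣[k] lowerTri 4 = F)
    (hneg : F ∣[k] (-1 : SL(2, ℤ)) = ((-1 : ℂ) ^ k) • F) (γ : SL(2, ℤ)) (hγ : γ ∈ Gamma0 4) :
    F ∣[k] γ = (chi4 (γ 1 1) ^ k) • F :=
  CharCore.slash_Gamma0_four_of Gamma0_four_le hT hL hneg γ hγ

/-- D3 `Char.lean`. -/
theorem slash_Gamma0_nine {F : ℍ → ℂ} {k : ℤ} (hT : F ∣[k] T = F) (hL : F ∣[k] lowerTri 9 = F)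
    (hP : F ∣[k] (lowerTri 3 * T * (lowerTri 3)⁻¹) = F)
    (hP' : F ∣[k] ((lowerTri 3)⁻¹ * T * lowerTri 3) = F)
    (hneg : F ∣[k] (-1 : SL(2, ℤ)) = ((-1 : ℂ) ^ k) • F) (γ : SL(2, ℤ)) (hγ : γ ∈ Gamma0 9) :
    F ∣[k] γ = (chi3 (γ 1 1) ^ k) • F :=
  CharCore.slash_Gamma0_nine_of Gamma0_nine_le hT hL hP hP' hneg γ hγ

end Fermat.Agent.Lib.EtaFN
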