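/-
Library EtaFN (helper210), node A1: the algebra of "nice" functions and its `SL(2,ℤ)`-action.
-/
import Fermat.Agent.Lib.EtaFN.Defs

set_option autoImplicit false
set_option linter.unusedSectionVars false

namespace Fermat.Agent.Lib.EtaFN

open UpperHalfPlane ModularCurve Fermat.Agent.S24 Fermat.Agent.S24.B
open scoped MatrixGroups Manifold

variable {N : ℕ} [NeZero N] {f g : ℍ → ℂ}

theorem mdiff_comp_smul (hf : MDiff f) (γ : SL(2, ℤ)) : MDiff (fun τ : ℍ => f (γ • τ)) := by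
  have h : MDiff (fun τ : ℍ => ((γ : GL (Fin 2) ℝ) • τ : ℍ)) :=
    UpperHalfPlane.mdifferentiable_smul (g := (γ : GL (Fin 2) ℝ)) (by simp)
  exact hf.comp h

namespace IsNice

theorem const (c : Kbar) : IsNice N (fun _ => iota c) :=
  ⟨mdifferentiable_const, fun _ => ⟨HahnSeries.C c, HasTExp.const c⟩⟩

theorem add (hf : IsNice N f) (hg : IsNice N g) : IsNice N (f + g) :=
  ⟨hf.mdiff.add hg.mdiff, fun γ => by
    obtain ⟨s, hs⟩ := hf.texp γ
    obtain ⟨s', hs'⟩ := hg.texp γ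
    exact ⟨s + s', hs.add hs'⟩⟩

theorem neg (hf : IsNice N f) : IsNice N (-f) :=
  ⟨hf.mdiff.neg, fun γ => by
    obtain ⟨s, hs⟩ := hf.texp γ
    exact ⟨-s, hs.neg⟩⟩

theorem sub (hf : IsNice N f) (hg : IsNice N g) : IsNice N (f - g) :=
  ⟨hf.mdiff.sub hg.mdiff, fun γ => by
    obtain ⟨s, hs⟩ := hf.texp γ
    obtain ⟨s', hs'⟩ := hg.texp γ
    exact ⟨s - s', hs.sub hs'⟩⟩

theorem mul (hf : IsNice N f) (hg : IsNice N g) : IsNice N (f * g) :=
  ⟨hf.mdiff.mul hg.mdiff, fun γ => by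
    obtain ⟨s, hs⟩ := hf.texp γ
    obtain ⟨s', hs'⟩ := hg.texp γ
    exact ⟨s * s', hs.mul hs'⟩⟩

theorem comp_smul (hf : IsNice N f) (γ : SL(2, ℤ)) : IsNice N (fun τ => f (γ • τ)) :=
  ⟨mdiff_comp_smul hf.mdiff γ, fun δ => by
    obtain ⟨s, hs⟩ := hf.texp (γ * δ)
    refine ⟨s, ?_⟩
    have : (fun τ : ℍ => f (γ • δ • τ)) = fun τ => f ((γ * δ) • τ) := by
      funext τ
      rw [mul_smul]
    rw [this]
    exact hs⟩

theorem of_mem_AL (hf : f ∈ AL N) : IsNice N f :=
  ⟨mdiff_of_mem_AL hf, fun γ => exists_hasTExp_of_mem (comp_smul_mem_AL hf γ)⟩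

theorem exists_poly (hf : IsNice N f) (hinv : ∀ (γ : SL(2, ℤ)) (τ : ℍ), f (γ • τ) = f τ) :
    ∃ p : Polynomial Kbar, ∀ τ : ℍ, f τ = Polynomial.aeval (jfun τ) p := by
  obtain ⟨s, hs⟩ := hf.texp 1
  simp only [one_smul] at hs
  exact exists_poly_of_invariant f hf.mdiff hinv s hs

end IsNice

variable (N) in
/-- The `ℚ̄`-algebra of nice functions. -/
noncomputable def niceAlg : Subalgebra Kbar (ℍ → ℂ) where
  carrier := {f | IsNice N f}
  mul_mem' hf hg := IsNice.mul hf hg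
  add_mem' hf hg := IsNice.add hf hg
  algebraMap_mem' c := IsNice.const c

theorem mem_niceAlg : f ∈ niceAlg N ↔ IsNice N f := Iff.rfl

theorem AL_le_niceAlg : AL N ≤ niceAlg N := fun _ hf => IsNice.of_mem_AL hf

/-- `SL(2,ℤ)` acts on `niceAlg N` by `(γ • f) τ = f (γ⁻¹ • τ)`. -/
noncomputable instance instActionNiceAlg : MulSemiringAction SL(2, ℤ) (niceAlg N) where
  smul γ f := ⟨fun τ => f.1 (γ⁻¹ • τ), IsNice.comp_smul f.2 γ⁻¹⟩
  one_smul f := by
    apply Subtype.ext
    funext τ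
    show f.1 ((1 : SL(2, ℤ))⁻¹ • τ) = f.1 τ
    rw [inv_one, one_smul]
  mul_smul γ γ' f := by
    apply Subtype.ext
    funext τ
    show f.1 ((γ * γ')⁻¹ • τ) = f.1 (γ'⁻¹ • γ⁻¹ • τ)
    rw [mul_inv_rev, mul_smul]
  smul_zero γ := rfl
  smul_add γ f g := rfl
  smul_one γ := rfl
  smul_mul γ f g := rfl

theorem smul_niceAlg_apply (γ : SL(2, ℤ)) (f : niceAlg N) (τ : ℍ) :
    (γ • f).1 τ = f.1 (γ⁻¹ • τ) := rfl

/-- The inclusion `AL N → niceAlg N`. -/
noncomputable def inclAL : AL N →ₐ[Kbar] niceAlg N := Subalgebra.inclusion AL_le_niceAlg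

theorem inclAL_apply (a : AL N) (τ : ℍ) : (inclAL a).1 τ = a.1 τ := rfl

theorem smul_inclAL (γ : SL(2, ℤ)) (a : AL N) : γ • inclAL a = inclAL (γ • a) := rfl

theorem inclAL_injective : Function.Injective (inclAL (N := N)) :=
  Subalgebra.inclusion_injective _

/-- invariant nice functions are polynomials in `j`. -/
theorem exists_poly_of_smul_eq (f : niceAlg N) (hf : ∀ γ : SL(2, ℤ), γ • f = f) :
    ∃ p : Polynomial Kbar, f = inclAL (Polynomial.aeval (jd N 1 (one_dvd N)) p) := by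
  obtain ⟨p, hp⟩ := IsNice.exists_poly f.2 (fun γ τ => by
    have := congrArg (fun g : niceAlg N => g.1 τ) (hf γ⁻¹)
    simpa [smul_niceAlg_apply] using this)
  refine ⟨p, Subtype.ext (funext fun τ => ?_)⟩
  rw [hp τ, inclAL_apply, aeval_jd_one_apply]

theorem exists_hasTExp_nice (f : niceAlg N) : ∃ s : LaurentSeries Kbar, HasTExp N f.1 s := by
  obtain ⟨s, hs⟩ := f.2.texp 1
  simp only [one_smul] at hs
  exact ⟨s, hs⟩

/-- The `t`-expansion of a nice function. -/
noncomputable def ntexpFun (f : niceAlg N) : LaurentSeries Kbar := (exists_hasTExp_nice f).choose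

theorem hasTExp_ntexpFun (f : niceAlg N) : HasTExp N f.1 (ntexpFun f) :=
  (exists_hasTExp_nice f).choose_spec

theorem ntexpFun_eq {f : niceAlg N} {s : LaurentSeries Kbar} (h : HasTExp N f.1 s) :
    ntexpFun f = s := (hasTExp_ntexpFun f).unique h

variable (N) in
/-- The `t`-expansion homomorphism on nice functions. -/
noncomputable def ntexp : niceAlg N →ₐ[Kbar] LaurentSeries Kbar where
  toFun := ntexpFun
  map_one' := ntexpFun_eq (by
    have h := HasTExp.const (N := N) 1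
    rw [map_one, map_one] at h
    exact h)
  map_mul' f g := ntexpFun_eq ((hasTExp_ntexpFun f).mul (hasTExp_ntexpFun g))
  map_zero' := ntexpFun_eq (by
    have h := HasTExp.const (N := N) 0
    rw [map_zero, map_zero] at h
    exact h)
  map_add' f g := ntexpFun_eq ((hasTExp_ntexpFun f).add (hasTExp_ntexpFun g))
  commutes' c := ntexpFun_eq (by
    rw [algebraMap_laurentSeries_eq_single]
    exact HasTExp.const (N := N) c)

theorem hasTExp_ntexp (f : niceAlg N) : HasTExp N f.1 (ntexp N f) := hasTExp_ntexpFun f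

theorem ntexp_eq {f : niceAlg N} {s : LaurentSeries Kbar} (h : HasTExp N f.1 s) :
    ntexp N f = s := ntexpFun_eq h

theorem ntexp_injective : Function.Injective (ntexp N) := by
  rw [injective_iff_map_eq_zero]
  intro f hf
  have h := hasTExp_ntexp f
  rw [hf] at h
  exact Subtype.ext h.eq_zero

theorem ntexp_inclAL (a : AL N) : ntexp N (inclAL a) = texp N a :=
  ntexp_eq (hasTExp_texp a)

instance instIsDomainNiceAlg : IsDomain (niceAlg N) :=
  ntexp_injective.isDomain (ntexp N).toRingHom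

end Fermat.Agent.Lib.EtaFN
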