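/-
Library EtaFN, node C1: basic facts on `η`, `etaAff`, `etaAffProd`, `etaQuot`.
-/
import Fermat.Agent.Lib.EtaFN.Nice
import Fermat.Agent.Lib.JExpansion

set_option autoImplicit false

noncomputable section

namespace Fermat.Agent.Lib.EtaFN

open UpperHalfPlane ModularCurve AlgebraicCurve Fermat.Agent.S24 Fermat.Agent.S24.B
open Fermat.Agent.S28.EtaQuot
open scoped MatrixGroups Manifold Real ModularForm

section C
variable {ι : Type*} {s : Finset ι} {D : ι → ℕ} {a d : ι → ℕ} {b : ι → ℤ} {r : ι → ℤ}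

theorem qParam_one_add_int (z : ℂ) (m : ℤ) :
    Function.Periodic.qParam 1 (z + m) = Function.Periodic.qParam 1 z := by
  simp only [Function.Periodic.qParam, Complex.ofReal_one, div_one]
  rw [mul_add, Complex.exp_add]
  have : 2 * (π : ℂ) * Complex.I * (m : ℂ) = m * (2 * π * Complex.I) := by ring
  rw [this, Complex.exp_int_mul_two_pi_mul_I, mul_one]

/-- C1 `EtaBasic.lean`. -/
theorem eta_add_int (z : ℂ) (m : ℤ) :
    ModularForm.eta (z + m) = Complex.exp (2 * π * Complex.I * m / 24) * ModularForm.eta z := by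
  unfold ModularForm.eta
  simp only [ModularForm.eta_q, qParam_one_add_int]
  rw [← mul_assoc]
  congr 1
  simp only [Function.Periodic.qParam]
  rw [← Complex.exp_add]
  congr 1
  push_cast
  ring

/-- C1 `EtaBasic.lean`. -/
theorem eta_eq (τ : ℍ) : ModularForm.eta (τ : ℂ) =
    Function.Periodic.qParam 24 τ * JExpansion.eulerFun (Function.Periodic.qParam 1 τ) := rfl

/-- C1 `EtaBasic.lean`. -/
theorem etaAff_ne_zero {a d : ℕ} (ha : 0 < a) (hd : 0 < d) (b : ℤ) (τ : ℍ) :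
    etaAff a d b τ ≠ 0 :=
  ModularForm.eta_ne_zero (aff_im_pos ha hd b τ)

/-- C1 `EtaBasic.lean`. -/
theorem etaAff_pow {a d : ℕ} (ha : 0 < a) (hd : 0 < d) (b : ℤ) (τ : ℍ) :
    etaAff a d b τ ^ 24 = ModularForm.discriminant (aff a d b τ) := by
  rw [ModularForm.discriminant, coe_aff ha hd, etaAff]

theorem zpow_pow_comm' (x : ℂ) (n : ℤ) (k : ℕ) : (x ^ n) ^ k = (x ^ k) ^ n := by
  rw [← zpow_natCast, ← zpow_natCast, ← zpow_mul, ← zpow_mul, mul_comm]

/-- C1 `EtaBasic.lean`. -/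
theorem etaAffProd_pow (ha : ∀ i ∈ s, 0 < a i) (hd : ∀ i ∈ s, 0 < d i) (τ : ℍ) :
    etaAffProd s a d b r τ ^ 24 = affProd s a d b r τ := by
  rw [etaAffProd, affProd, ← Finset.prod_pow]
  refine Finset.prod_congr rfl fun i hi => ?_
  rw [zpow_pow_comm', etaAff_pow (ha i hi) (hd i hi)]

/-- C1 `EtaBasic.lean`. -/
theorem etaAffProd_ne_zero (ha : ∀ i ∈ s, 0 < a i) (hd : ∀ i ∈ s, 0 < d i) (τ : ℍ) :
    etaAffProd s a d b r τ ≠ 0 :=
  Finset.prod_ne_zero_iff.mpr fun i hi => zpow_ne_zero _ (etaAff_ne_zero (ha i hi) (hd i hi) _ _)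

theorem dil_im_pos {D : ℕ} (hD : 0 < D) (τ : ℍ) : 0 < ((D : ℂ) * τ).im := by
  have : ((D : ℂ) * τ).im = D * τ.im := by simp
  rw [this]
  have := τ.im_pos
  positivity

/-- C1 `EtaBasic.lean`. -/
theorem etaQuot_pow (hD : ∀ i ∈ s, 0 < D i) (τ : ℍ) :
    etaQuot s D r τ ^ 24 = etaQ s D r τ := by
  rw [etaQuot, etaQ, ← Finset.prod_pow]
  refine Finset.prod_congr rfl fun i hi => ?_
  rw [zpow_pow_comm', ModularForm.discriminant, ofComplex_apply_of_im_pos (dil_im_pos (hD i hi) τ)]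

/-- C1 `EtaBasic.lean`. -/
theorem etaQuot_ne_zero (hD : ∀ i ∈ s, 0 < D i) (τ : ℍ) : etaQuot s D r τ ≠ 0 :=
  Finset.prod_ne_zero_iff.mpr fun i hi =>
    zpow_ne_zero _ (ModularForm.eta_ne_zero (dil_im_pos (hD i hi) τ))

theorem differentiableOn_eta_aff {a d : ℕ} (ha : 0 < a) (hd : 0 < d) (b : ℤ) :
    DifferentiableOn ℂ (fun z : ℂ => ModularForm.eta (((a : ℂ) * z + b) / d)) {z | 0 < z.im} := by
  intro z hz
  have h1 : DifferentiableAt ℂ ModularForm.eta (((a : ℂ) * z + b) / d) :=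
    ModularForm.differentiableAt_eta_of_mem_upperHalfPlaneSet (aff_im_pos ha hd b ⟨z, hz⟩)
  have h2 : DifferentiableAt ℂ (fun z : ℂ => ((a : ℂ) * z + b) / d) z := by fun_prop
  exact (h1.comp z h2).differentiableWithinAt

/-- C1 `EtaBasic.lean`. -/
theorem mdiff_etaAffProd (ha : ∀ i ∈ s, 0 < a i) (hd : ∀ i ∈ s, 0 < d i) :
    MDiff (etaAffProd s a d b r) := by
  rw [UpperHalfPlane.mdifferentiable_iff]
  have h1 : ∀ i ∈ s, DifferentiableOn ℂ
      (fun z : ℂ => ModularForm.eta (((a i : ℂ) * z + b i) / d i) ^ r i) {z | 0 < z.im} := by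
    intro i hi
    exact (differentiableOn_eta_aff (ha i hi) (hd i hi) (b i)).zpow
      (Or.inl fun z hz => ModularForm.eta_ne_zero (aff_im_pos (ha i hi) (hd i hi) (b i) ⟨z, hz⟩))
  refine (DifferentiableOn.fun_finsetProd h1).congr fun z hz => ?_
  simp only [Function.comp_apply, etaAffProd, etaAff]
  rw [ofComplex_apply_of_im_pos hz]

/-- C1 `EtaBasic.lean`. -/
theorem mdiff_etaQuot (hD : ∀ i ∈ s, 0 < D i) : MDiff (etaQuot s D r) := by
  have h := mdiff_etaAffProd (s := s) (a := D) (d := fun _ => 1) (b := fun _ => 0) (r := r) hD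
    (fun _ _ => Nat.one_pos)
  have e : etaAffProd s D (fun _ => 1) (fun _ => 0) r = etaQuot s D r := by
    funext τ
    simp [etaAffProd, etaAff, etaQuot]
  rwa [e] at h

end C

end Fermat.Agent.Lib.EtaFN
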