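/-
Library EtaFN (architect helper210), node C2.   Owner: helper279.
-/
import Fermat.Agent.Lib.EtaFN.Defs

set_option autoImplicit false

namespace Fermat.Agent.Lib.EtaFN

open UpperHalfPlane

/-- C2.  (`ℍ` is connected, the `n`-th roots of `c` are a finite set.) -/
theorem eq_const_of_pow_eq {f : ℍ → ℂ} (hf : Continuous f) {n : ℕ} (hn : 0 < n) {c : ℂ}
    (h : ∀ τ, f τ ^ n = c) : ∃ c₀ : ℂ, c₀ ^ n = c ∧ ∀ τ, f τ = c₀ := by
  classical
  have hfin : {z : ℂ | z ^ n = c}.Finite := by
    refine Set.Finite.subset (Polynomial.nthRoots n c).toFinset.finite_toSet ?_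
    intro z hz
    simpa [Polynomial.mem_nthRoots hn] using hz
  refine ⟨f UpperHalfPlane.I, h _, fun τ => ?_⟩
  exact isPreconnected_univ.constant_of_mapsTo hfin.isDiscrete hf.continuousOn
    (fun τ _ => h τ) (Set.mem_univ _) (Set.mem_univ _)

end Fermat.Agent.Lib.EtaFN
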