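/-
Library EtaFN (architect helper210), node C3 (owner helper288): the slash of an eta quotient by an
arbitrary element of `SL(2,ℤ)`.
-/
import Fermat.Agent.Lib.EtaFN.EtaBasic
import Fermat.Agent.Lib.EtaFN.Const

set_option autoImplicit false

noncomputable section

namespace Fermat.Agent.Lib.EtaFN

open UpperHalfPlane ModularCurve AlgebraicCurve Fermat.Agent.S24 Fermat.Agent.S24.B
open Fermat.Agent.S28.EtaQuot
open scoped MatrixGroups Manifold Real ModularForm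

section C
variable {ι : Type*} {s : Finset ι} {D : ι → ℕ} {a d : ι → ℕ} {b : ι → ℤ} {r : ι → ℤ}

/-- the `24`-th power of the slash of weight `k` is the slash of weight `24 k` of the `24`-th
power -/
theorem slash_pow_24 (F G : ℍ → ℂ) (hFG : ∀ τ, F τ ^ 24 = G τ) (k k' : ℤ) (hk : k' = 24 * k)
    (γ : SL(2, ℤ)) (τ : ℍ) : (F ∣[k] γ) τ ^ 24 = (G ∣[k'] γ) τ := by
  rw [ModularForm.SL_slash_apply, ModularForm.SL_slash_apply, mul_pow, hFG, hk, ← zpow_natCast,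
    ← zpow_mul]
  congr 2
  push_cast
  ring

/-- C3.  From `etaQ_slash` (S28), C1 and C2. -/
theorem etaQuot_slash (hD : ∀ i ∈ s, 0 < D i) (k : ℤ) (hk : 2 * k = ∑ i ∈ s, r i)
    (γ : SL(2, ℤ)) :
    ∃ (b : ι → ℤ) (c : ℂ), c ^ 24 = ∏ i ∈ s, ((gD D (γ 1 0) i : ℂ) ^ (-12 : ℤ)) ^ r i ∧
      ∀ τ : ℍ, (etaQuot s D r ∣[k] γ) τ =
        c * etaAffProd s (gA D (γ 1 0)) (gD D (γ 1 0)) b r τ := by
  obtain ⟨b, hb⟩ := etaQ_slash (r := r) hD γ
  have hA := gA_pos hD (γ 1 0)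
  have hDD := gD_pos hD (γ 1 0)
  have hne : ∀ τ, etaAffProd s (gA D (γ 1 0)) (gD D (γ 1 0)) b r τ ≠ 0 :=
    etaAffProd_ne_zero hA hDD
  have hcont : Continuous (fun τ : ℍ => (etaQuot s D r ∣[k] γ) τ /
      etaAffProd s (gA D (γ 1 0)) (gD D (γ 1 0)) b r τ) := by
    have h1 : MDiff (etaQuot s D r ∣[k] γ) := (mdiff_etaQuot hD).slash k _
    exact h1.continuous.div (mdiff_etaAffProd hA hDD).continuous hne
  obtain ⟨c₀, hc₀, hconst⟩ := eq_const_of_pow_eq hcont (n := 24) (by norm_num)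
    (c := ∏ i ∈ s, ((gD D (γ 1 0) i : ℂ) ^ (-12 : ℤ)) ^ r i) (fun τ => by
      rw [div_pow, slash_pow_24 _ (etaQ s D r) (etaQuot_pow hD) k (12 * ∑ i ∈ s, r i)
        (by rw [← hk]; ring) γ τ, hb τ, etaAffProd_pow hA hDD]
      refine mul_div_cancel_right₀ _ ?_
      rw [← etaAffProd_pow hA hDD]
      exact pow_ne_zero _ (hne τ))
  refine ⟨b, c₀, hc₀, fun τ => ?_⟩
  rw [← hconst τ, div_mul_cancel₀ _ (hne τ)]

end C

end Fermat.Agent.Lib.EtaFN
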