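/-
Library EtaFN, node C4: behaviour of eta products under translations and parabolic elements.
-/
import Fermat.Agent.Lib.EtaFN.EtaBasic
import Fermat.Agent.Lib.EtaFN.EtaSlash

set_option autoImplicit false

noncomputable section

namespace Fermat.Agent.Lib.EtaFN

open UpperHalfPlane ModularCurve AlgebraicCurve Fermat.Agent.S24 Fermat.Agent.S24.B
open Fermat.Agent.S28.EtaQuot
open scoped MatrixGroups Manifold Real ModularForm

section C
variable {ι : Type*} {s : Finset ι} {D : ι → ℕ} {a d : ι → ℕ} {b : ι → ℤ} {r : ι → ℤ}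

/-- one factor of the shift computation -/
theorem etaAff_T_zpow_smul {a d : ℕ} (hd : 0 < d) (b h m : ℤ) (hm : (a : ℤ) * h = m * d)
    (τ : ℍ) :
    etaAff a d b (ModularGroup.T ^ h • τ) =
      Complex.exp (2 * π * Complex.I * m / 24) * etaAff a d b τ := by
  have hd' : (d : ℂ) ≠ 0 := by exact_mod_cast hd.ne'
  have hm' : (a : ℂ) * h = m * d := by exact_mod_cast congrArg (Int.cast : ℤ → ℂ) hm
  rw [etaAff, etaAff, ModularGroup.coe_T_zpow_smul_eq, ← eta_add_int]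
  congr 1
  field_simp
  linear_combination hm'

/-- C4 `EtaShift.lean`. -/
theorem etaAffProd_T_zpow_smul (hd : ∀ i ∈ s, 0 < d i) (h : ℤ) (m : ι → ℤ)
    (hm : ∀ i ∈ s, (a i : ℤ) * h = m i * d i) (τ : ℍ) :
    etaAffProd s a d b r (ModularGroup.T ^ h • τ) =
      Complex.exp (2 * π * Complex.I * (∑ i ∈ s, r i * m i : ℤ) / 24) * etaAffProd s a d b r τ := by
  have h1 : Complex.exp (2 * π * Complex.I * (∑ i ∈ s, r i * m i : ℤ) / 24)
      = ∏ i ∈ s, Complex.exp (2 * π * Complex.I * m i / 24) ^ r i := by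
    rw [← Finset.prod_congr rfl fun i _ => Complex.exp_int_mul (2 * π * Complex.I * m i / 24) (r i),
      ← Complex.exp_sum]
    congr 1
    push_cast
    rw [Finset.mul_sum, Finset.sum_div]
    refine Finset.sum_congr rfl fun i _ => ?_
    ring
  rw [h1, etaAffProd, etaAffProd, ← Finset.prod_mul_distrib]
  refine Finset.prod_congr rfl fun i hi => ?_
  rw [etaAff_T_zpow_smul (hd i hi) (b i) h (m i) (hm i hi) τ, mul_zpow]

/-- the slash operator by a translation is the translation -/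
theorem slash_T_zpow_apply (F : ℍ → ℂ) (k h : ℤ) (τ : ℍ) :
    (F ∣[k] (ModularGroup.T ^ h)) τ = F (ModularGroup.T ^ h • τ) := by
  have h1 : denom (ModularGroup.T ^ h : SL(2, ℤ)) τ = 1 := by
    rw [ModularGroup.denom_apply, ModularGroup.coe_T_zpow]
    simp
  rw [ModularForm.SL_slash_apply, h1, one_zpow, mul_one]

/-- C4 `EtaShift.lean`.  Invariance under a parabolic element `δ T^h δ⁻¹`. -/
theorem etaQuot_slash_conj_T (hD : ∀ i ∈ s, 0 < D i) (k : ℤ) (hk : 2 * k = ∑ i ∈ s, r i)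
    (δ : SL(2, ℤ)) (h : ℤ) (m : ι → ℤ)
    (hm : ∀ i ∈ s, (gA D (δ 1 0) i : ℤ) * h = m i * gD D (δ 1 0) i)
    (h24 : (24 : ℤ) ∣ ∑ i ∈ s, r i * m i) :
    etaQuot s D r ∣[k] (δ * ModularGroup.T ^ h * δ⁻¹) = etaQuot s D r := by
  obtain ⟨b, c, -, hc⟩ := etaQuot_slash (r := r) hD k hk δ
  have h1 : (etaQuot s D r ∣[k] δ) ∣[k] (ModularGroup.T ^ h) = etaQuot s D r ∣[k] δ := by
    funext τ
    rw [slash_T_zpow_apply, hc, hc, etaAffProd_T_zpow_smul (gD_pos hD _) h m hm τ]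
    obtain ⟨n, hn⟩ := h24
    have h2 : Complex.exp (2 * π * Complex.I * (∑ i ∈ s, r i * m i : ℤ) / 24) = 1 := by
      rw [Complex.exp_eq_one_iff]
      refine ⟨n, ?_⟩
      rw [hn]
      push_cast
      ring
    rw [h2, one_mul]
  rw [SlashAction.slash_mul, SlashAction.slash_mul, h1, ← SlashAction.slash_mul, mul_inv_cancel,
    SlashAction.slash_one]

/-- C4 `EtaShift.lean`. -/
theorem etaQuot_slash_neg_one (k : ℤ) :
    etaQuot s D r ∣[k] (-1 : SL(2, ℤ)) = ((-1 : ℂ) ^ k) • etaQuot s D r := by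
  funext τ
  have h1 : denom (-1 : SL(2, ℤ)) τ = -1 := by
    rw [ModularGroup.denom_apply]
    simp
  rw [ModularForm.SL_slash_apply, h1, ModularGroup.SL_neg_smul, one_smul, Pi.smul_apply,
    smul_eq_mul, mul_comm, zpow_neg, ← inv_zpow]
  norm_num

/-- C4 `EtaShift.lean`.  Converse of the shift computation: periodicity forces `24 ∣ ∑ r m`. -/
theorem dvd_of_etaAffProd_periodic (ha : ∀ i ∈ s, 0 < a i) (hd : ∀ i ∈ s, 0 < d i) (h : ℤ)
    (m : ι → ℤ) (hm : ∀ i ∈ s, (a i : ℤ) * h = m i * d i) (τ : ℍ)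
    (hper : etaAffProd s a d b r (ModularGroup.T ^ h • τ) = etaAffProd s a d b r τ) :
    (24 : ℤ) ∣ ∑ i ∈ s, r i * m i := by
  rw [etaAffProd_T_zpow_smul hd h m hm τ] at hper
  have h0 : etaAffProd s a d b r τ ≠ 0 := etaAffProd_ne_zero ha hd τ
  have h1 : Complex.exp (2 * π * Complex.I * (∑ i ∈ s, r i * m i : ℤ) / 24) = 1 :=
    mul_right_cancel₀ h0 (by rw [hper, one_mul])
  obtain ⟨n, hn⟩ := Complex.exp_eq_one_iff.mp h1
  refine ⟨n, ?_⟩
  have h2 : (2 * π * Complex.I : ℂ) ≠ 0 := Complex.two_pi_I_ne_zero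
  have h3 : ((∑ i ∈ s, r i * m i : ℤ) : ℂ) = ((24 * n : ℤ) : ℂ) := by
    push_cast
    have : (2 * π * Complex.I : ℂ) * ((∑ i ∈ s, r i * m i : ℤ) : ℂ)
        = (2 * π * Complex.I : ℂ) * (24 * n) := by
      linear_combination 24 * hn
    have := mul_left_cancel₀ h2 this
    push_cast at this
    exact this
  exact_mod_cast h3

end C

end Fermat.Agent.Lib.EtaFN
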