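/-
Library EtaFN (architect helper210), node D4: the weight one forms `G4`, `G9` have characters
`chi4`, `chi3` on `Γ₀(4)`, `Γ₀(9)`, and `t4`, `t9` are invariant.
-/
import Fermat.Agent.Lib.EtaFN.Char
import Fermat.Agent.Lib.EtaFN.EtaShift

set_option autoImplicit false

noncomputable section

namespace Fermat.Agent.Lib.EtaFN

open UpperHalfPlane ModularCurve Fermat.Agent.S24 Fermat.Agent.S24.B
open Fermat.Agent.S28.EtaQuot
open scoped MatrixGroups Manifold Real ModularForm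
open CongruenceSubgroup ModularGroup

section General

variable {ι : Type*} {s : Finset ι} {D : ι → ℕ} {r : ι → ℤ}

/-- Invariance of an eta quotient under `T`. -/
theorem etaQuot_slash_T (hD : ∀ i ∈ s, 0 < D i) (k : ℤ) (hk : 2 * k = ∑ i ∈ s, r i)
    (h24 : (24 : ℤ) ∣ ∑ i ∈ s, r i * (D i : ℤ)) : etaQuot s D r ∣[k] T = etaQuot s D r := by
  have h := etaQuot_slash_conj_T hD k hk 1 1 (fun i => (D i : ℤ)) (fun i hi => by
    have h0 : ((1 : SL(2, ℤ)) 1 0 : ℤ) = 0 := by simp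
    rw [h0]
    simp [gA, gD, Nat.div_self (hD i hi)]) h24
  simpa using h

/-- Invariance of an eta quotient under `[1, 0; n, 1]`. -/
theorem etaQuot_slash_lowerTri (hD : ∀ i ∈ s, 0 < D i) (k : ℤ) (hk : 2 * k = ∑ i ∈ s, r i)
    (n : ℤ) (m : ι → ℤ) (hm : ∀ i ∈ s, -n = m i * (D i : ℤ))
    (h24 : (24 : ℤ) ∣ ∑ i ∈ s, r i * m i) :
    etaQuot s D r ∣[k] lowerTri n = etaQuot s D r := by
  have h := etaQuot_slash_conj_T hD k hk S (-n) m (fun i hi => by
    have h0 : ((S : SL(2, ℤ)) 1 0 : ℤ) = 1 := by simp [S]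
    rw [h0]
    simpa [gA, gD] using hm i hi) h24
  rwa [← lowerTri_eq] at h

/-- Invariance of an eta quotient under `δ T δ⁻¹`. -/
theorem etaQuot_slash_conj_T_one (hD : ∀ i ∈ s, 0 < D i) (k : ℤ) (hk : 2 * k = ∑ i ∈ s, r i)
    (δ : SL(2, ℤ)) (c : ℤ) (hc : δ 1 0 = c) (m : ι → ℤ)
    (hm : ∀ i ∈ s, (gA D c i : ℤ) = m i * gD D c i)
    (h24 : (24 : ℤ) ∣ ∑ i ∈ s, r i * m i) :
    etaQuot s D r ∣[k] (δ * T * δ⁻¹) = etaQuot s D r := by
  have h := etaQuot_slash_conj_T hD k hk δ 1 m (fun i hi => by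
    rw [hc, mul_one]; exact hm i hi) h24
  simpa using h

end General

theorem lowerTri_three_apply : (lowerTri 3 : SL(2, ℤ)) 1 0 = 3 := by
  simp [lowerTri]

theorem lowerTri_three_inv_apply : ((lowerTri 3)⁻¹ : SL(2, ℤ)) 1 0 = -3 := by
  rw [Matrix.SpecialLinearGroup.SL2_inv_expl]
  simp [lowerTri]

/-- D4 `CharEta.lean`. -/
theorem G4_slash (γ : SL(2, ℤ)) (hγ : γ ∈ Gamma0 4) :
    etaQuot Finset.univ D4 r4 ∣[(1 : ℤ)] γ = chi4 (γ 1 1) • etaQuot Finset.univ D4 r4 := by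
  have hD : ∀ i ∈ (Finset.univ : Finset (Fin 3)), 0 < D4 i := by decide
  have hk : 2 * (1 : ℤ) = ∑ i, r4 i := by decide
  have h := slash_Gamma0_four (F := etaQuot Finset.univ D4 r4) (k := 1)
    (etaQuot_slash_T hD 1 hk (by decide))
    (etaQuot_slash_lowerTri hD 1 hk 4 ![-4, -2, -1] (by decide) (by decide))
    (etaQuot_slash_neg_one 1) γ hγ
  simpa using h

/-- D4 `CharEta.lean`. -/
theorem G9_slash (γ : SL(2, ℤ)) (hγ : γ ∈ Gamma0 9) :
    etaQuot Finset.univ D9 r9 ∣[(1 : ℤ)] γ = chi3 (γ 1 1) • etaQuot Finset.univ D9 r9 := by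
  have hD : ∀ i ∈ (Finset.univ : Finset (Fin 2)), 0 < D9 i := by decide
  have hk : 2 * (1 : ℤ) = ∑ i, r9 i := by decide
  have h := slash_Gamma0_nine (F := etaQuot Finset.univ D9 r9) (k := 1)
    (etaQuot_slash_T hD 1 hk (by decide))
    (etaQuot_slash_lowerTri hD 1 hk 9 ![-9, -3] (by decide) (by decide))
    (etaQuot_slash_conj_T_one hD 1 hk _ 3 lowerTri_three_apply ![1, 3] (by decide) (by decide))
    (by
      have := etaQuot_slash_conj_T_one hD 1 hk _ (-3) lowerTri_three_inv_apply ![1, 3]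
        (by decide) (by decide)
      simpa using this)
    (etaQuot_slash_neg_one 1) γ hγ
  simpa using h

/-- D4 `CharEta.lean`. -/
theorem t4_smul (γ : SL(2, ℤ)) (hγ : γ ∈ Gamma0 4) (τ : ℍ) :
    etaQuot Finset.univ Dt4 rt4 (γ • τ) = etaQuot Finset.univ Dt4 rt4 τ := by
  have hD : ∀ i ∈ (Finset.univ : Finset (Fin 2)), 0 < Dt4 i := by decide
  have hk : 2 * (0 : ℤ) = ∑ i, rt4 i := by decide
  have h := slash_Gamma0_four (F := etaQuot Finset.univ Dt4 rt4) (k := 0)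
    (etaQuot_slash_T hD 0 hk (by decide))
    (etaQuot_slash_lowerTri hD 0 hk 4 ![-4, -1] (by decide) (by decide))
    (etaQuot_slash_neg_one 0) γ hγ
  have h2 := congrFun h τ
  simpa [ModularForm.SL_slash_apply] using h2

/-- D4 `CharEta.lean`. -/
theorem t9_smul (γ : SL(2, ℤ)) (hγ : γ ∈ Gamma0 9) (τ : ℍ) :
    etaQuot Finset.univ Dt9 rt9 (γ • τ) = etaQuot Finset.univ Dt9 rt9 τ := by
  have hD : ∀ i ∈ (Finset.univ : Finset (Fin 2)), 0 < Dt9 i := by decide
  have hk : 2 * (0 : ℤ) = ∑ i, rt9 i := by decide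
  have h := slash_Gamma0_nine (F := etaQuot Finset.univ Dt9 rt9) (k := 0)
    (etaQuot_slash_T hD 0 hk (by decide))
    (etaQuot_slash_lowerTri hD 0 hk 9 ![-9, -1] (by decide) (by decide))
    (etaQuot_slash_conj_T_one hD 0 hk _ 3 lowerTri_three_apply ![1, 1] (by decide) (by decide))
    (by
      have := etaQuot_slash_conj_T_one hD 0 hk _ (-3) lowerTri_three_inv_apply ![1, 1]
        (by decide) (by decide)
      simpa using this)
    (etaQuot_slash_neg_one 0) γ hγ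
  have h2 := congrFun h τ
  simpa [ModularForm.SL_slash_apply] using h2

end Fermat.Agent.Lib.EtaFN
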