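/-
Library EtaFN (architect helper210), node C6: the range of `iota : ℚ̄ → ℂ`.   Owner: helper279.
-/
import Fermat.Agent.Lib.EtaFN.Defs

set_option autoImplicit false

namespace Fermat.Agent.Lib.EtaFN

open UpperHalfPlane ModularCurve Fermat.Agent.S24 Fermat.Agent.S24.B
open scoped Real

/-- An element of `ℂ` which is integral over `ℚ̄` is in the range of `iota`. -/
theorem exists_iota_eq_of_isIntegral {z : ℂ} (hz : IsIntegral Kbar z) : ∃ c : Kbar, iota c = z := by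
  have hdeg : (minpoly Kbar z).degree = 1 :=
    IsAlgClosed.degree_eq_one_of_irreducible Kbar (minpoly.irreducible hz)
  obtain ⟨c, hc⟩ := minpoly.mem_range_of_degree_eq_one Kbar z hdeg
  exact ⟨c, hc⟩

/-- C6.  Algebraic numbers are in the range of `iota`. -/
theorem exists_iota_eq {z : ℂ} (hz : IsAlgebraic ℚ z) : ∃ c : Kbar, iota c = z :=
  exists_iota_eq_of_isIntegral hz.isIntegral.tower_top

/-- C6. -/
theorem exists_iota_eq_of_pow {z : ℂ} {n : ℕ} (hn : 0 < n) {c : Kbar} (h : z ^ n = iota c) :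
    ∃ c₀ : Kbar, iota c₀ = z ∧ c₀ ^ n = c := by
  have hz : IsIntegral Kbar z := by
    refine ⟨Polynomial.X ^ n - Polynomial.C c, Polynomial.monic_X_pow_sub_C c hn.ne', ?_⟩
    rw [Polynomial.eval₂_sub, Polynomial.eval₂_pow, Polynomial.eval₂_X, Polynomial.eval₂_C, h,
      algebraMap_Kbar_complex, sub_self]
  obtain ⟨c₀, hc₀⟩ := exists_iota_eq_of_isIntegral hz
  refine ⟨c₀, hc₀, iota_injective ?_⟩
  rw [map_pow, hc₀, h]

/-- C6. -/
theorem exists_iota_eq_exp (x : ℚ) :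
    ∃ ξ : Kbarˣ, iota (ξ : Kbar) = Complex.exp (2 * π * Complex.I * x) ∧
      ∃ n : ℕ, 0 < n ∧ ξ ^ n = 1 := by
  have : NeZero x.den := ⟨x.den_nz⟩
  refine ⟨zetaK x.den ^ x.num, ?_, x.den, x.den_pos, ?_⟩
  · rw [iota_zetaK_zpow, Rat.cast_def, mul_div_assoc]
  · rw [← zpow_natCast, ← zpow_mul, mul_comm, zpow_mul, zpow_natCast,
      (isPrimitiveRoot_zetaK x.den).pow_eq_one, one_zpow]

end Fermat.Agent.Lib.EtaFN
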