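/-
Library EtaFN (architect helper210), node C7 (helper186): the expansion of
`∏ η((a τ + b)/d)^r` in `t = exp(2 π i τ / N)`.
-/
import Fermat.Agent.Lib.EtaFN.EtaBasic
import Fermat.Agent.Lib.EtaFN.Shape
import Fermat.Agent.Lib.EtaFN.IotaRange
import Fermat.Agent.Lib.EtaUnit.TExp.Misc

set_option autoImplicit false

noncomputable section

namespace Fermat.Agent.Lib.EtaFN

open UpperHalfPlane ModularCurve AlgebraicCurve Fermat.Agent.S24 Fermat.Agent.S24.B
open Fermat.Agent.S28.EtaQuot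
open scoped MatrixGroups Manifold Real ModularForm

local notation "𝕢" => Function.Periodic.qParam

section Exp
variable {N : ℕ} [NeZero N]
variable {ι : Type*} {s : Finset ι} {D : ι → ℕ} {a d : ι → ℕ} {b : ι → ℤ} {r : ι → ℤ}

/-- C7 `EtaExp.lean`. -/
theorem hasTExp_eulerFun :
    HasTExp 1 (fun τ : ℍ => JExpansion.eulerFun (Function.Periodic.qParam 1 τ)) eulerSer := by
  intro τ
  have h := JExpansion.ev_eulerFun (JExpansion.norm_q_lt_one τ)
  unfold JExpansion.Ev at h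
  have hinj : Function.Injective (fun n : ℕ => (n : ℤ)) := Nat.cast_injective
  rw [← hinj.hasSum_iff]
  · refine h.congr_fun fun n => ?_
    simp only [Function.comp_apply]
    rw [eulerSer, HahnSeries.ofPowerSeries_apply_coeff, PowerSeries.coeff_map, PowerSeries.coeff_map,
      eq_intCast, eq_intCast, map_intCast, zpow_natCast, Nat.cast_one]
  · intro x hx
    have hlt : x < 0 := by
      by_contra hge
      rw [not_lt] at hge
      exact hx ⟨x.toNat, Int.toNat_of_nonneg hge⟩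
    have : eulerSer.coeff x = 0 := by
      rw [eulerSer, HahnSeries.ofPowerSeries_apply, HahnSeries.embDomain_of_notMem_range]
      rintro ⟨n, hn⟩
      have hn' : (n : ℤ) = x := hn
      omega
    rw [this, map_zero, zero_mul]

/-- a root of unity of `Kbar` is integral. -/
theorem EtaExp.isIntegral_of_pow_eq_one {ξ : Kbarˣ} {n : ℕ} (hn : 0 < n) (h : ξ ^ n = 1) :
    IsIntegral ℤ (ξ : Kbar) := by
  refine IsIntegral.of_pow hn ?_
  rw [← Units.val_pow_eq_pow_val, h, Units.val_one]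
  exact isIntegral_one

/-- the Euler factor of `η((a τ + b)/d)^r`. -/
theorem EtaExp.exists_euler_factor {a d : ℕ} (ha : 0 < a) (hd : 0 < d) (b : ℤ) (e : ℕ)
    (he : N * a = e * d) (r : ℤ) :
    ∃ S : LaurentSeries Kbar,
      HasTExp N (fun τ : ℍ => JExpansion.eulerFun (𝕢 1 (((a : ℂ) * τ + b) / d)) ^ r) S ∧
        IsUnitShape S 1 0 := by
  have he0 : e ≠ 0 := by
    rintro rfl
    rw [zero_mul] at he
    exact (Nat.mul_ne_zero (NeZero.ne N) ha.ne') he
  have : NeZero e := ⟨he0⟩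
  obtain ⟨ξ, hξ, n, hn, hξn⟩ := exists_iota_eq_exp ((b : ℚ) / d)
  have ha' : (0 : ℤ) < (a : ℤ) := by exact_mod_cast ha
  have hd' : (0 : ℤ) < (d : ℤ) := by exact_mod_cast hd
  have h1 := hasTExp_tri (N := N) hasTExp_eulerFun (a : ℤ) b (d : ℤ) ha' hd' e
    (by exact_mod_cast he.symm) ξ (by
      rw [hξ]
      congr 1
      push_cast
      ring)
  have h0 : ∀ τ : ℍ, JExpansion.eulerFun (𝕢 1 ((triMat (a : ℤ) b (d : ℤ) ha' hd' • τ : ℍ) : ℂ)) ≠ 0 :=
    fun τ => JExpansion.eulerFun_ne_zero (JExpansion.norm_q_lt_one _)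
  have h2 := h1.zpow h0 r
  refine ⟨qExpand Kbar e (twist ξ eulerSer) ^ r, ?_, ?_⟩
  · convert h2 using 4 with τ
    rw [coe_triMat_smul]
    push_cast
    rfl
  · have h3 := (isUnitShape_eulerSer.qExpand_twist e ξ
      (EtaExp.isIntegral_of_pow_eq_one hn hξn)).zpow r
    simpa using h3

/-- the product of the factors `q^(1/24)`. -/
theorem EtaExp.prod_qParam (hd : ∀ i ∈ s, 0 < d i) (e : ι → ℕ)
    (he : ∀ i ∈ s, N * a i = e i * d i) (m : ℤ) (hm : 24 * m = ∑ i ∈ s, r i * e i) (τ : ℍ) :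
    ∏ i ∈ s, 𝕢 24 (((a i : ℂ) * τ + b i) / d i) ^ r i =
      Complex.exp (2 * π * Complex.I * ((∑ i ∈ s, (r i : ℚ) * b i / (24 * d i) : ℚ) : ℂ)) *
        𝕢 N τ ^ m := by
  have hN : (N : ℂ) ≠ 0 := by exact_mod_cast NeZero.ne N
  have h3 : ∀ i ∈ s, 𝕢 24 (((a i : ℂ) * τ + b i) / d i) ^ r i =
      Complex.exp (2 * π * Complex.I * (((r i : ℚ) * b i / (24 * d i) : ℚ) : ℂ) +
        2 * π * Complex.I * τ / (24 * N) * ((r i * e i : ℤ) : ℂ)) := by
    intro i hi
    have hdi : (d i : ℂ) ≠ 0 := by exact_mod_cast (hd i hi).ne'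
    have hei : (N : ℂ) * a i = e i * d i := by exact_mod_cast he i hi
    rw [Function.Periodic.qParam, ← Complex.exp_int_mul]
    congr 1
    push_cast
    field_simp
    linear_combination (r i : ℂ) * (τ : ℂ) * hei
  rw [Finset.prod_congr rfl h3, ← Complex.exp_sum, Finset.sum_add_distrib, Complex.exp_add,
    ← Finset.mul_sum, ← Finset.mul_sum, ← Int.cast_sum, ← hm, Function.Periodic.qParam,
    ← Complex.exp_int_mul]
  congr 2
  · push_cast
    rfl
  · push_cast
    field_simp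

/-- C7 `EtaExp.lean`.  Expansion of `∏ η((a τ + b)/d)^r` in `t = exp(2 π i τ / N)`. -/
theorem hasTExp_etaAffProd (ha : ∀ i ∈ s, 0 < a i) (hd : ∀ i ∈ s, 0 < d i) (e : ι → ℕ)
    (he : ∀ i ∈ s, N * a i = e i * d i) (m : ℤ) (hm : 24 * m = ∑ i ∈ s, r i * e i) :
    ∃ (S : LaurentSeries Kbar) (c : Kbar), HasTExp N (etaAffProd s a d b r) S ∧
      IsUnitShape S c m ∧ ∃ n : ℕ, 0 < n ∧ c ^ n = 1 := by
  classical
  have hex : ∀ i, ∃ S : LaurentSeries Kbar, i ∈ s →
      (HasTExp N (fun τ : ℍ =>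
        JExpansion.eulerFun (𝕢 1 (((a i : ℂ) * τ + b i) / d i)) ^ r i) S ∧ IsUnitShape S 1 0) := by
    intro i
    by_cases hi : i ∈ s
    · obtain ⟨S, hS⟩ := EtaExp.exists_euler_factor (N := N) (ha i hi) (hd i hi) (b i) (e i)
        (he i hi) (r i)
      exact ⟨S, fun _ => hS⟩
    · exact ⟨0, fun h => absurd h hi⟩
  choose S hS using hex
  obtain ⟨ξ, hξ, n, hn, hξn⟩ := exists_iota_eq_exp (∑ i ∈ s, (r i : ℚ) * b i / (24 * d i))
  have h1 := HasTExp.prod s fun i hi => (hS i hi).1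
  have h2 := (HasTExp.single (N := N) m (ξ : Kbar)).mul h1
  have h3 := (IsUnitShape.single (ξ : Kbar) m).mul (IsUnitShape.prod s fun i hi => (hS i hi).2)
  rw [Finset.prod_const_one, mul_one, Finset.sum_const_zero, add_zero] at h3
  refine ⟨HahnSeries.single m (ξ : Kbar) * ∏ i ∈ s, S i, (ξ : Kbar), ?_, h3, n, hn, ?_⟩
  · convert h2 using 1
    funext τ
    rw [Pi.mul_apply, etaAffProd, hξ, ← EtaExp.prod_qParam hd e he m hm τ,
      ← Finset.prod_mul_distrib]
    refine Finset.prod_congr rfl fun i _ => ?_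
    rw [← mul_zpow]
    rfl
  · rw [← Units.val_pow_eq_pow_val, hξn, Units.val_one]

end Exp

end Fermat.Agent.Lib.EtaFN
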