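/-
Library EtaFN (architect helper210), node E0 (owner helper289): an invariant eta quotient of weight
`0` is a modular function for `Γ₀(N)`; shape of its expansions at all the cusps.
-/
import Fermat.Agent.Lib.EtaFN.EtaSlash
import Fermat.Agent.Lib.EtaFN.EtaShift
import Fermat.Agent.Lib.EtaFN.IotaRange
import Fermat.Agent.Lib.EtaFN.EtaExp

set_option autoImplicit false

noncomputable section

namespace Fermat.Agent.Lib.EtaFN

open UpperHalfPlane ModularCurve AlgebraicCurve Fermat.Agent.S24 Fermat.Agent.S24.B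
open Fermat.Agent.S28.EtaQuot
open scoped MatrixGroups Manifold Real ModularForm

section E

open CongruenceSubgroup

variable {N : ℕ} [NeZero N]
variable {ι : Type*} {s : Finset ι} {D : ι → ℕ} {r : ι → ℤ}

/-- the parabolic element `γ T^N γ⁻¹` is in `Γ₀(N)` -/
theorem conj_T_zpow_mem_Gamma0 (N : ℕ) (γ : SL(2, ℤ)) :
    γ * ModularGroup.T ^ (N : ℤ) * γ⁻¹ ∈ Gamma0 N := by
  rw [Gamma0_mem]
  have h1 : (γ * ModularGroup.T ^ (N : ℤ) * γ⁻¹) 1 0 = -(N : ℤ) * (γ 1 0) ^ 2 := by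
    rw [Matrix.SpecialLinearGroup.coe_mul, Matrix.SpecialLinearGroup.coe_mul,
      ModularGroup.coe_T_zpow, Matrix.SpecialLinearGroup.SL2_inv_expl]
    simp [Matrix.mul_apply, Fin.sum_univ_two]
    ring
  rw [h1]
  push_cast
  simp

/-- multiplication of a shape by a constant -/
theorem IsUnitShape.C_mul {S : LaurentSeries Kbar} {c : Kbar} {m : ℤ} (h : IsUnitShape S c m)
    (c₀ : Kbar) : IsUnitShape (HahnSeries.C c₀ * S) (c₀ * c) m := by
  obtain ⟨U, hU0, hU, rfl⟩ := h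
  exact ⟨U, hU0, hU, by rw [map_mul, mul_assoc, mul_assoc, mul_assoc]⟩

/-- E0 `EtaModFun.lean`.  Expansion of an invariant eta quotient of weight `0` at all cusps. -/
theorem etaQuot_shape (hD : ∀ i ∈ s, 0 < D i) (hDN : ∀ i ∈ s, D i ∣ N) (hr : ∑ i ∈ s, r i = 0)
    (hinv : ∀ γ ∈ Gamma0 N, ∀ τ : ℍ, etaQuot s D r (γ • τ) = etaQuot s D r τ) (γ : SL(2, ℤ)) :
    ∃ (S : LaurentSeries Kbar) (c : Kbar) (m : ℤ),
      HasTExp N (fun τ => etaQuot s D r (γ • τ)) S ∧ IsUnitShape S c m ∧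
      24 * m = ∑ i ∈ s, r i * ((N * gA D (γ 1 0) i / gD D (γ 1 0) i : ℕ) : ℤ) ∧
      ∃ n : ℕ, 0 < n ∧
        c ^ (24 * n) = (∏ i ∈ s, ((gD D (γ 1 0) i : Kbar) ^ (-12 : ℤ)) ^ r i) ^ n := by
  obtain ⟨b, c₀, hc₀, hsl⟩ := etaQuot_slash (r := r) hD 0 (by rw [hr, mul_zero]) γ
  have hA := gA_pos hD (γ 1 0)
  have hDD := gD_pos hD (γ 1 0)
  -- the slash of weight zero is the composition
  have hsl' : ∀ τ : ℍ, etaQuot s D r (γ • τ) =
      c₀ * etaAffProd s (gA D (γ 1 0)) (gD D (γ 1 0)) b r τ := by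
    intro τ
    rw [← hsl τ, ModularForm.SL_slash_apply, neg_zero, zpow_zero, mul_one]
  have hc₀ne : c₀ ≠ 0 := by
    intro h0
    have h1 := hsl' UpperHalfPlane.I
    rw [h0, zero_mul] at h1
    exact etaQuot_ne_zero hD _ h1
  -- periodicity
  have hper : ∀ τ : ℍ,
      etaAffProd s (gA D (γ 1 0)) (gD D (γ 1 0)) b r (ModularGroup.T ^ (N : ℤ) • τ) =
        etaAffProd s (gA D (γ 1 0)) (gD D (γ 1 0)) b r τ := by
    intro τ
    have h1 : etaQuot s D r (γ • ModularGroup.T ^ (N : ℤ) • τ) = etaQuot s D r (γ • τ) := by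
      have h2 : γ • ModularGroup.T ^ (N : ℤ) • τ =
          (γ * ModularGroup.T ^ (N : ℤ) * γ⁻¹) • γ • τ := by
        rw [mul_smul, mul_smul, inv_smul_smul]
      rw [h2]
      exact hinv _ (conj_T_zpow_mem_Gamma0 N γ) _
    rw [hsl', hsl'] at h1
    exact mul_left_cancel₀ hc₀ne h1
  -- the exponents
  have he : ∀ i ∈ s, N * gA D (γ 1 0) i =
      (N * gA D (γ 1 0) i / gD D (γ 1 0) i) * gD D (γ 1 0) i := by
    intro i hi
    have h1 : gD D (γ 1 0) i ∣ N := (gD_dvd _ i).trans (hDN i hi)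
    exact (Nat.div_mul_cancel (h1.mul_right _)).symm
  obtain ⟨m, hm⟩ := dvd_of_etaAffProd_periodic (b := b) (r := r) hA hDD (N : ℤ)
    (fun i => ((N * gA D (γ 1 0) i / gD D (γ 1 0) i : ℕ) : ℤ))
    (fun i hi => by
      have := he i hi
      rw [mul_comm]
      exact_mod_cast this) UpperHalfPlane.I (hper _)
  obtain ⟨S, c₁, hS, hshape, n, hn, hc₁⟩ := hasTExp_etaAffProd (N := N) (b := b) (r := r)
    hA hDD (fun i => N * gA D (γ 1 0) i / gD D (γ 1 0) i) he m hm.symm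
  -- the constant is algebraic
  obtain ⟨c₂, hc₂, hc₂'⟩ := exists_iota_eq_of_pow (z := c₀) (n := 24) (by norm_num)
    (c := ∏ i ∈ s, ((gD D (γ 1 0) i : Kbar) ^ (-12 : ℤ)) ^ r i) (by
      rw [hc₀, map_prod]
      refine Finset.prod_congr rfl fun i _ => ?_
      rw [map_zpow₀, map_zpow₀, map_natCast])
  refine ⟨HahnSeries.C c₂ * S, c₂ * c₁, m, ?_, hshape.C_mul c₂, hm.symm, n, hn, ?_⟩
  · have h1 := (HasTExp.const (N := N) c₂).mul hS
    have h2 : (fun τ => etaQuot s D r (γ • τ)) =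
        (fun _ => iota c₂) * etaAffProd s (gA D (γ 1 0)) (gD D (γ 1 0)) b r := by
      funext τ
      rw [hsl', Pi.mul_apply, hc₂]
    rw [h2]
    exact h1
  · rw [mul_pow, pow_mul, hc₂', mul_comm 24 n, pow_mul c₁, hc₁, one_pow, mul_one]

/-- E0 `EtaModFun.lean`. -/
theorem isModFun_etaQuot (hD : ∀ i ∈ s, 0 < D i) (hDN : ∀ i ∈ s, D i ∣ N)
    (hr : ∑ i ∈ s, r i = 0)
    (hinv : ∀ γ ∈ Gamma0 N, ∀ τ : ℍ, etaQuot s D r (γ • τ) = etaQuot s D r τ) :
    IsModFun N (etaQuot s D r) where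
  mdiff := mdiff_etaQuot hD
  texp := fun γ => by
    obtain ⟨S, -, -, hS, -⟩ := etaQuot_shape hD hDN hr hinv γ
    exact ⟨S, hS⟩
  inv := hinv

end E

end Fermat.Agent.Lib.EtaFN
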