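/-
Library EtaFN, node B1 (owner helper256): a polynomial `p` over `ℚ̄` such that `p (j (q))` has
algebraic integer coefficients has algebraic integer coefficients.
-/
import Fermat.Agent.Lib.EtaFN.Defs
import Fermat.Prelude.Def_ModularCurve_X0ModL

set_option autoImplicit false

namespace Fermat.Agent.Lib.EtaFN

open ModularCurve Fermat.Agent.S24 Fermat.Agent.S24.B

namespace IntPoly

/-- The subring of Laurent series all of whose coefficients are algebraic integers. -/
def intSer : Subring (LaurentSeries Kbar) where
  carrier := {s | ∀ n : ℤ, IsIntegral ℤ (s.coeff n)}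
  mul_mem' := by
    intro s t hs ht n
    rw [HahnSeries.coeff_mul]
    exact IsIntegral.sum _ fun ij _ => (hs _).mul (ht _)
  one_mem' := by
    intro n
    rw [HahnSeries.coeff_one]
    split_ifs
    · exact isIntegral_one
    · exact isIntegral_zero
  add_mem' := by
    intro s t hs ht n
    rw [HahnSeries.coeff_add]
    exact (hs n).add (ht n)
  zero_mem' := by
    intro n
    rw [HahnSeries.coeff_zero]
    exact isIntegral_zero
  neg_mem' := by
    intro s hs n
    rw [HahnSeries.coeff_neg]
    exact (hs n).neg

theorem mem_intSer {s : LaurentSeries Kbar} :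
    s ∈ intSer ↔ ∀ n : ℤ, IsIntegral ℤ (s.coeff n) := Iff.rfl

theorem C_mem_intSer {c : Kbar} (hc : IsIntegral ℤ c) : HahnSeries.C c ∈ intSer := by
  intro n
  rw [HahnSeries.C_apply, HahnSeries.coeff_single]
  split_ifs
  · exact hc
  · exact isIntegral_zero

theorem Jser_one_mem_intSer : Jser 1 ∈ intSer := by
  intro n
  rw [Formal.Jser_one, coeffEmb_coeff, ← jqModC_rat, coeff_jqModC_eq_intCast, map_intCast]
  exact isIntegral_algebraMap (R := ℤ) (A := Kbar) (x := (jqModC ℤ).coeff n)

theorem isIntegral_coeff_aux (k : ℕ) : ∀ p : Polynomial Kbar,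
    p.natDegree < k → Polynomial.aeval (Jser 1) p ∈ intSer →
    ∀ i, IsIntegral ℤ (p.coeff i) := by
  induction k with
  | zero => intro p hp; exact absurd hp (Nat.not_lt_zero _)
  | succ k ih =>
    intro p hp hmem
    have ha : IsIntegral ℤ p.leadingCoeff := Formal.coeff_aeval_Jser_one p ▸ hmem _
    have hdecomp := Polynomial.eraseLead_add_C_mul_X_pow p
    have hmem' : Polynomial.aeval (Jser 1) p.eraseLead ∈ intSer := by
      have h1 : Polynomial.aeval (Jser 1) p.eraseLead =
          Polynomial.aeval (Jser 1) p - HahnSeries.C p.leadingCoeff * (Jser 1) ^ p.natDegree := by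
        conv_rhs => rw [← hdecomp]
        rw [map_add, map_mul, map_pow, Polynomial.aeval_C, Polynomial.aeval_X,
          algebraMap_laurentSeries_eq_single]
        simp [HahnSeries.C_apply]
      rw [h1]
      exact Subring.sub_mem _ hmem
        (Subring.mul_mem _ (C_mem_intSer ha) (Subring.pow_mem _ Jser_one_mem_intSer _))
    have hrec : ∀ i, IsIntegral ℤ (p.eraseLead.coeff i) := by
      rcases Polynomial.eraseLead_natDegree_lt_or_eraseLead_eq_zero p with h | h
      · exact ih _ (by omega) hmem'
      · intro i
        rw [h, Polynomial.coeff_zero]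
        exact isIntegral_zero
    intro i
    rw [← hdecomp, Polynomial.coeff_add, Polynomial.coeff_C_mul, Polynomial.coeff_X_pow]
    refine (hrec i).add (ha.mul ?_)
    split_ifs
    · exact isIntegral_one
    · exact isIntegral_zero

end IntPoly

/-- B1.  (`j = 1/q + ⋯` has integral coefficients and leading coefficient `1`.) -/
theorem isIntegral_coeff_of_aeval_Jser (p : Polynomial Kbar)
    (h : ∀ n : ℤ, IsIntegral ℤ ((Polynomial.aeval (Jser 1) p).coeff n)) (k : ℕ) :
    IsIntegral ℤ (p.coeff k) :=
  IntPoly.isIntegral_coeff_aux (p.natDegree + 1) p (Nat.lt_succ_self _) h k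

end Fermat.Agent.Lib.EtaFN
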