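/-
Library EtaFN (architect helper210), node B2 (proofs helper99).
A modular function for `Γ₀(N)` whose expansions at all cusps have integral coefficients is integral
over `ℤ[j]`: it is a root of `∏ (X - f ∘ γ)`, whose coefficients are in `ℤ̄[j]`.
-/
import Fermat.Agent.Lib.EtaFN.Nice
import Fermat.Agent.Lib.EtaFN.IntPoly

set_option autoImplicit false
set_option linter.style.haveILetI false

noncomputable section

namespace Fermat.Agent.Lib.EtaFN

open UpperHalfPlane ModularCurve AlgebraicCurve Fermat.Agent.S24 Fermat.Agent.S24.B Polynomial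
open scoped MatrixGroups Manifold Real ModularForm

/-- The subring of the Laurent series all of whose coefficients are algebraic integers. -/
def Integral.intSer : Subring (LaurentSeries Kbar) :=
  (coeffMap (algebraMap (integralClosure ℤ Kbar) Kbar)).range

theorem Integral.mem_intSer_iff {s : LaurentSeries Kbar} :
    s ∈ Integral.intSer ↔ ∀ n : ℤ, IsIntegral ℤ (s.coeff n) := by
  constructor
  · rintro ⟨y, rfl⟩ n
    exact (y.coeff n).2
  · intro h
    refine ⟨⟨fun k => ⟨s.coeff k, h k⟩, ?_⟩, ?_⟩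
    · refine s.isPWO_support.mono ?_
      intro k hk
      simp only [Function.mem_support, ne_eq] at hk ⊢
      intro h0
      exact hk (Subtype.ext h0)
    · ext k
      rfl

theorem Integral.isIntegral_of_isIntegral_integralClosure {R S : Type*} [CommRing R] [CommRing S]
    [Algebra R S] {x : S} (h : IsIntegral (integralClosure R S) x) : IsIntegral R x :=
  isIntegral_trans x h

variable {N : ℕ} [NeZero N] {f : ℍ → ℂ}

theorem Integral.phi1_aeval_jF (p : Kbar[X]) :
    phi1 N (aeval (jF N) p) = qExpand Kbar N (aeval (Jser 1) p) := by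
  have h : ((aeval (jF N) p : FN N) : LaurentSeries Kbar) = aeval (Jser 1) p := by
    have := Polynomial.aeval_algHom_apply (modularFunctionFieldBar N).val (jF N) p
    exact this.symm
  show qExpand Kbar N ((aeval (jF N) p : FN N) : LaurentSeries Kbar) = _
  rw [h]

theorem Integral.ntexp_inclAL_aeval (p : Kbar[X]) :
    ntexp N (inclAL (aeval (jd N 1 (one_dvd N)) p)) = phi1 N (aeval (jF N) p) := by
  rw [ntexp_inclAL, ← Polynomial.aeval_algHom_apply, ← Polynomial.aeval_algHom_apply, texp_jd]
  rfl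

/-- B2 `Integral.lean`.  `x` is a root of `∏ (X - f ∘ γ)`, whose coefficients are in `ℤ̄[j]`. -/
theorem isIntegral_of_isIntAtCusps (hf : IsModFun N f) (hint : IsIntAtCusps N f) (x : FN N)
    (hx : HasTExp N f (texpL N (Psi N x))) : IsIntegral (Algebra.adjoin ℤ {jF N}) x := by
  classical
  let F : niceAlg N := ⟨f, hf.toIsNice⟩
  have hstab : CongruenceSubgroup.Gamma0 N ≤ MulAction.stabilizer SL(2, ℤ) F := by
    intro g hg
    rw [MulAction.mem_stabilizer_iff]
    apply Subtype.ext
    funext τ
    rw [smul_niceAlg_apply]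
    exact hf.inv g⁻¹ (inv_mem hg) τ
  haveI : (MulAction.stabilizer SL(2, ℤ) F).FiniteIndex := Subgroup.finiteIndex_of_le hstab
  letI : Fintype (SL(2, ℤ) ⧸ MulAction.stabilizer SL(2, ℤ) F) :=
    Subgroup.fintypeQuotientOfFiniteIndex
  let P : (niceAlg N)[X] := ∏ q : SL(2, ℤ) ⧸ MulAction.stabilizer SL(2, ℤ) F,
    (X - C (MulAction.ofQuotientStabilizer SL(2, ℤ) F q))
  have hPm : P.Monic := Polynomial.monic_prod_of_monic _ _ (fun q _ => Polynomial.monic_X_sub_C _)
  have hP0 : P.eval F = 0 := by
    show (∏ q : SL(2, ℤ) ⧸ MulAction.stabilizer SL(2, ℤ) F,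
      (X - C (MulAction.ofQuotientStabilizer SL(2, ℤ) F q))).eval F = 0
    rw [Polynomial.eval_prod]
    refine Finset.prod_eq_zero
      (Finset.mem_univ ((1 : SL(2, ℤ)) : SL(2, ℤ) ⧸ MulAction.stabilizer SL(2, ℤ) F)) ?_
    rw [Polynomial.eval_sub, Polynomial.eval_X, Polynomial.eval_C,
      MulAction.ofQuotientStabilizer_mk, one_smul, sub_self]
  have hPmap : ∀ g : SL(2, ℤ),
      P.map (MulSemiringAction.toRingHom SL(2, ℤ) (niceAlg N) g) = P := by
    intro g
    show (∏ q : SL(2, ℤ) ⧸ MulAction.stabilizer SL(2, ℤ) F,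
      (X - C (MulAction.ofQuotientStabilizer SL(2, ℤ) F q))).map _ = ∏ q, _
    rw [Polynomial.map_prod]
    refine Fintype.prod_equiv (MulAction.toPerm g) _ _ (fun q => ?_)
    rw [Polynomial.map_sub, Polynomial.map_X, Polynomial.map_C,
      MulSemiringAction.toRingHom_apply, ← MulAction.ofQuotientStabilizer_smul]
    rfl
  have hPinv : ∀ (g : SL(2, ℤ)) (n : ℕ), g • P.coeff n = P.coeff n := by
    intro g n
    conv_rhs => rw [← hPmap g]
    rw [Polynomial.coeff_map]
    rfl
  -- the expansions of the conjugates are integral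
  have hroot : ∀ g : SL(2, ℤ), ntexp N (g • F) ∈ Integral.intSer := by
    intro g
    obtain ⟨s, hs, hsint⟩ := hint g⁻¹
    have h1 : ntexp N (g • F) = s := ntexp_eq hs
    rw [h1]
    exact Integral.mem_intSer_iff.2 hsint
  have hcoef : ∀ k, ntexp N (P.coeff k) ∈ Integral.intSer := by
    have h1 : P.map (ntexp N).toRingHom ∈ Polynomial.lifts Integral.intSer.subtype := by
      show (∏ q : SL(2, ℤ) ⧸ MulAction.stabilizer SL(2, ℤ) F,
        (X - C (MulAction.ofQuotientStabilizer SL(2, ℤ) F q))).map (ntexp N).toRingHom ∈ _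
      rw [Polynomial.map_prod]
      refine Subsemiring.prod_mem _ (fun q _ => ?_)
      induction q using Quotient.inductionOn' with
      | h g =>
        rw [Polynomial.mem_lifts]
        refine ⟨X - C ⟨_, hroot g⟩, ?_⟩
        rw [Polynomial.map_sub, Polynomial.map_sub, Polynomial.map_X, Polynomial.map_X,
          Polynomial.map_C, Polynomial.map_C]
        rfl
    rw [Polynomial.lifts_iff_coeff_lifts] at h1
    intro k
    obtain ⟨y, hy⟩ := h1 k
    rw [Polynomial.coeff_map] at hy
    have h2 : ntexp N (P.coeff k) = (y : LaurentSeries Kbar) := hy.symm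
    rw [h2]
    exact y.2
  -- the integral closure of `ℤ[j]`
  let B := integralClosure (Algebra.adjoin ℤ {jF N}) (FN N)
  have hconst : ∀ c : Kbar, IsIntegral ℤ c → algebraMap Kbar (FN N) c ∈ B := fun c hc =>
    (hc.map (IsScalarTower.toAlgHom ℤ Kbar (FN N))).tower_top
  have hj : jF N ∈ B :=
    isIntegral_algebraMap (R := Algebra.adjoin ℤ {jF N}) (A := FN N)
      (x := ⟨jF N, Algebra.subset_adjoin rfl⟩)
  have haeval : ∀ p : Kbar[X], (∀ k, IsIntegral ℤ (p.coeff k)) → aeval (jF N) p ∈ B := by
    intro p hp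
    rw [Polynomial.aeval_eq_sum_range]
    refine sum_mem fun i _ => ?_
    rw [Algebra.smul_def]
    exact mul_mem (hconst _ (hp i)) (pow_mem hj i)
  let φ : B →+* LaurentSeries Kbar := (phi1 N).toRingHom.comp (algebraMap B (FN N))
  have hlift : P.map (ntexp N).toRingHom ∈ Polynomial.lifts φ := by
    rw [Polynomial.lifts_iff_coeff_lifts]
    intro k
    rw [Polynomial.coeff_map]
    obtain ⟨p, hp⟩ := exists_poly_of_smul_eq (P.coeff k) (fun g => hPinv g k)
    have h1 : ntexp N (P.coeff k) = phi1 N (aeval (jF N) p) := by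
      rw [hp, Integral.ntexp_inclAL_aeval]
    have h2 : ∀ n : ℤ, IsIntegral ℤ ((aeval (Jser 1) p).coeff n) := by
      intro n
      have h3 := Integral.mem_intSer_iff.1 (hcoef k) ((N : ℤ) * n)
      rwa [h1, Integral.phi1_aeval_jF, qExpand_coeff_mul] at h3
    exact ⟨⟨aeval (jF N) p, haeval p (isIntegral_coeff_of_aeval_Jser p h2)⟩, h1.symm⟩
  obtain ⟨q, hq, -, hqm⟩ := Polynomial.lifts_and_natDegree_eq_and_monic hlift (hPm.map _)
  have hFx : ntexp N F = phi1 N x := by
    rw [← texpL_Psi]
    exact ntexp_eq hx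
  have hxB : IsIntegral B x := by
    refine ⟨q, hqm, ?_⟩
    apply (phi1 N).toRingHom.injective
    rw [map_zero, Polynomial.hom_eval₂]
    have h1 : q.eval₂ φ (phi1 N x) = (q.map φ).eval (phi1 N x) := (Polynomial.eval_map _ _).symm
    have h2 : (P.map (ntexp N).toRingHom).eval (ntexp N F) = ntexp N (P.eval F) :=
      Polynomial.eval_map_apply (ntexp N).toRingHom F
    show q.eval₂ φ (phi1 N x) = 0
    rw [h1, hq, ← hFx, h2, hP0, map_zero]
  exact Integral.isIntegral_of_isIntegral_integralClosure hxB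

end Fermat.Agent.Lib.EtaFN
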