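/-
Library EtaFN (architect helper210), node A2: Lagrange interpolation against `j_N` over the cosets
of `Γ₀(N)`.
-/
import Fermat.Agent.Lib.EtaFN.Nice

set_option autoImplicit false

noncomputable section

namespace Fermat.Agent.Lib.EtaFN

open UpperHalfPlane ModularCurve AlgebraicCurve Fermat.Agent.S24 Fermat.Agent.S24.B
open scoped MatrixGroups Manifold

/-! ### Abstract Lagrange interpolation -/

section Abstract

open Polynomial

variable {G R : Type*} [Group G] [CommRing R] [MulSemiringAction G R] (H : Subgroup G)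

/-- The conjugates `g • F`, `g ∈ G ⧸ H`, of an `H`-invariant element. -/
def lagConj (F : R) (hF : ∀ h ∈ H, h • F = F) (c : G ⧸ H) : R :=
  Quotient.liftOn' c (fun g => g • F) (by
    intro a b hab
    rw [QuotientGroup.leftRel_apply] at hab
    have h1 : b = a * (a⁻¹ * b) := by group
    show a • F = b • F
    rw [h1, mul_smul, hF _ hab])

theorem lagConj_mk (F : R) (hF : ∀ h ∈ H, h • F = F) (g : G) :
    lagConj H F hF (QuotientGroup.mk g) = g • F := rfl

theorem smul_lagConj (F : R) (hF : ∀ h ∈ H, h • F = F) (γ : G) (c : G ⧸ H) :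
    γ • lagConj H F hF c = lagConj H F hF (γ • c) := by
  induction c using QuotientGroup.induction_on with
  | H g =>
    rw [lagConj_mk, ← mul_smul]
    rfl

variable [Fintype (G ⧸ H)] [DecidableEq (G ⧸ H)]

/-- The Lagrange interpolation polynomial `∑_c F_c ∏_{c' ≠ c} (X - J_{c'})`. -/
def lagPoly (F J : R) (hF : ∀ h ∈ H, h • F = F) (hJ : ∀ h ∈ H, h • J = J) : R[X] :=
  ∑ c : G ⧸ H, C (lagConj H F hF c) *
    ∏ c' : G ⧸ H, if c' = c then 1 else X - C (lagConj H J hJ c')

theorem smul_lagPoly (F J : R) (hF : ∀ h ∈ H, h • F = F) (hJ : ∀ h ∈ H, h • J = J) (γ : G) :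
    γ • lagPoly H F J hF hJ = lagPoly H F J hF hJ := by
  unfold lagPoly
  rw [Finset.smul_sum]
  refine Fintype.sum_equiv (MulAction.toPerm γ) _ _ fun c => ?_
  rw [smul_mul', smul_C, smul_lagConj, Finset.smul_prod', MulAction.toPerm_apply]
  congr 1
  refine Fintype.prod_equiv (MulAction.toPerm γ) _ _ fun c' => ?_
  rw [MulAction.toPerm_apply]
  by_cases h : c' = c
  · rw [if_pos h, if_pos (by rw [h]), smul_one]
  · rw [if_neg h, if_neg (fun h' => h (smul_left_cancel γ h')), smul_sub, smul_X, smul_C,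
      smul_lagConj]

theorem smul_coeff_lagPoly (F J : R) (hF : ∀ h ∈ H, h • F = F) (hJ : ∀ h ∈ H, h • J = J) (γ : G)
    (k : ℕ) : γ • (lagPoly H F J hF hJ).coeff k = (lagPoly H F J hF hJ).coeff k := by
  rw [← coeff_smul, smul_lagPoly]

/-- The denominator `∏_{c' ≠ 1} (J - J_{c'})`. -/
def lagDen (J : R) (hJ : ∀ h ∈ H, h • J = J) : R :=
  ∏ c' : G ⧸ H, if c' = QuotientGroup.mk 1 then 1 else J - lagConj H J hJ c'

theorem eval_lagPoly (F J : R) (hF : ∀ h ∈ H, h • F = F) (hJ : ∀ h ∈ H, h • J = J) :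
    (lagPoly H F J hF hJ).eval J = F * lagDen H J hJ := by
  unfold lagPoly lagDen
  rw [eval_finsetSum, Finset.sum_eq_single (QuotientGroup.mk 1 : G ⧸ H)]
  · rw [eval_mul, eval_C, lagConj_mk, one_smul, eval_prod]
    congr 1
    refine Finset.prod_congr rfl fun c' _ => ?_
    split_ifs <;> simp
  · intro c _ hc
    rw [eval_mul, eval_prod, Finset.prod_eq_zero (Finset.mem_univ (QuotientGroup.mk 1 : G ⧸ H)),
      mul_zero]
    rw [if_neg (Ne.symm hc), eval_sub, eval_X, eval_C, lagConj_mk, one_smul, sub_self]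
  · intro h
    exact absurd (Finset.mem_univ _) h

theorem lagDen_ne_zero [IsDomain R] (J : R) (hJ : ∀ h ∈ H, h • J = J)
    (hJ' : ∀ g : G, g • J = J → g ∈ H) : lagDen H J hJ ≠ 0 := by
  unfold lagDen
  rw [Finset.prod_ne_zero_iff]
  intro c' _
  split_ifs with h
  · exact one_ne_zero
  · intro h0
    apply h
    induction c' using QuotientGroup.induction_on with
    | H g =>
      rw [lagConj_mk, sub_eq_zero] at h0
      rw [QuotientGroup.eq, mul_one]
      exact inv_mem (hJ' g h0.symm)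

end Abstract

/-! ### Application to `Γ₀(N)` -/

variable {N : ℕ} [NeZero N] {f : ℍ → ℂ}

/-- A polynomial over the nice functions with invariant coefficients, evaluated at `j_N`, is the
image of an element of `FN N`. -/
theorem exists_of_coeff_invariant (P : Polynomial (niceAlg N))
    (hP : ∀ (γ : SL(2, ℤ)) (k : ℕ), γ • P.coeff k = P.coeff k) :
    ∃ (a : FN N) (a' : AL N), Psi N a = algebraMap (AL N) (LN N) a' ∧
      P.eval (inclAL (jd N N dvd_rfl)) = inclAL a' := by
  choose p hp using fun k => exists_poly_of_smul_eq (P.coeff k) (fun γ => hP γ k)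
  refine ⟨∑ k ∈ Finset.range (P.natDegree + 1),
      Polynomial.aeval (jF N) (p k) * (JF N N dvd_rfl) ^ k,
    ∑ k ∈ Finset.range (P.natDegree + 1),
      Polynomial.aeval (jd N 1 (one_dvd N)) (p k) * (jd N N dvd_rfl) ^ k, ?_, ?_⟩
  · rw [map_sum, map_sum]
    refine Finset.sum_congr rfl fun k _ => ?_
    have h1 : Psi N (jF N) = algebraMap (AL N) (LN N) (jd N 1 (one_dvd N)) :=
      Psi_JF 1 (one_dvd N)
    rw [map_mul, map_mul, map_pow, map_pow, Psi_JF, ← Polynomial.aeval_algHom_apply, h1,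
      Polynomial.aeval_algebraMap_apply]
  · rw [Polynomial.eval_eq_sum_range, map_sum]
    refine Finset.sum_congr rfl fun k _ => ?_
    rw [map_mul, map_pow, ← hp k]

/-- A2.  Lagrange interpolation against `j_N` over the cosets of `Γ₀(N)`. -/
theorem exists_num_den (hf : IsModFun N f) :
    ∃ (a b : FN N) (a' b' : AL N), b' ≠ 0 ∧ Psi N a = algebraMap (AL N) (LN N) a' ∧
      Psi N b = algebraMap (AL N) (LN N) b' ∧ ∀ τ : ℍ, f τ * b'.1 τ = a'.1 τ := by
  classical
  let _ : Fintype (SL(2, ℤ) ⧸ CongruenceSubgroup.Gamma0 N) := Fintype.ofFinite _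
  set H := CongruenceSubgroup.Gamma0 N with hH
  let F : niceAlg N := ⟨f, hf.toIsNice⟩
  let J : niceAlg N := inclAL (jd N N dvd_rfl)
  have hF : ∀ h ∈ H, h • F = F := fun h hh =>
    Subtype.ext (funext fun τ => hf.inv h⁻¹ (inv_mem hh) τ)
  have hJ : ∀ h ∈ H, h • J = J := fun h hh => by
    show h • inclAL (jd N N dvd_rfl) = inclAL (jd N N dvd_rfl)
    rw [smul_inclAL, smul_jd_of_mem_Gamma0 h hh]
  have hJ' : ∀ g : SL(2, ℤ), g • J = J → g ∈ H := fun g hg => by
    apply mem_Gamma0_of_smul_jd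
    apply inclAL_injective
    rw [← smul_inclAL]
    exact hg
  have h1 : ∀ h ∈ H, h • (1 : niceAlg N) = 1 := fun h _ => smul_one h
  obtain ⟨a, a', ha, ha'⟩ := exists_of_coeff_invariant (lagPoly H F J hF hJ)
    (fun γ k => smul_coeff_lagPoly H F J hF hJ γ k)
  obtain ⟨b, b', hb, hb'⟩ := exists_of_coeff_invariant (lagPoly H 1 J h1 hJ)
    (fun γ k => smul_coeff_lagPoly H 1 J h1 hJ γ k)
  rw [eval_lagPoly] at ha' hb'
  rw [one_mul] at hb'
  refine ⟨a, b, a', b', ?_, ha, hb, fun τ => ?_⟩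
  · rintro rfl
    rw [map_zero] at hb'
    exact lagDen_ne_zero H J hJ hJ' hb'
  · rw [hb'] at ha'
    exact congrArg (fun g : niceAlg N => g.1 τ) ha'

end Fermat.Agent.Lib.EtaFN

end
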