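/-
Library EtaFN (architect helper210), node A3 (owner helper85): membership in `FN N`.
-/
import Fermat.Agent.Lib.EtaFN.Lagrange

set_option autoImplicit false

noncomputable section

namespace Fermat.Agent.Lib.EtaFN

open UpperHalfPlane ModularCurve AlgebraicCurve Fermat.Agent.S24 Fermat.Agent.S24.B
open scoped MatrixGroups Manifold Real ModularForm

variable {N : ℕ} [NeZero N] {f : ℍ → ℂ}

/-- The quotient `a / b` represents `f` as soon as `f * b' = a'` as functions. -/
theorem hasTExp_of_num_den (hf : IsNice N f) (a b : FN N) (a' b' : AL N) (hb' : b' ≠ 0)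
    (ha : Psi N a = algebraMap (AL N) (LN N) a') (hb : Psi N b = algebraMap (AL N) (LN N) b')
    (hfab : ∀ τ : ℍ, f τ * b'.1 τ = a'.1 τ) (γ : SL(2, ℤ)) :
    HasTExp N (fun τ => f (γ⁻¹ • τ)) (texpL N (γ • Psi N (a / b))) := by
  obtain ⟨s, hs⟩ := hf.texp γ⁻¹
  have h1 : HasTExp N ((fun τ => f (γ⁻¹ • τ)) * (γ • b').1) (s * texp N (γ • b')) :=
    hs.mul (hasTExp_texp (γ • b'))
  have h2 : (fun τ => f (γ⁻¹ • τ)) * (γ • b').1 = (γ • a').1 := by
    funext τ
    exact hfab (γ⁻¹ • τ)
  rw [h2] at h1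
  have h3 : s * texp N (γ • b') = texp N (γ • a') := h1.unique (hasTExp_texp (γ • a'))
  have h4 : texp N (γ • b') ≠ 0 := by
    intro h0
    apply hb'
    have h5 : γ • b' = 0 := texp_injective (by rw [h0, map_zero])
    exact (smul_eq_zero_iff_eq γ).mp h5
  have h6 : texpL N (γ • Psi N (a / b)) = s := by
    rw [map_div₀, ha, hb, smul_div₀', smul_algebraMap_AL, smul_algebraMap_AL, map_div₀,
      texpL_algebraMap, texpL_algebraMap, ← h3, mul_div_cancel_right₀ _ h4]
  rw [h6]
  exact hs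

/-- A3 `Member.lean`. -/
theorem exists_FN_of_isModFun (hf : IsModFun N f) :
    ∃ x : FN N, ∀ γ : SL(2, ℤ), HasTExp N (fun τ => f (γ⁻¹ • τ)) (texpL N (γ • Psi N x)) := by
  obtain ⟨a, b, a', b', hb', ha, hb, hfab⟩ := exists_num_den hf
  exact ⟨a / b, hasTExp_of_num_den hf.toIsNice a b a' b' hb' ha hb hfab⟩

/-- A3 `Member.lean`. -/
theorem hasTExp_level {S : LaurentSeries Kbar} (hS : HasTExp 1 f S) :
    HasTExp N f (qExpand Kbar N S) := by
  have h := hasTExp_tri (N := N) hS 1 0 1 one_pos one_pos N (by ring) 1 (by simp)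
  rw [twist_one] at h
  have h2 : (fun τ => f (triMat 1 0 1 one_pos one_pos • τ)) = f := by
    funext τ
    congr 1
    apply UpperHalfPlane.ext
    rw [coe_triMat_smul]
    simp
  rwa [h2] at h

/-- A3 `Member.lean`. -/
theorem coe_eq_of_hasTExp_one {x : FN N} (hx : HasTExp N f (texpL N (Psi N x)))
    {S : LaurentSeries Kbar} (hS : HasTExp 1 f S) : (x : LaurentSeries Kbar) = S := by
  rw [texpL_Psi] at hx
  exact qExpand_injective N (hx.unique (hasTExp_level hS))

/-- A3 `Member.lean`. -/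
theorem eq_of_hasTExp {x y : FN N} (hx : HasTExp N f (texpL N (Psi N x)))
    (hy : HasTExp N f (texpL N (Psi N y))) : x = y :=
  (Psi N).toRingHom.injective (texpL_injective (hx.unique hy))

end Fermat.Agent.Lib.EtaFN
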