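/-
Library EtaFN (helper210), node E0': the element of `FN N` attached to an invariant eta quotient of
weight `0`, and the integrality criteria E3.
-/
import Fermat.Agent.Lib.EtaFN.EtaModFun
import Fermat.Agent.Lib.EtaFN.Member
import Fermat.Agent.Lib.EtaFN.QExp
import Fermat.Agent.Lib.EtaFN.Integral
import Fermat.Agent.Lib.EtaFN.Shape
import Fermat.Agent.Lib.EtaUnit.TExp.Misc

set_option autoImplicit false

namespace Fermat.Agent.Lib.EtaFN

open UpperHalfPlane ModularCurve AlgebraicCurve Fermat.Agent.S24 Fermat.Agent.S24.B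
open Fermat.Agent.S28.EtaQuot CongruenceSubgroup
open scoped MatrixGroups Manifold Real ModularForm

variable {N : ℕ} [NeZero N]
variable {ι : Type*} {s : Finset ι} {D : ι → ℕ} {r : ι → ℤ}

theorem exists_FN_etaQuot (hD : ∀ i ∈ s, 0 < D i) (hDN : ∀ i ∈ s, D i ∣ N)
    (hr : ∑ i ∈ s, r i = 0)
    (hinv : ∀ γ ∈ Gamma0 N, ∀ τ : ℍ, etaQuot s D r (γ • τ) = etaQuot s D r τ)
    (m₀ : ℤ) (hm₀ : 24 * m₀ = ∑ i ∈ s, r i * D i) :
    ∃ x : FN N, (x : LaurentSeries Kbar) = HahnSeries.single m₀ 1 * etaSer s D r ∧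
      (∀ γ : SL(2, ℤ), HasTExp N (fun τ => etaQuot s D r (γ⁻¹ • τ)) (texpL N (γ • Psi N x))) ∧
      ∀ γ : SL(2, ℤ), ∃ (c : Kbar) (m : ℤ), IsUnitShape (texpL N (γ • Psi N x)) c m ∧
        24 * m = ∑ i ∈ s, r i * ((N * gA D (γ⁻¹ 1 0) i / gD D (γ⁻¹ 1 0) i : ℕ) : ℤ) ∧
        ∃ n : ℕ, 0 < n ∧
          c ^ (24 * n) = (∏ i ∈ s, ((gD D (γ⁻¹ 1 0) i : Kbar) ^ (-12 : ℤ)) ^ r i) ^ n := by
  obtain ⟨x, hx⟩ := exists_FN_of_isModFun (isModFun_etaQuot hD hDN hr hinv)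
  refine ⟨x, ?_, hx, fun γ => ?_⟩
  · have h1 := hx 1
    simp only [inv_one, one_smul] at h1
    exact coe_eq_of_hasTExp_one h1 (hasTExp_etaQuot hD m₀ hm₀)
  · obtain ⟨S, c, m, hS, hshape, hm, hn⟩ := etaQuot_shape hD hDN hr hinv γ⁻¹
    have := hS.unique (hx γ)
    subst this
    exact ⟨c, m, hshape, hm, hn⟩

theorem isIntegral_of_shape {f : ℍ → ℂ} (hf : IsModFun N f) (x : FN N)
    (hx : ∀ γ : SL(2, ℤ), HasTExp N (fun τ => f (γ⁻¹ • τ)) (texpL N (γ • Psi N x)))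
    (h : ∀ γ : SL(2, ℤ), ∃ (c : Kbar) (m : ℤ), IsUnitShape (texpL N (γ • Psi N x)) c m ∧
      IsIntegral ℤ c) : IsIntegral (Algebra.adjoin ℤ {jF N}) x := by
  refine isIntegral_of_isIntAtCusps hf (fun γ => ?_) x ?_
  · obtain ⟨c, m, hshape, hc⟩ := h γ⁻¹
    refine ⟨_, ?_, fun n => IsUnitShape.isIntegral_coeff hshape hc n⟩
    have := hx γ⁻¹
    simpa only [inv_inv] using this
  · have h1 := hx 1
    simpa only [inv_one, one_smul] using h1

theorem IsModFun.const_mul_inv {f : ℍ → ℂ} (hf : IsModFun N f) (hf0 : ∀ τ, f τ ≠ 0) (a : Kbar) :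
    IsModFun N (fun τ => iota a * (f τ)⁻¹) where
  mdiff := by
    have h1 : MDiff (fun τ => (f τ)⁻¹) := by
      have h0 := hf.mdiff
      rw [UpperHalfPlane.mdifferentiable_iff] at h0 ⊢
      exact (h0.inv fun z _ => hf0 _).congr fun z _ => rfl
    exact mdifferentiable_const.mul h1
  texp γ := by
    obtain ⟨S, hS⟩ := hf.texp γ
    exact ⟨HahnSeries.C a * S⁻¹, (hS.inv fun τ => hf0 _).const_mul a⟩
  inv γ hγ τ := by rw [hf.inv γ hγ τ]

theorem isIntegral_mul_inv_of_shape {f : ℍ → ℂ} (hf : IsModFun N f) (hf0 : ∀ τ, f τ ≠ 0)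
    (x : FN N)
    (hx : ∀ γ : SL(2, ℤ), HasTExp N (fun τ => f (γ⁻¹ • τ)) (texpL N (γ • Psi N x)))
    (a : Kbar)
    (h : ∀ γ : SL(2, ℤ), ∃ (c : Kbar) (m : ℤ), IsUnitShape (texpL N (γ • Psi N x)) c m ∧
      c ≠ 0 ∧ IsIntegral ℤ (a * c⁻¹)) :
    IsIntegral (Algebra.adjoin ℤ {jF N}) (algebraMap Kbar (FN N) a * x⁻¹) := by
  have key : ∀ γ : SL(2, ℤ), texpL N (γ • Psi N (algebraMap Kbar (FN N) a * x⁻¹)) =
      HahnSeries.C a * (texpL N (γ • Psi N x))⁻¹ := by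
    intro γ
    rw [map_mul, map_inv₀, smul_mul', smul_inv'', map_mul, map_inv₀, AlgHom.commutes,
      smul_algebraMap_Kbar, AlgHom.commutes, algebraMap_laurentSeries_eq_single]
    rfl
  refine isIntegral_of_shape (hf.const_mul_inv hf0 a) _ (fun γ => ?_) (fun γ => ?_)
  · rw [key]
    exact ((hx γ).inv fun τ => hf0 _).const_mul a
  · obtain ⟨c, m, hshape, -, hc⟩ := h γ
    refine ⟨a * c⁻¹, 0 + -m, ?_, hc⟩
    rw [key]
    exact IsUnitShape.mul (IsUnitShape.single a 0) (IsUnitShape.inv hshape)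

end Fermat.Agent.Lib.EtaFN
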