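/-
Library EtaFN (architect helper210), node E1: the ratio `G(E τ) / G(E' τ)` of two dilates of an eta
quotient `G` with character on `Γ₀(a)` is invariant under `Γ₀(N)`; its constants at the cusps.
Owner: helper294.
-/
import Fermat.Agent.Lib.EtaFN.Defs

set_option autoImplicit false
set_option linter.unusedSectionVars false
set_option linter.unusedVariables false

noncomputable section

namespace Fermat.Agent.Lib.EtaFN

open UpperHalfPlane ModularCurve AlgebraicCurve Fermat.Agent.S24 Fermat.Agent.S24.B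
open Fermat.Agent.S28.EtaQuot
open scoped MatrixGroups Manifold Real ModularForm

namespace Ratio

/-- The point `E τ`. -/
def dil (E : ℕ) (hE : 0 < E) (τ : ℍ) : ℍ :=
  ⟨(E : ℂ) * τ, by
    have h1 : ((E : ℂ) * τ).im = E * τ.im := by simp
    rw [h1]
    have := τ.im_pos
    positivity⟩

theorem coe_dil (E : ℕ) (hE : 0 < E) (τ : ℍ) : (dil E hE τ : ℂ) = (E : ℂ) * τ := rfl

/-- The matrix `[a, E b; c / E, d]`. -/
def conjMat (E : ℕ) (γ : SL(2, ℤ)) (c' : ℤ) (hc : γ 1 0 = c' * E) : SL(2, ℤ) :=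
  ⟨!![γ 0 0, E * γ 0 1; c', γ 1 1], by
    have h := γ.det_coe
    rw [Matrix.det_fin_two, hc] at h
    rw [Matrix.det_fin_two_of]
    linarith⟩

theorem conjMat_smul (E : ℕ) (hE : 0 < E) (γ : SL(2, ℤ)) (c' : ℤ) (hc : γ 1 0 = c' * E) (τ : ℍ) :
    conjMat E γ c' hc • dil E hE τ = dil E hE (γ • τ) := by
  apply UpperHalfPlane.ext
  rw [coe_dil, coe_specialLinearGroup_apply, coe_specialLinearGroup_apply, coe_dil, hc]
  simp only [conjMat, Matrix.SpecialLinearGroup.coe_mk, Matrix.of_apply, Matrix.cons_val_zero,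
    Matrix.cons_val_one, Matrix.cons_val', Matrix.cons_val_fin_one]
  push_cast
  rw [← mul_div_assoc]
  congr 1 <;> simp <;> ring

theorem denom_conjMat (E : ℕ) (hE : 0 < E) (γ : SL(2, ℤ)) (c' : ℤ) (hc : γ 1 0 = c' * E) (τ : ℍ) :
    denom (conjMat E γ c' hc) (dil E hE τ) = denom γ τ := by
  rw [ModularGroup.denom_apply, ModularGroup.denom_apply, coe_dil, hc]
  simp only [conjMat, Matrix.SpecialLinearGroup.coe_mk, Matrix.of_apply, Matrix.cons_val_zero,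
    Matrix.cons_val_one, Matrix.cons_val', Matrix.cons_val_fin_one]
  push_cast
  ring

section

variable {κ : Type*} [Fintype κ] {D₀ : κ → ℕ} {r₀ : κ → ℤ}

theorem etaQuot_ratio {E E' : ℕ} (hE : 0 < E) (hE' : 0 < E') (τ : ℍ) :
    etaQuot Finset.univ (ratioD D₀ E E') (ratioR r₀) τ =
      etaQuot Finset.univ D₀ r₀ (dil E hE τ) * (etaQuot Finset.univ D₀ r₀ (dil E' hE' τ))⁻¹ := by
  rw [etaQuot, Fintype.prod_sum_type, etaQuot, etaQuot, ← Finset.prod_inv_distrib]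
  congr 1
  · refine Finset.prod_congr rfl fun i _ => ?_
    simp only [ratioD, ratioR, Sum.elim_inl, coe_dil]
    congr 2
    push_cast
    ring
  · refine Finset.prod_congr rfl fun i _ => ?_
    simp only [ratioD, ratioR, Sum.elim_inr, coe_dil]
    rw [zpow_neg]
    congr 3
    push_cast
    ring

open CongruenceSubgroup in
theorem etaQuot_dil_smul {N : ℕ} {a : ℕ} {k : ℤ} {χ : ℤ → ℂ}
    (hG : ∀ γ ∈ Gamma0 a, etaQuot Finset.univ D₀ r₀ ∣[k] γ =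
      χ (γ 1 1) • etaQuot Finset.univ D₀ r₀)
    {E : ℕ} (hE : 0 < E) (hEN : a * E ∣ N) (γ : SL(2, ℤ)) (hγ : γ ∈ Gamma0 N) (τ : ℍ) :
    etaQuot Finset.univ D₀ r₀ (dil E hE (γ • τ)) =
      (χ (γ 1 1) * denom γ τ ^ k) * etaQuot Finset.univ D₀ r₀ (dil E hE τ) := by
  have h1 : ((a * E : ℕ) : ℤ) ∣ γ 1 0 := by
    rw [Gamma0_mem, ZMod.intCast_zmod_eq_zero_iff_dvd] at hγ
    exact (Int.natCast_dvd_natCast.mpr hEN).trans hγ
  obtain ⟨c'', hc''⟩ := h1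
  have hc : γ 1 0 = (a * c'') * E := by
    rw [hc'']
    push_cast
    ring
  have hmem : conjMat E γ (a * c'') hc ∈ Gamma0 a := by
    rw [Gamma0_mem]
    simp [conjMat]
  have h2 := congrFun (hG _ hmem) (dil E hE τ)
  rw [ModularForm.SL_slash_apply, conjMat_smul, denom_conjMat, Pi.smul_apply, smul_eq_mul] at h2
  have h3 : (conjMat E γ (a * c'') hc) 1 1 = γ 1 1 := by simp [conjMat]
  rw [h3] at h2
  have h4 : denom γ τ ≠ 0 := denom_ne_zero _ τ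
  rw [zpow_neg, mul_inv_eq_iff_eq_mul₀ (zpow_ne_zero _ h4)] at h2
  rw [h2]
  ring

end

theorem mul_div_gcd {E D : ℕ} (h : Nat.Coprime E D) (c : ℤ) :
    (E * D) / Int.gcd ((E * D : ℕ) : ℤ) c = (E / Int.gcd E c) * (D / Int.gcd D c) := by
  have h1 : Int.gcd ((E * D : ℕ) : ℤ) c = Int.gcd E c * Int.gcd D c := by
    simp only [Int.gcd, Int.natAbs_natCast]
    rw [Nat.gcd_comm, Nat.Coprime.gcd_mul _ h, Nat.gcd_comm, Nat.gcd_comm c.natAbs D]
  rw [h1]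
  apply Nat.mul_div_mul_comm
  · simp only [Int.gcd, Int.natAbs_natCast]
    exact Nat.gcd_dvd_left _ _
  · simp only [Int.gcd, Int.natAbs_natCast]
    exact Nat.gcd_dvd_left _ _

theorem prod_zpow_eq {ι L : Type*} [Field L] {x : L} (hx : x ≠ 0) (s : Finset ι) (f : ι → ℤ) :
    ∏ i ∈ s, x ^ f i = x ^ ∑ i ∈ s, f i := by
  classical
  induction s using Finset.induction_on with
  | empty => simp
  | insert i s hi ih => rw [Finset.prod_insert hi, Finset.sum_insert hi, ih, zpow_add₀ hx]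

theorem div_gcd_pos {D : ℕ} (hD : 0 < D) (c : ℤ) : 0 < D / Int.gcd D c := by
  have h1 : Int.gcd D c ∣ D := by
    simp only [Int.gcd, Int.natAbs_natCast]
    exact Nat.gcd_dvd_left _ _
  exact Nat.div_pos (Nat.le_of_dvd hD h1) (Nat.pos_of_dvd_of_pos h1 hD)

end Ratio

section E

open CongruenceSubgroup

variable {N : ℕ} [NeZero N]
variable {κ : Type*} [Fintype κ] {D₀ : κ → ℕ} {r₀ : κ → ℤ}

/-- E1 `Ratio.lean`. -/
theorem ratio_smul {a : ℕ} {k : ℤ} {χ : ℤ → ℂ} (hχ : ∀ d, χ d ≠ 0) (hD₀ : ∀ i, 0 < D₀ i)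
    (hG : ∀ γ ∈ Gamma0 a, etaQuot Finset.univ D₀ r₀ ∣[k] γ =
      χ (γ 1 1) • etaQuot Finset.univ D₀ r₀)
    {E E' : ℕ} (hE : 0 < E) (hE' : 0 < E') (hEN : a * E ∣ N) (hEN' : a * E' ∣ N)
    (γ : SL(2, ℤ)) (hγ : γ ∈ Gamma0 N) (τ : ℍ) :
    etaQuot Finset.univ (ratioD D₀ E E') (ratioR r₀) (γ • τ) =
      etaQuot Finset.univ (ratioD D₀ E E') (ratioR r₀) τ := by
  rw [Ratio.etaQuot_ratio hE hE', Ratio.etaQuot_ratio hE hE',
    Ratio.etaQuot_dil_smul hG hE hEN γ hγ τ, Ratio.etaQuot_dil_smul hG hE' hEN' γ hγ τ]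
  have h4 : denom γ τ ≠ 0 := denom_ne_zero _ τ
  have h5 : χ (γ 1 1) * denom γ τ ^ k ≠ 0 := mul_ne_zero (hχ _) (zpow_ne_zero _ h4)
  rw [mul_inv, mul_mul_mul_comm, mul_inv_cancel₀ h5, one_mul]

/-- E1 `Ratio.lean`. -/
theorem ratio_const {a : ℕ} (hD₀ : ∀ i, D₀ i ∣ a) (ha : 0 < a) {E E' : ℕ} (hE : 0 < E)
    (hE' : 0 < E') (hEa : Nat.Coprime E a) (hE'a : Nat.Coprime E' a) (k : ℤ)
    (hk : 2 * k = ∑ i, r₀ i) (c : ℤ) :
    ∏ i : κ ⊕ κ, ((gD (ratioD D₀ E E') c i : Kbar) ^ (-12 : ℤ)) ^ ratioR r₀ i =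
      (((E' / Int.gcd E' c : ℕ) : Kbar) / ((E / Int.gcd E c : ℕ) : Kbar)) ^ (24 * k) := by
  have hD₀pos : ∀ i, 0 < D₀ i := fun i => Nat.pos_of_dvd_of_pos (hD₀ i) ha
  set e : Kbar := ((E / Int.gcd E c : ℕ) : Kbar) with he
  set e' : Kbar := ((E' / Int.gcd E' c : ℕ) : Kbar) with he'
  have he0 : e ≠ 0 := Nat.cast_ne_zero.mpr (Ratio.div_gcd_pos hE c).ne'
  have he'0 : e' ≠ 0 := Nat.cast_ne_zero.mpr (Ratio.div_gcd_pos hE' c).ne'
  have hδ0 : ∀ i, ((D₀ i / Int.gcd (D₀ i) c : ℕ) : Kbar) ≠ 0 := fun i =>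
    Nat.cast_ne_zero.mpr (Ratio.div_gcd_pos (hD₀pos i) c).ne'
  have h1 : ∀ i, (gD (ratioD D₀ E E') c (Sum.inl i) : Kbar)
      = e * ((D₀ i / Int.gcd (D₀ i) c : ℕ) : Kbar) := by
    intro i
    rw [he, ← Nat.cast_mul, ← Ratio.mul_div_gcd (Nat.Coprime.coprime_dvd_right (hD₀ i) hEa) c]
    rfl
  have h2 : ∀ i, (gD (ratioD D₀ E E') c (Sum.inr i) : Kbar)
      = e' * ((D₀ i / Int.gcd (D₀ i) c : ℕ) : Kbar) := by
    intro i
    rw [he', ← Nat.cast_mul, ← Ratio.mul_div_gcd (Nat.Coprime.coprime_dvd_right (hD₀ i) hE'a) c]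
    rfl
  rw [Fintype.prod_sum_type, ← Finset.prod_mul_distrib]
  have h3 : ∀ i, ((gD (ratioD D₀ E E') c (Sum.inl i) : Kbar) ^ (-12 : ℤ)) ^ ratioR r₀ (Sum.inl i) *
      ((gD (ratioD D₀ E E') c (Sum.inr i) : Kbar) ^ (-12 : ℤ)) ^ ratioR r₀ (Sum.inr i)
      = ((e' / e) ^ (12 : ℤ)) ^ r₀ i := by
    intro i
    rw [h1, h2]
    simp only [ratioR, Sum.elim_inl, Sum.elim_inr]
    rw [zpow_neg _ (r₀ i), ← inv_zpow, ← mul_zpow]
    congr 1
    rw [zpow_neg, zpow_neg, inv_inv, mul_zpow, mul_zpow, div_zpow]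
    have := hδ0 i
    field_simp
  rw [Finset.prod_congr rfl (fun i _ => h3 i),
    Ratio.prod_zpow_eq (zpow_ne_zero _ (div_ne_zero he'0 he0)), ← hk, ← zpow_mul]
  congr 1
  ring

end E

end Fermat.Agent.Lib.EtaFN
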