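/-
Library EtaFN (helper210), node E2: the consumer form.  `x = G(E τ) / G(E' τ)` as an element of
`FN N`, for an eta quotient `G` of weight `k` with character on `Γ₀(a)`.
-/
import Fermat.Agent.Lib.EtaFN.EtaFN
import Fermat.Agent.Lib.EtaFN.Ratio

set_option autoImplicit false

namespace Fermat.Agent.Lib.EtaFN

open UpperHalfPlane ModularCurve AlgebraicCurve Fermat.Agent.S24 Fermat.Agent.S24.B
open Fermat.Agent.S28.EtaQuot CongruenceSubgroup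
open scoped MatrixGroups Manifold Real ModularForm

section Arith

theorem div_gcd_dvd_of_dvd_mul {E : ℕ} (hE : 0 < E) {n m : ℕ} (h : E ∣ m * n) :
    E / Nat.gcd E n ∣ m := by
  have hg : 0 < Nat.gcd E n := Nat.gcd_pos_of_pos_left _ hE
  have hcop : Nat.Coprime (E / Nat.gcd E n) (n / Nat.gcd E n) := Nat.coprime_div_gcd_div_gcd hg
  refine hcop.dvd_of_dvd_mul_right ?_
  have h1 : E / Nat.gcd E n * Nat.gcd E n ∣ m * (n / Nat.gcd E n) * Nat.gcd E n := by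
    rw [Nat.div_mul_cancel (Nat.gcd_dvd_left E n), mul_assoc,
      Nat.div_mul_cancel (Nat.gcd_dvd_right E n)]
    exact h
  exact Nat.dvd_of_mul_dvd_mul_right hg h1

theorem dvd_div_gcd_mul (E n : ℕ) : E ∣ E / Nat.gcd E n * n := by
  refine ⟨n / Nat.gcd E n, ?_⟩
  calc E / Nat.gcd E n * n = E / Nat.gcd E n * (Nat.gcd E n * (n / Nat.gcd E n)) := by
        rw [Nat.mul_div_cancel' (Nat.gcd_dvd_right E n)]
    _ = E * (n / Nat.gcd E n) := by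
        rw [← mul_assoc, Nat.div_mul_cancel (Nat.gcd_dvd_left E n)]

theorem div_gcd_dvd_div_gcd {E E' : ℕ} (hE : 0 < E) (h : E ∣ E') (c : ℤ) :
    E / Int.gcd E c ∣ E' / Int.gcd E' c := by
  simp only [Int.gcd, Int.natAbs_natCast]
  exact div_gcd_dvd_of_dvd_mul hE (h.trans (dvd_div_gcd_mul E' _))

theorem div_gcd_dvd_mul_div_gcd {E E' : ℕ} (hE' : 0 < E') (h : E ∣ E') (c : ℤ) :
    E' / Int.gcd E' c ∣ E' / E * (E / Int.gcd E c) := by
  simp only [Int.gcd, Int.natAbs_natCast]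
  refine div_gcd_dvd_of_dvd_mul hE' ?_
  obtain ⟨B, hB⟩ := dvd_div_gcd_mul E c.natAbs
  refine ⟨B, ?_⟩
  rw [mul_assoc, hB, ← mul_assoc, Nat.div_mul_cancel h]

theorem div_gcd_pos {E : ℕ} (hE : 0 < E) (c : ℤ) : 0 < E / Int.gcd E c := by
  have h1 : Int.gcd E c ∣ E := by
    simp only [Int.gcd, Int.natAbs_natCast]
    exact Nat.gcd_dvd_left _ _
  exact Nat.div_pos (Nat.le_of_dvd hE h1) (Nat.pos_of_dvd_of_pos h1 hE)

end Arith

theorem isIntegral_of_pow_eq_natCast {c : Kbar} {n : ℕ} (hn : 0 < n) {A : ℕ}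
    (h : c ^ n = (A : Kbar)) : IsIntegral ℤ c :=
  IsIntegral.of_pow hn (by
    rw [h]
    have := (isIntegral_algebraMap (R := ℤ) (A := Kbar) (x := (A : ℤ)))
    simpa using this)

variable {N : ℕ} [NeZero N]
variable {κ : Type*} [Fintype κ] {D₀ : κ → ℕ} {r₀ : κ → ℤ}

theorem exists_unit {a : ℕ} {k : ℤ} {χ : ℤ → ℂ} (hχ : ∀ d, χ d ≠ 0) (ha : 0 < a)
    (hD₀ : ∀ i, D₀ i ∣ a) (hk : 2 * k = ∑ i, r₀ i) (h0 : ∑ i, r₀ i * D₀ i = 0)
    (hG : ∀ γ ∈ Gamma0 a, etaQuot Finset.univ D₀ r₀ ∣[k] γ =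
      χ (γ 1 1) • etaQuot Finset.univ D₀ r₀)
    {E E' : ℕ} (hE : 0 < E) (hE' : 0 < E') (hEa : Nat.Coprime E a) (hE'a : Nat.Coprime E' a)
    (hEN : a * E ∣ N) (hEN' : a * E' ∣ N) :
    ∃ x : FN N, (x : LaurentSeries Kbar) = etaSer Finset.univ (ratioD D₀ E E') (ratioR r₀) ∧
      (∀ γ : SL(2, ℤ), HasTExp N
        (fun τ => etaQuot Finset.univ (ratioD D₀ E E') (ratioR r₀) (γ⁻¹ • τ))
        (texpL N (γ • Psi N x))) ∧
      (∀ γ : SL(2, ℤ), ∃ (c : Kbar) (m : ℤ), IsUnitShape (texpL N (γ • Psi N x)) c m ∧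
        ∃ n : ℕ, 0 < n ∧ c ^ n =
          ((((E' / Int.gcd E' (γ⁻¹ 1 0) : ℕ) : Kbar) / ((E / Int.gcd E (γ⁻¹ 1 0) : ℕ) : Kbar)) ^ k)
            ^ n) ∧
      (E ∣ E' → 0 ≤ k → IsIntegral (Algebra.adjoin ℤ {jF N}) x ∧
        IsIntegral (Algebra.adjoin ℤ {jF N})
          (algebraMap Kbar (FN N) (((E' / E : ℕ) : Kbar) ^ k) * x⁻¹)) := by
  have hD₀pos : ∀ i, 0 < D₀ i := fun i => Nat.pos_of_dvd_of_pos (hD₀ i) ha
  have hD : ∀ i ∈ (Finset.univ : Finset (κ ⊕ κ)), 0 < ratioD D₀ E E' i := by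
    rintro (i | i) -
    · exact Nat.mul_pos hE (hD₀pos i)
    · exact Nat.mul_pos hE' (hD₀pos i)
  have hDN : ∀ i ∈ (Finset.univ : Finset (κ ⊕ κ)), ratioD D₀ E E' i ∣ N := by
    rintro (i | i) -
    · exact (by simpa [ratioD, mul_comm] using Nat.mul_dvd_mul_right (hD₀ i) E : _ ∣ a * E).trans hEN
    · exact (by simpa [ratioD, mul_comm] using Nat.mul_dvd_mul_right (hD₀ i) E' :
        _ ∣ a * E').trans hEN'
  have hr : ∑ i : κ ⊕ κ, ratioR r₀ i = 0 := by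
    simp [ratioR, Fintype.sum_sum_type]
  have hinv : ∀ γ ∈ Gamma0 N, ∀ τ : ℍ,
      etaQuot Finset.univ (ratioD D₀ E E') (ratioR r₀) (γ • τ) =
        etaQuot Finset.univ (ratioD D₀ E E') (ratioR r₀) τ :=
    fun γ hγ τ => ratio_smul hχ hD₀pos hG hE hE' hEN hEN' γ hγ τ
  have hm₀ : 24 * (0 : ℤ) = ∑ i : κ ⊕ κ, ratioR r₀ i * ratioD D₀ E E' i := by
    have h1 : ∑ i, r₀ i * ((E * D₀ i : ℕ) : ℤ) = E * ∑ i, r₀ i * D₀ i := by
      rw [Finset.mul_sum]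
      exact Finset.sum_congr rfl fun i _ => by push_cast; ring
    have h2 : ∑ i, -r₀ i * ((E' * D₀ i : ℕ) : ℤ) = -(E' * ∑ i, r₀ i * D₀ i) := by
      rw [Finset.mul_sum, ← Finset.sum_neg_distrib]
      exact Finset.sum_congr rfl fun i _ => by push_cast; ring
    simp only [ratioR, ratioD, Fintype.sum_sum_type, Sum.elim_inl, Sum.elim_inr]
    rw [h1, h2, h0]
    simp
  obtain ⟨x, hx1, hx2, hx3⟩ := exists_FN_etaQuot hD hDN hr hinv 0 hm₀
  have hshape : ∀ γ : SL(2, ℤ), ∃ (c : Kbar) (m : ℤ), IsUnitShape (texpL N (γ • Psi N x)) c m ∧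
        ∃ n : ℕ, 0 < n ∧ c ^ n =
          ((((E' / Int.gcd E' (γ⁻¹ 1 0) : ℕ) : Kbar) / ((E / Int.gcd E (γ⁻¹ 1 0) : ℕ) : Kbar)) ^ k)
            ^ n := by
    intro γ
    obtain ⟨c, m, h1, -, n, hn, h2⟩ := hx3 γ
    refine ⟨c, m, h1, 24 * n, by positivity, ?_⟩
    rw [h2, ratio_const hD₀ ha hE hE' hEa hE'a k hk, mul_comm 24 k, zpow_mul, pow_mul]
    norm_cast
  refine ⟨x, ?_, hx2, hshape, fun hdvd hk0 => ?_⟩
  · rw [hx1]
    have : (HahnSeries.single (0 : ℤ) (1 : Kbar)) = 1 := rfl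
    rw [this, one_mul]
  · obtain ⟨k', rfl⟩ := Int.eq_ofNat_of_zero_le hk0
    have hmod := isModFun_etaQuot hD hDN hr hinv
    constructor
    · refine isIntegral_of_shape hmod x hx2 fun γ => ?_
      obtain ⟨c, m, h1, n, hn, h2⟩ := hshape γ
      refine ⟨c, m, h1, ?_⟩
      obtain ⟨B, hB⟩ := div_gcd_dvd_div_gcd hE hdvd (γ⁻¹ 1 0)
      have hpos := div_gcd_pos hE (γ⁻¹ 1 0)
      refine isIntegral_of_pow_eq_natCast (A := (B ^ k') ^ n) hn ?_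
      rw [h2, hB]
      have hne : ((E / Int.gcd E (γ⁻¹ 1 0) : ℕ) : Kbar) ≠ 0 := by exact_mod_cast hpos.ne'
      push_cast
      rw [mul_div_cancel_left₀ _ (by simpa using hne)]
      norm_cast
    · refine isIntegral_mul_inv_of_shape hmod (fun τ => etaQuot_ne_zero hD τ) x hx2 _
        fun γ => ?_
      obtain ⟨c, m, h1, n, hn, h2⟩ := hshape γ
      have hpos := div_gcd_pos hE (γ⁻¹ 1 0)
      have hpos' := div_gcd_pos hE' (γ⁻¹ 1 0)
      have hne : ((E / Int.gcd E (γ⁻¹ 1 0) : ℕ) : Kbar) ≠ 0 := by exact_mod_cast hpos.ne'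
      have hne' : ((E' / Int.gcd E' (γ⁻¹ 1 0) : ℕ) : Kbar) ≠ 0 := by exact_mod_cast hpos'.ne'
      have hc : c ≠ 0 := by
        intro h
        rw [h, zero_pow hn.ne'] at h2
        exact pow_ne_zero _ (zpow_ne_zero _ (div_ne_zero hne' hne)) h2.symm
      refine ⟨c, m, h1, hc, ?_⟩
      obtain ⟨B, hB⟩ := div_gcd_dvd_mul_div_gcd hE' hdvd (γ⁻¹ 1 0)
      refine isIntegral_of_pow_eq_natCast (A := (B ^ k') ^ n) hn ?_
      have hB' : ((E' / E : ℕ) : Kbar) * ((E / Int.gcd E (γ⁻¹ 1 0) : ℕ) : Kbar) =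
          ((E' / Int.gcd E' (γ⁻¹ 1 0) : ℕ) : Kbar) * (B : Kbar) := by exact_mod_cast hB
      rw [mul_pow, inv_pow, h2]
      simp only [zpow_natCast]
      rw [← inv_pow, ← inv_pow, ← mul_pow, ← mul_pow, inv_div, ← mul_div_assoc, hB',
        mul_div_cancel_left₀ _ hne']
      norm_cast

end Fermat.Agent.Lib.EtaFN
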