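/-
Library EtaFN (helper210), node E4: the weight one units at levels `4` and `9` and the Hauptmoduln
`t4`, `t9` as elements of `FN N`.
-/
import Fermat.Agent.Lib.EtaFN.Unit
import Fermat.Agent.Lib.EtaFN.CharEta

set_option autoImplicit false
set_option linter.unusedSectionVars false

namespace Fermat.Agent.Lib.EtaFN

open UpperHalfPlane ModularCurve AlgebraicCurve Fermat.Agent.S24 Fermat.Agent.S24.B
open Fermat.Agent.S28.EtaQuot CongruenceSubgroup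
open scoped MatrixGroups Manifold Real ModularForm

variable {N : ℕ} [NeZero N]

theorem chi4_ne_zero (d : ℤ) : chi4 d ≠ 0 := by
  unfold chi4
  split_ifs <;> simp

theorem chi3_ne_zero (d : ℤ) : chi3 d ≠ 0 := by
  unfold chi3
  split_ifs <;> simp

/-- The weight one unit at level `4`. -/
theorem exists_unit4 {E E' : ℕ} (hE : 0 < E) (hE' : 0 < E') (hE2 : Odd E) (hE2' : Odd E')
    (hEN : 4 * E ∣ N) (hEN' : 4 * E' ∣ N) :
    ∃ x : FN N, (x : LaurentSeries Kbar) = etaSer Finset.univ (ratioD D4 E E') (ratioR r4) ∧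
      (∀ γ : SL(2, ℤ), ∃ (c : Kbar) (m : ℤ), IsUnitShape (texpL N (γ • Psi N x)) c m ∧
        ∃ n : ℕ, 0 < n ∧ c ^ n =
          (((E' / Int.gcd E' (γ⁻¹ 1 0) : ℕ) : Kbar) / ((E / Int.gcd E (γ⁻¹ 1 0) : ℕ) : Kbar)) ^ n) ∧
      (E ∣ E' → IsIntegral (Algebra.adjoin ℤ {jF N}) x ∧
        IsIntegral (Algebra.adjoin ℤ {jF N}) (((E' / E : ℕ) : FN N) * x⁻¹)) := by
  have hc : ∀ {E : ℕ}, Odd E → Nat.Coprime E 4 := fun h =>
    Nat.Coprime.pow_right 2 (Nat.coprime_two_right.mpr h)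
  obtain ⟨x, h1, -, h3, h4⟩ := exists_unit (N := N) (a := 4) (k := 1) (D₀ := D4) (r₀ := r4)
    chi4_ne_zero (by norm_num) (by intro i; fin_cases i <;> simp [D4])
    (by simp [r4, Fin.sum_univ_three]) (by simp [r4, D4, Fin.sum_univ_three])
    G4_slash hE hE' (hc hE2) (hc hE2') hEN hEN'
  refine ⟨x, h1, fun γ => ?_, fun hdvd => ?_⟩
  · obtain ⟨c, m, hs, n, hn, h⟩ := h3 γ
    exact ⟨c, m, hs, n, hn, by rw [h, zpow_one]⟩
  · obtain ⟨h5, h6⟩ := h4 hdvd zero_le_one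
    refine ⟨h5, ?_⟩
    rwa [zpow_one, map_natCast] at h6

/-- The weight one unit at level `9`. -/
theorem exists_unit9 {E E' : ℕ} (hE : 0 < E) (hE' : 0 < E') (hE3 : ¬ 3 ∣ E) (hE3' : ¬ 3 ∣ E')
    (hEN : 9 * E ∣ N) (hEN' : 9 * E' ∣ N) :
    ∃ x : FN N, (x : LaurentSeries Kbar) = etaSer Finset.univ (ratioD D9 E E') (ratioR r9) ∧
      (∀ γ : SL(2, ℤ), ∃ (c : Kbar) (m : ℤ), IsUnitShape (texpL N (γ • Psi N x)) c m ∧
        ∃ n : ℕ, 0 < n ∧ c ^ n =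
          (((E' / Int.gcd E' (γ⁻¹ 1 0) : ℕ) : Kbar) / ((E / Int.gcd E (γ⁻¹ 1 0) : ℕ) : Kbar)) ^ n) ∧
      (E ∣ E' → IsIntegral (Algebra.adjoin ℤ {jF N}) x ∧
        IsIntegral (Algebra.adjoin ℤ {jF N}) (((E' / E : ℕ) : FN N) * x⁻¹)) := by
  have hc : ∀ {E : ℕ}, ¬ 3 ∣ E → Nat.Coprime E 9 := fun h =>
    Nat.Coprime.pow_right 2 (((Nat.Prime.coprime_iff_not_dvd Nat.prime_three).mpr h).symm)
  obtain ⟨x, h1, -, h3, h4⟩ := exists_unit (N := N) (a := 9) (k := 1) (D₀ := D9) (r₀ := r9)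
    chi3_ne_zero (by norm_num) (by intro i; fin_cases i <;> simp [D9])
    (by simp [r9, Fin.sum_univ_two]) (by simp [r9, D9, Fin.sum_univ_two])
    G9_slash hE hE' (hc hE3) (hc hE3') hEN hEN'
  refine ⟨x, h1, fun γ => ?_, fun hdvd => ?_⟩
  · obtain ⟨c, m, hs, n, hn, h⟩ := h3 γ
    exact ⟨c, m, hs, n, hn, by rw [h, zpow_one]⟩
  · obtain ⟨h5, h6⟩ := h4 hdvd zero_le_one
    refine ⟨h5, ?_⟩
    rwa [zpow_one, map_natCast] at h6

theorem Gamma0_le_of_dvd {a : ℕ} (h : a ∣ N) : Gamma0 N ≤ Gamma0 a := by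
  intro γ hγ
  rw [Gamma0_mem] at hγ ⊢
  rw [ZMod.intCast_zmod_eq_zero_iff_dvd] at hγ ⊢
  exact (Int.natCast_dvd_natCast.mpr h).trans hγ

theorem gcd_four_cases (c : ℤ) : Int.gcd 4 c = 1 ∨ Int.gcd 4 c = 2 ∨ Int.gcd 4 c = 4 := by
  have h1 : Int.gcd 4 c ∣ 4 := by
    have := Int.gcd_dvd_left 4 c
    exact_mod_cast this
  have h2 : Int.gcd 4 c ≤ 4 := Nat.le_of_dvd (by norm_num) h1
  interval_cases h : Int.gcd 4 c <;> simp_all

theorem gcd_nine_cases (c : ℤ) : Int.gcd 9 c = 1 ∨ Int.gcd 9 c = 3 ∨ Int.gcd 9 c = 9 := by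
  have h1 : Int.gcd 9 c ∣ 9 := by
    have := Int.gcd_dvd_left 9 c
    exact_mod_cast this
  have h2 : Int.gcd 9 c ≤ 9 := Nat.le_of_dvd (by norm_num) h1
  interval_cases h : Int.gcd 9 c <;> simp_all

/-- The Hauptmodul `t4 = η(τ)^8/η(4τ)^8 = 1/q - 8 + ⋯`. -/
theorem exists_t4 (hN : 4 ∣ N) :
    ∃ x : FN N, (x : LaurentSeries Kbar) = HahnSeries.single (-1) 1 * etaSer Finset.univ Dt4 rt4 ∧
      (∀ γ : SL(2, ℤ), ∃ (c : Kbar) (m : ℤ), IsUnitShape (texpL N (γ • Psi N x)) c m ∧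
        12 * m = (N : ℤ) * (4 - (Int.gcd 4 (γ⁻¹ 1 0) : ℤ) ^ 2) ∧
        ∃ n : ℕ, 0 < n ∧ c ^ n = (((4 / Int.gcd 4 (γ⁻¹ 1 0) : ℕ) : Kbar) ^ 4) ^ n) ∧
      IsIntegral (Algebra.adjoin ℤ {jF N}) x ∧
      IsIntegral (Algebra.adjoin ℤ {jF N}) ((256 : FN N) * x⁻¹) := by
  have hD : ∀ i ∈ (Finset.univ : Finset (Fin 2)), 0 < Dt4 i := by
    intro i _; fin_cases i <;> simp [Dt4]
  have hDN : ∀ i ∈ (Finset.univ : Finset (Fin 2)), Dt4 i ∣ N := by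
    intro i _; fin_cases i <;> simp [Dt4, hN]
  have hr : ∑ i : Fin 2, rt4 i = 0 := by simp [rt4, Fin.sum_univ_two]
  have hinv : ∀ γ ∈ Gamma0 N, ∀ τ : ℍ,
      etaQuot Finset.univ Dt4 rt4 (γ • τ) = etaQuot Finset.univ Dt4 rt4 τ :=
    fun γ hγ τ => t4_smul γ (Gamma0_le_of_dvd hN hγ) τ
  obtain ⟨x, hx1, hx2, hx3⟩ := exists_FN_etaQuot hD hDN hr hinv (-1)
    (by simp [rt4, Dt4, Fin.sum_univ_two])
  obtain ⟨N', rfl⟩ := hN
  have hshape : ∀ γ : SL(2, ℤ), ∃ (c : Kbar) (m : ℤ),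
      IsUnitShape (texpL (4 * N') (γ • Psi (4 * N') x)) c m ∧
        12 * m = ((4 * N' : ℕ) : ℤ) * (4 - (Int.gcd 4 (γ⁻¹ 1 0) : ℤ) ^ 2) ∧
        ∃ n : ℕ, 0 < n ∧ c ^ n = (((4 / Int.gcd 4 (γ⁻¹ 1 0) : ℕ) : Kbar) ^ 4) ^ n := by
    intro γ
    obtain ⟨c, m, h1, h2, n, hn, h3⟩ := hx3 γ
    refine ⟨c, m, h1, ?_, 24 * n, by positivity, ?_⟩
    · simp only [Fin.sum_univ_two, rt4, Dt4, gA, gD, Matrix.cons_val_zero, Matrix.cons_val_one,
        Nat.cast_one, Nat.cast_ofNat, Int.one_gcd] at h2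
      rcases gcd_four_cases (γ⁻¹ 1 0) with h | h | h <;> rw [h] at h2 ⊢ <;> norm_num at h2 ⊢ <;>
        linarith
    · rw [h3]
      simp only [Fin.prod_univ_two, rt4, Dt4, gD, Matrix.cons_val_zero, Matrix.cons_val_one,
        Nat.cast_one, Nat.cast_ofNat, Int.one_gcd]
      rcases gcd_four_cases (γ⁻¹ 1 0) with h | h | h <;> rw [h] <;> norm_num <;>
        rw [pow_mul] <;> norm_num
  have hmod := isModFun_etaQuot hD hDN hr hinv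
  refine ⟨x, hx1, hshape, ?_, ?_⟩
  · refine isIntegral_of_shape hmod x hx2 fun γ => ?_
    obtain ⟨c, m, h1, -, n, hn, h3⟩ := hshape γ
    exact ⟨c, m, h1, isIntegral_of_pow_eq_natCast (A := ((4 / Int.gcd 4 (γ⁻¹ 1 0)) ^ 4) ^ n) hn
      (by rw [h3]; norm_cast)⟩
  · have := isIntegral_mul_inv_of_shape hmod (fun τ => etaQuot_ne_zero hD τ) x hx2 256
      fun γ => ?_
    · rwa [map_ofNat] at this
    · obtain ⟨c, m, h1, -, n, hn, h3⟩ := hshape γ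
      have hc : c ≠ 0 := by
        intro h
        rw [h, zero_pow hn.ne'] at h3
        rcases gcd_four_cases (γ⁻¹ 1 0) with h | h | h <;> rw [h] at h3 <;> norm_num at h3 <;>
          exact absurd h3.symm (pow_ne_zero _ (by norm_num))
      refine ⟨c, m, h1, hc, isIntegral_of_pow_eq_natCast
        (A := ((Int.gcd 4 (γ⁻¹ 1 0)) ^ 4) ^ n) hn ?_⟩
      rw [mul_pow, inv_pow, h3]
      rcases gcd_four_cases (γ⁻¹ 1 0) with h | h | h <;> rw [h] <;> norm_num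
      rw [← inv_pow, ← mul_pow]; norm_num

/-- The Hauptmodul `t9 = η(τ)^3/η(9τ)^3 = 1/q - 3 + ⋯`. -/
theorem exists_t9 (hN : 9 ∣ N) :
    ∃ x : FN N, (x : LaurentSeries Kbar) = HahnSeries.single (-1) 1 * etaSer Finset.univ Dt9 rt9 ∧
      (∀ γ : SL(2, ℤ), ∃ (c : Kbar) (m : ℤ), IsUnitShape (texpL N (γ • Psi N x)) c m ∧
        72 * m = (N : ℤ) * (9 - (Int.gcd 9 (γ⁻¹ 1 0) : ℤ) ^ 2) ∧
        ∃ n : ℕ, 0 < n ∧ c ^ (2 * n) = (((9 / Int.gcd 9 (γ⁻¹ 1 0) : ℕ) : Kbar) ^ 3) ^ n) ∧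
      IsIntegral (Algebra.adjoin ℤ {jF N}) x ∧
      IsIntegral (Algebra.adjoin ℤ {jF N}) ((27 : FN N) * x⁻¹) := by
  have hD : ∀ i ∈ (Finset.univ : Finset (Fin 2)), 0 < Dt9 i := by
    intro i _; fin_cases i <;> simp [Dt9]
  have hDN : ∀ i ∈ (Finset.univ : Finset (Fin 2)), Dt9 i ∣ N := by
    intro i _; fin_cases i <;> simp [Dt9, hN]
  have hr : ∑ i : Fin 2, rt9 i = 0 := by simp [rt9, Fin.sum_univ_two]
  have hinv : ∀ γ ∈ Gamma0 N, ∀ τ : ℍ,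
      etaQuot Finset.univ Dt9 rt9 (γ • τ) = etaQuot Finset.univ Dt9 rt9 τ :=
    fun γ hγ τ => t9_smul γ (Gamma0_le_of_dvd hN hγ) τ
  obtain ⟨x, hx1, hx2, hx3⟩ := exists_FN_etaQuot hD hDN hr hinv (-1)
    (by simp [rt9, Dt9, Fin.sum_univ_two])
  obtain ⟨N', rfl⟩ := hN
  have hshape : ∀ γ : SL(2, ℤ), ∃ (c : Kbar) (m : ℤ),
      IsUnitShape (texpL (9 * N') (γ • Psi (9 * N') x)) c m ∧
        72 * m = ((9 * N' : ℕ) : ℤ) * (9 - (Int.gcd 9 (γ⁻¹ 1 0) : ℤ) ^ 2) ∧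
        ∃ n : ℕ, 0 < n ∧ c ^ (2 * n) = (((9 / Int.gcd 9 (γ⁻¹ 1 0) : ℕ) : Kbar) ^ 3) ^ n := by
    intro γ
    obtain ⟨c, m, h1, h2, n, hn, h3⟩ := hx3 γ
    refine ⟨c, m, h1, ?_, 12 * n, by positivity, ?_⟩
    · simp only [Fin.sum_univ_two, rt9, Dt9, gA, gD, Matrix.cons_val_zero, Matrix.cons_val_one,
        Nat.cast_one, Nat.cast_ofNat, Int.one_gcd] at h2
      rcases gcd_nine_cases (γ⁻¹ 1 0) with h | h | h <;> rw [h] at h2 ⊢ <;> norm_num at h2 ⊢ <;>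
        linarith
    · rw [← mul_assoc, show 2 * 12 = 24 by norm_num, h3]
      simp only [Fin.prod_univ_two, rt9, Dt9, gD, Matrix.cons_val_zero, Matrix.cons_val_one,
        Nat.cast_one, Nat.cast_ofNat, Int.one_gcd]
      rcases gcd_nine_cases (γ⁻¹ 1 0) with h | h | h <;> rw [h] <;> norm_num <;>
        rw [pow_mul] <;> norm_num
  have hmod := isModFun_etaQuot hD hDN hr hinv
  refine ⟨x, hx1, hshape, ?_, ?_⟩
  · refine isIntegral_of_shape hmod x hx2 fun γ => ?_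
    obtain ⟨c, m, h1, -, n, hn, h3⟩ := hshape γ
    exact ⟨c, m, h1, isIntegral_of_pow_eq_natCast (A := ((9 / Int.gcd 9 (γ⁻¹ 1 0)) ^ 3) ^ n)
      (n := 2 * n) (by positivity) (by rw [h3]; norm_cast)⟩
  · have := isIntegral_mul_inv_of_shape hmod (fun τ => etaQuot_ne_zero hD τ) x hx2 27
      fun γ => ?_
    · rwa [map_ofNat] at this
    · obtain ⟨c, m, h1, -, n, hn, h3⟩ := hshape γ
      have hc : c ≠ 0 := by
        intro h
        rw [h, zero_pow (by positivity)] at h3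
        rcases gcd_nine_cases (γ⁻¹ 1 0) with h | h | h <;> rw [h] at h3 <;> norm_num at h3 <;>
          exact absurd h3.symm (pow_ne_zero _ (by norm_num))
      refine ⟨c, m, h1, hc, isIntegral_of_pow_eq_natCast
        (A := ((Int.gcd 9 (γ⁻¹ 1 0)) ^ 3) ^ n) (n := 2 * n) (by positivity) ?_⟩
      rw [mul_pow, inv_pow, h3, pow_mul]
      rcases gcd_nine_cases (γ⁻¹ 1 0) with h | h | h <;> rw [h] <;> norm_num
      rw [← inv_pow, ← mul_pow]; norm_num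

end Fermat.Agent.Lib.EtaFN
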