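/-
Library EtaFN, node B3 (owner: helper125).  Elements integral over `ℤ[j]` are regular at the places
where `j` is regular.
-/
import Fermat.Agent.Lib.EtaFN.Nice
import Fermat.Agent.Lib.JExpansion
import Fermat.Agent.S24.FFBasic

set_option autoImplicit false

noncomputable section

namespace Fermat.Agent.Lib.EtaFN

open UpperHalfPlane ModularCurve AlgebraicCurve Fermat.Agent.S24 Fermat.Agent.S24.B
open Fermat.Agent.S28.EtaQuot
open scoped MatrixGroups Manifold Real ModularForm

section B
variable {N : ℕ} [NeZero N] {f : ℍ → ℂ}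

/-- B3 `OrdNonneg.lean`. -/
theorem ord_nonneg_of_isIntegral (x : FN N) (hx : IsIntegral (Algebra.adjoin ℤ {jF N}) x)
    (v : Place Kbar (FN N)) (hv : 0 ≤ v.ord (jF N)) : 0 ≤ v.ord x := by
  have hj : jF N ∈ v.toValuationSubring := Fermat.Agent.S24.FF.mem_of_ord_nonneg v hv
  have hle : ∀ a : Algebra.adjoin ℤ {jF N}, (a : FN N) ∈ v.toValuationSubring := by
    rintro ⟨a, ha⟩
    induction ha using Algebra.adjoin_induction with
    | mem y hy =>
      rw [Set.mem_singleton_iff] at hy
      subst hy
      exact hj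
    | algebraMap r =>
      change algebraMap ℤ (FN N) r ∈ v.toValuationSubring
      rw [eq_intCast]
      exact intCast_mem _ r
    | add y z _ _ hy hz => exact add_mem hy hz
    | mul y z _ _ hy hz => exact mul_mem hy hz
  obtain ⟨p, hp, hpx⟩ := hx
  let φ : Algebra.adjoin ℤ {jF N} →+* v.toValuationSubring :=
    (algebraMap (Algebra.adjoin ℤ {jF N}) (FN N)).codRestrict v.toValuationSubring.toSubring hle
  have hx' : IsIntegral v.toValuationSubring x :=
    ⟨p.map φ, hp.map φ, by rw [Polynomial.eval₂_map]; exact hpx⟩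
  obtain ⟨y, hy⟩ := IsIntegrallyClosed.isIntegral_iff.mp hx'
  apply Fermat.Agent.S24.FF.ord_nonneg_of_mem v
  rw [← hy]
  exact y.2

end B

end Fermat.Agent.Lib.EtaFN
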